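import Mathlib
import Fermat.Prelude.Def_GaloisRep_Flat

set_option autoImplicit false

/-! Hopf orders inside the algebra of Galois equivariant functions on a finite Galois module. -/

namespace Fermat.Agent.H02F

/-- the algebraic numbers -/
abbrev Qb : Type := AlgebraicClosure ℚ

/-- the absolute Galois group -/
abbrev GQ : Type := Qb ≃ₐ[ℚ] Qb

/-- `H` is a Hopf order (over `ℤ_(ℓ)`) in the algebra of equivariant functions on `M` -/
structure IsHopfOrder (ℓ : ℕ) {M : Type*} [AddCommGroup M] (act : GQ →* AddMonoid.End M)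
    (H : Subalgebra (GaloisRep.ratLocalizedAt ℓ) (M → Qb)) : Prop where
  fg : (Subalgebra.toSubmodule H).FG
  equiv : ∀ φ ∈ H, ∀ (σ : GQ) (m : M), φ (act σ m) = σ (φ m)
  sep : ∀ x y : M, x ≠ y → ∃ φ ∈ H, φ x ≠ φ y
  comul : ∀ φ ∈ H, ∃ (n : ℕ) (a b : Fin n → M → Qb), (∀ i, a i ∈ H) ∧ (∀ i, b i ∈ H) ∧
    ∀ x y, φ (x + y) = ∑ i, a i x * b i y

end Fermat.Agent.H02F
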