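import Mathlib
import Fermat.Agent.H02F.HopfDef

set_option autoImplicit false

/-! Local Hopf orders over a valuation ring of the algebraic numbers. -/

namespace Fermat.Agent.H02F

/-- `𝓗` is an `A`-algebra of functions on `M`, generated by functions equivariant under inertia,
stable under decomposition, separating points and stable under comultiplication. -/
structure LocalHopf (A : ValuationSubring Qb) {M : Type*} [AddCommGroup M]
    (act : GQ →* AddMonoid.End M) (𝓗 : Subalgebra A (M → Qb)) : Prop where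
  int : ∀ φ ∈ 𝓗, ∀ m, φ m ∈ A
  span : ∀ φ ∈ 𝓗, φ ∈ Submodule.span A {ψ : M → Qb | ψ ∈ 𝓗 ∧
    ∀ σ ∈ A.inertiaSubgroupIn ℚ, ∀ m, ψ (act σ m) = σ (ψ m)}
  stab : ∀ σ ∈ A.decompositionSubgroup ℚ, ∀ φ ∈ 𝓗, (fun m => σ (φ (act σ⁻¹ m))) ∈ 𝓗
  sep : ∀ x y : M, x ≠ y → ∃ φ ∈ 𝓗, φ x ≠ φ y
  comul : ∀ φ ∈ 𝓗, ∃ (n : ℕ) (a b : Fin n → M → Qb), (∀ i, a i ∈ 𝓗) ∧ (∀ i, b i ∈ 𝓗) ∧
    ∀ x y, φ (x + y) = ∑ i, a i x * b i y

end Fermat.Agent.H02F
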