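import Mathlib

set_option autoImplicit false

/-! Determinants with one distinguished row. -/

noncomputable section

namespace Fermat.Agent.H02F

variable {ι θ : Type*} [Fintype ι] [DecidableEq ι]

/-- the list of rows of a square matrix -/
def rows {R : Type*} (a X Y : ι → R) (T : θ → ι → R) : Option (Option (Option θ)) → ι → R
  | none => a
  | some none => X
  | some (some none) => Y
  | some (some (some t)) => T t

variable (e : Option (Option (Option θ)) ≃ ι)

/-- determinant of a matrix given by its rows -/
def DET {R : Type*} [CommRing R] (w : Option (Option (Option θ)) → ι → R) : R :=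
  Matrix.det (Matrix.of fun i j => w (e.symm i) j)

/-- cofactors along the first row -/
def cof {R : Type*} [CommRing R] (X Y : ι → R) (T : θ → ι → R) (j : ι) : R :=
  DET e (rows (Pi.single j 1) X Y T)

theorem map_DET {R S : Type*} [CommRing R] [CommRing S] (φ : R →+* S)
    (w : Option (Option (Option θ)) → ι → R) :
    φ (DET e w) = DET e (fun r j => φ (w r j)) := by
  unfold DET
  rw [RingHom.map_det]
  rfl

theorem map_rows {R S : Type*} (φ : R → S) (a X Y : ι → R) (T : θ → ι → R) :
    (fun r j => φ (rows a X Y T r j)) = rows (fun j => φ (a j)) (fun j => φ (X j))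
      (fun j => φ (Y j)) (fun t j => φ (T t j)) := by
  funext r j
  rcases r with _ | _ | _ | t <;> rfl

theorem DET_eq_sum {R : Type*} [CommRing R] (a X Y : ι → R) (T : θ → ι → R) :
    DET e (rows a X Y T) = ∑ j, a j * cof e X Y T j := by
  classical
  have h1 : ∀ a : ι → R, (Matrix.of fun i j => rows a X Y T (e.symm i) j) =
      Function.update (Matrix.of fun i j => rows (0 : ι → R) X Y T (e.symm i) j) (e none) a := by
    intro a
    funext i
    by_cases hi : i = e none
    · subst hi
      rw [Function.update_self]
      funext j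
      simp [rows]
    · rw [Function.update_of_ne hi]
      funext j
      have : e.symm i ≠ none := by
        intro h; apply hi; rw [← h, Equiv.apply_symm_apply]
      simp only [Matrix.of_apply]
      rcases h : e.symm i with _ | _ | _ | t
      · exact absurd h this
      all_goals rfl
  have h2 : a = ∑ j, a j • (Pi.single j (1 : R) : ι → R) := by
    funext k
    simp [Finset.sum_apply, Pi.single_apply]
  unfold cof DET
  rw [h1 a]
  conv_lhs => rw [h2]
  have h3 := Matrix.detRowAlternating.toMultilinearMap.map_update_sum Finset.univ (e none)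
    (fun j => a j • (Pi.single j (1 : R) : ι → R))
    (Matrix.of fun i j => rows (0 : ι → R) X Y T (e.symm i) j)
  refine h3.trans (Finset.sum_congr rfl fun j _ => ?_)
  rw [h1 (Pi.single j 1)]
  exact Matrix.detRowAlternating.toMultilinearMap.map_update_smul
    (Matrix.of fun i j => rows (0 : ι → R) X Y T (e.symm i) j) (e none) (a j)
    (Pi.single j (1 : R))

theorem DET_eq_zero_X {R : Type*} [CommRing R] (X Y : ι → R) (T : θ → ι → R) :
    ∑ j, X j * cof e X Y T j = 0 := by
  rw [← DET_eq_sum]
  refine Matrix.det_zero_of_row_eq (i := e none) (j := e (some none)) ?_ ?_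
  · simp
  · funext j; simp [rows]

theorem DET_eq_zero_Y {R : Type*} [CommRing R] (X Y : ι → R) (T : θ → ι → R) :
    ∑ j, Y j * cof e X Y T j = 0 := by
  rw [← DET_eq_sum]
  refine Matrix.det_zero_of_row_eq (i := e none) (j := e (some (some none))) ?_ ?_
  · simp
  · funext j; simp [rows]

theorem DET_eq_zero_T {R : Type*} [CommRing R] (X Y : ι → R) (T : θ → ι → R) (t : θ) :
    ∑ j, T t j * cof e X Y T j = 0 := by
  rw [← DET_eq_sum]
  refine Matrix.det_zero_of_row_eq (i := e none) (j := e (some (some (some t)))) ?_ ?_
  · simp
  · funext j; simp [rows]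

theorem DET_ne_zero {K : Type*} [Field K] (a X Y : ι → K) (T : θ → ι → K)
    (h : ∀ w : ι → K, ∑ j, a j * w j = 0 → ∑ j, X j * w j = 0 → ∑ j, Y j * w j = 0 →
      (∀ t, ∑ j, T t j * w j = 0) → w = 0) : DET e (rows a X Y T) ≠ 0 := by
  intro h0
  obtain ⟨v, hv, hv0⟩ := Matrix.exists_mulVec_eq_zero_iff.mpr h0
  apply hv
  have h1 : ∀ r, ∑ j, rows a X Y T r j * v j = 0 := by
    intro r
    have := congrFun hv0 (e r)
    simpa [Matrix.mulVec, dotProduct] using this
  exact h v (h1 none) (h1 (some none)) (h1 (some (some none))) fun t => h1 (some (some (some t)))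

end Fermat.Agent.H02F
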