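import Mathlib
import Fermat.Agent.H18_Places
import Fermat.Agent.Descent.Canonical

set_option autoImplicit false

/-! Elementary divisor theory on a curve all of whose places have degree one. -/

noncomputable section

open AlgebraicCurve Module

namespace Fermat.Agent.H02F

/-- function field of a curve with rational places -/
class Crv (K F : Type*) [Field K] [Field F] [Algebra K F] : Prop
    extends HasPrincipalDivisors K F where
  deg_one : ∀ v : Place K F, v.deg = 1
  ne : Nonempty (Place K F)

variable {K F : Type*} [Field K] [Field F] [Algebra K F]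

abbrev RR (D : Divisor K F) : Submodule K F := riemannRochSpace D

theorem mem_RR {D : Divisor K F} {f : F} :
    f ∈ RR D ↔ ∀ v : Place K F, f = 0 ∨ -D v ≤ v.ord f := mem_riemannRochSpace_iff

theorem mem_RR_of_ne {D : Divisor K F} {f : F} (hf : f ≠ 0) :
    f ∈ RR D ↔ ∀ v : Place K F, 0 ≤ v.ord f + D v := by
  rw [mem_RR]
  constructor
  · intro h v
    have := (h v).resolve_left hf
    omega
  · intro h v
    right
    have := h v
    omega

theorem RR_mono {D D' : Divisor K F} (h : D ≤ D') : RR D ≤ RR D' := by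
  intro f hf
  rw [mem_RR] at hf ⊢
  intro v
  rcases hf v with h1 | h1
  · exact Or.inl h1
  · right
    have := h v
    omega

theorem ord_smul {c : K} (hc : c ≠ 0) (v : Place K F) {f : F} (hf : f ≠ 0) :
    v.ord (c • f) = v.ord f := by
  rw [Algebra.smul_def, v.ord_mul (by simpa using hc) hf, H18.ord_algebraMap, zero_add]

variable [Crv K F]

/-- divisor of a function -/
def dv (f : F) : Divisor K F :=
  open Classical in
  if h : f ≠ 0 then (HasPrincipalDivisors.exists_divisor (K := K) f h).choose else 0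

@[simp] theorem dv_apply (f : F) (v : Place K F) : dv f v = v.ord f := by
  unfold dv
  split_ifs with h
  · exact (HasPrincipalDivisors.exists_divisor (K := K) f h).choose_spec.1 v
  · push Not at h
    rw [h]; simp

@[simp] theorem degree_dv (f : F) : Divisor.degree (dv f : Divisor K F) = 0 := by
  unfold dv
  split_ifs with h
  · exact (HasPrincipalDivisors.exists_divisor (K := K) f h).choose_spec.2
  · simp

theorem dv_mul {f g : F} (hf : f ≠ 0) (hg : g ≠ 0) :
    (dv (f * g) : Divisor K F) = dv f + dv g := by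
  ext v
  rw [Finsupp.add_apply, dv_apply, dv_apply, dv_apply, v.ord_mul hf hg]

theorem dv_inv (f : F) : (dv f⁻¹ : Divisor K F) = - dv f := by
  ext v
  rw [Finsupp.neg_apply, dv_apply, dv_apply, v.ord_inv]

theorem dv_mem_principal {f : F} (hf : f ≠ 0) :
    (dv f : Divisor K F) ∈ Divisor.principal (K := K) (F := F) := ⟨f, hf, dv_apply f⟩

theorem eq_dv_of_mem_principal {D : Divisor K F} (h : D ∈ Divisor.principal (K := K) (F := F)) :
    ∃ f : F, f ≠ 0 ∧ D = dv f := by
  obtain ⟨f, hf, h⟩ := h
  exact ⟨f, hf, Finsupp.ext fun v => by rw [h v, dv_apply]⟩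

theorem degree_of_principal {D : Divisor K F}
    (h : D ∈ Divisor.principal (K := K) (F := F)) : Divisor.degree D = 0 := by
  obtain ⟨f, -, rfl⟩ := eq_dv_of_mem_principal h
  exact degree_dv f

@[simp] theorem degree_single_one (v : Place K F) (n : ℤ) :
    Divisor.degree (Finsupp.single v n) = n := by
  rw [Divisor.degree_single, Crv.deg_one v]
  simp

theorem degree_nonneg_of {D : Divisor K F} (h : 0 ≤ D) : 0 ≤ Divisor.degree D := by
  rw [Divisor.degree, Finsupp.liftAddHom_apply]
  exact Finset.sum_nonneg fun v _ => mul_nonneg (h v) (by positivity)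

theorem degree_mono {D D' : Divisor K F} (h : D ≤ D') :
    Divisor.degree D ≤ Divisor.degree D' := by
  have := degree_nonneg_of (sub_nonneg.mpr h)
  rw [map_sub] at this
  omega

theorem le_degree {D : Divisor K F} (h : 0 ≤ D) (v : Place K F) : D v ≤ Divisor.degree D := by
  have h1 : Finsupp.single v (D v) ≤ D := by
    intro w
    by_cases hw : w = v
    · subst hw; simp
    · rw [Finsupp.single_eq_of_ne hw]; exact h w
  have := degree_mono h1
  rwa [degree_single_one] at this

theorem mem_RR_iff_dv {D : Divisor K F} {f : F} (hf : f ≠ 0) :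
    f ∈ RR D ↔ 0 ≤ dv f + D := by
  rw [mem_RR_of_ne hf]
  constructor
  · intro h v
    have := h v
    rw [Finsupp.add_apply, dv_apply]
    exact this
  · intro h v
    have := h v
    rw [Finsupp.add_apply, dv_apply] at this
    exact this

theorem RR_eq_bot_of_degree_neg {D : Divisor K F} (h : Divisor.degree D < 0) : RR D = ⊥ := by
  rw [eq_bot_iff]
  intro f hf
  rw [Submodule.mem_bot]
  by_contra hf0
  rw [mem_RR_iff_dv hf0] at hf
  have := degree_nonneg_of hf
  rw [map_add, degree_dv] at this
  omega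

theorem eq_zero_of_nonneg_of_degree {D : Divisor K F} (h : 0 ≤ D)
    (h0 : Divisor.degree D = 0) : D = 0 := by
  ext v
  have h1 := le_degree h v
  have h2 := h v
  rw [Finsupp.zero_apply] at h2 ⊢
  omega

/-- multiplication by a function -/
theorem mul_mem_RR {D : Divisor K F} {f g : F} (hg : g ≠ 0) (hf : f ∈ RR (D + dv g)) :
    f * g ∈ RR D := by
  by_cases hf0 : f = 0
  · rw [hf0, zero_mul]; exact zero_mem _
  rw [mem_RR_of_ne (mul_ne_zero hf0 hg)]
  rw [mem_RR_of_ne hf0] at hf
  intro v
  have := hf v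
  rw [Finsupp.add_apply, dv_apply] at this
  rw [v.ord_mul hf0 hg]
  omega

theorem mul_mem_RR_iff {D : Divisor K F} {f g : F} (hg : g ≠ 0) :
    f * g ∈ RR D ↔ f ∈ RR (D + dv g) := by
  constructor
  · intro h
    have h2 : (f * g) * g⁻¹ ∈ RR (D + dv g) := by
      apply mul_mem_RR (inv_ne_zero hg)
      rw [dv_inv, add_neg_cancel_right]
      exact h
    rwa [mul_inv_cancel_right₀ hg] at h2
  · exact mul_mem_RR hg

/-- multiplication as a linear equivalence -/
def RRequiv (D : Divisor K F) {g : F} (hg : g ≠ 0) : RR (D + dv g) ≃ₗ[K] RR D where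
  toFun f := ⟨(f : F) * g, mul_mem_RR hg f.2⟩
  invFun f := ⟨(f : F) * g⁻¹, (mul_mem_RR_iff (inv_ne_zero hg)).mpr (by
    rw [dv_inv, add_neg_cancel_right]; exact f.2)⟩
  left_inv f := Subtype.ext (mul_inv_cancel_right₀ hg _)
  right_inv f := Subtype.ext (inv_mul_cancel_right₀ hg _)
  map_add' f f' := Subtype.ext (add_mul _ _ _)
  map_smul' c f := Subtype.ext (smul_mul_assoc _ _ _)

/-- dimension of the Riemann-Roch space -/
def h0 (D : Divisor K F) : ℕ := finrank K (RR D)

theorem h0_dv (D : Divisor K F) {g : F} (hg : g ≠ 0) : h0 (D + dv g) = h0 D :=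
  (RRequiv D hg).finrank_eq

theorem h0_congr {D D' : Divisor K F} (h : D - D' ∈ Divisor.principal (K := K) (F := F)) :
    h0 D = h0 D' := by
  obtain ⟨g, hg, h⟩ := eq_dv_of_mem_principal h
  have : D = D' + dv g := by rw [← h]; abel
  rw [this, h0_dv _ hg]

theorem RR_le_sup (D : Divisor K F) (P : Place K F) :
    ∃ f₀ : F, RR (D + Finsupp.single P 1) ≤ RR D ⊔ Submodule.span K {f₀} := by
  classical
  by_cases h : RR (D + Finsupp.single P 1) ≤ RR D
  · exact ⟨0, h.trans le_sup_left⟩
  · obtain ⟨f₀, h1, h2⟩ := SetLike.not_le_iff_exists.mp h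
    refine ⟨f₀, fun f hf => ?_⟩
    have hf₀ : f₀ ≠ 0 := by
      rintro rfl
      exact h2 (zero_mem _)
    have ho : P.ord f₀ = - D P - 1 := by
      rw [mem_RR_of_ne hf₀] at h1 h2
      push Not at h2
      obtain ⟨w, hw⟩ := h2
      have hwP : w = P := by
        by_contra hne
        have := h1 w
        rw [Finsupp.add_apply, Finsupp.single_eq_of_ne hne] at this
        omega
      subst hwP
      have := h1 w
      rw [Finsupp.add_apply, Finsupp.single_eq_same] at this
      omega
    by_cases hf0 : f = 0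
    · rw [hf0]; exact zero_mem _
    have hq : 0 ≤ P.ord (f / f₀) := by
      rw [div_eq_mul_inv, P.ord_mul hf0 (inv_ne_zero hf₀), P.ord_inv, ho]
      have := (mem_RR_of_ne hf0).mp hf P
      rw [Finsupp.add_apply, Finsupp.single_eq_same] at this
      omega
    obtain ⟨c, hc⟩ := H26.exists_ord_sub_pos P (Crv.deg_one P) hq
    have hdec : f = (f - c • f₀) + c • f₀ := by ring
    rw [hdec]
    refine Submodule.add_mem_sup ?_ (Submodule.smul_mem _ _ (Submodule.mem_span_singleton_self _))
    by_cases h0 : f - c • f₀ = 0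
    · rw [h0]; exact zero_mem _
    have hmem : f - c • f₀ ∈ RR (D + Finsupp.single P 1) :=
      sub_mem hf (Submodule.smul_mem _ _ h1)
    rw [mem_RR_of_ne h0] at hmem ⊢
    intro w
    by_cases hw : w = P
    · subst hw
      have hfac : f - c • f₀ = (f / f₀ - algebraMap K F c) * f₀ := by
        rw [sub_mul, div_mul_cancel₀ _ hf₀, Algebra.smul_def]
      have hne : f / f₀ - algebraMap K F c ≠ 0 := by
        intro h3
        apply h0
        rw [hfac, h3, zero_mul]
      have hc' := hc.resolve_left hne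
      rw [hfac, w.ord_mul hne hf₀, ho]
      omega
    · have := hmem w
      rwa [Finsupp.add_apply, Finsupp.single_eq_of_ne hw, add_zero] at this

theorem finite_RR_add (D : Divisor K F) (P : Place K F) [Module.Finite K (RR D)] :
    Module.Finite K (RR (D + Finsupp.single P 1)) := by
  obtain ⟨f₀, h⟩ := RR_le_sup D P
  haveI : Module.Finite K (Submodule.span K {f₀}) :=
    Module.Finite.iff_fg.mpr (Submodule.fg_span (Set.finite_singleton _))
  exact Submodule.finiteDimensional_of_le h

theorem finite_RR_add_n (D : Divisor K F) (P : Place K F) [Module.Finite K (RR D)] (n : ℕ) :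
    Module.Finite K (RR (D + Finsupp.single P (n : ℤ))) := by
  induction n with
  | zero =>
    rw [Nat.cast_zero, Finsupp.single_zero, add_zero]
    infer_instance
  | succ n ih =>
    have : D + Finsupp.single P ((n + 1 : ℕ) : ℤ) =
        (D + Finsupp.single P (n : ℤ)) + Finsupp.single P 1 := by
      rw [add_assoc, ← Finsupp.single_add]; push_cast; rfl
    rw [this]
    exact finite_RR_add _ P

instance finite_RR (D : Divisor K F) : Module.Finite K (RR D) := by
  obtain ⟨P⟩ := Crv.ne (K := K) (F := F)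
  have hb : RR (D - Finsupp.single P (((Divisor.degree D).toNat + 1 : ℕ) : ℤ)) = ⊥ := by
    apply RR_eq_bot_of_degree_neg
    rw [map_sub, degree_single_one]
    have := Int.self_le_toNat (Divisor.degree D)
    push_cast
    omega
  haveI : Module.Finite K (RR (D - Finsupp.single P (((Divisor.degree D).toNat + 1 : ℕ) : ℤ))) := by
    rw [hb]; infer_instance
  have := finite_RR_add_n (D - Finsupp.single P (((Divisor.degree D).toNat + 1 : ℕ) : ℤ)) P
    ((Divisor.degree D).toNat + 1)
  rwa [sub_add_cancel] at this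

theorem h0_mono {D D' : Divisor K F} (h : D ≤ D') : h0 D ≤ h0 D' :=
  Submodule.finrank_mono (RR_mono h)

theorem h0_add_single_le (D : Divisor K F) (P : Place K F) :
    h0 (D + Finsupp.single P 1) ≤ h0 D + 1 := by
  obtain ⟨f₀, h⟩ := RR_le_sup D P
  haveI : Module.Finite K (Submodule.span K {f₀}) :=
    Module.Finite.iff_fg.mpr (Submodule.fg_span (Set.finite_singleton _))
  calc h0 (D + Finsupp.single P 1) ≤ finrank K ↥(RR D ⊔ Submodule.span K {f₀}) :=
        Submodule.finrank_mono h
    _ ≤ h0 D + finrank K (Submodule.span K {f₀}) :=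
        Submodule.finrank_add_le_finrank_add_finrank _ _
    _ ≤ h0 D + 1 := by
        have := finrank_span_le_card (R := K) ({f₀} : Set F)
        simpa using this

theorem single_nonneg (P : Place K F) : (0 : Divisor K F) ≤ Finsupp.single P 1 := by
  intro v
  by_cases h : v = P
  · subst h; simp
  · rw [Finsupp.single_eq_of_ne h]; simp

theorem h0_le_add_single (D : Divisor K F) (P : Place K F) :
    h0 D ≤ h0 (D + Finsupp.single P 1) := h0_mono (le_add_of_nonneg_right (single_nonneg P))

theorem h0_le_sub_single_add (D : Divisor K F) (P : Place K F) :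
    h0 D ≤ h0 (D - Finsupp.single P 1) + 1 := by
  have := h0_add_single_le (D - Finsupp.single P 1) P
  rwa [sub_add_cancel] at this

theorem h0_sub_single_le (D : Divisor K F) (P : Place K F) :
    h0 (D - Finsupp.single P 1) ≤ h0 D := h0_mono (sub_le_self _ (single_nonneg P))

theorem h0_eq_zero_iff {D : Divisor K F} : h0 D = 0 ↔ RR D = ⊥ := Submodule.finrank_eq_zero

theorem exists_ne_zero_of_h0_pos {D : Divisor K F} (h : 0 < h0 D) : ∃ f ∈ RR D, f ≠ 0 := by
  have : RR D ≠ ⊥ := fun h' => by rw [h0_eq_zero_iff.mpr h'] at h; exact lt_irrefl _ h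
  exact Submodule.exists_mem_ne_zero_of_ne_bot this

theorem h0_pos_of_mem {D : Divisor K F} {f : F} (hf : f ∈ RR D) (hf0 : f ≠ 0) : 0 < h0 D := by
  rw [Nat.pos_iff_ne_zero, ne_eq, h0_eq_zero_iff]
  intro h
  rw [h, Submodule.mem_bot] at hf
  exact hf0 hf

theorem smul_of_h0_le_one {D : Divisor K F} (h : h0 D ≤ 1) {f g : F} (hf : f ∈ RR D)
    (hf0 : f ≠ 0) (hg : g ∈ RR D) : ∃ c : K, g = c • f := by
  have h1 : h0 D = 1 := le_antisymm h (h0_pos_of_mem hf hf0)
  obtain ⟨c, hc⟩ := (finrank_eq_one_iff_of_nonzero' (⟨f, hf⟩ : RR D)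
    (by simpa [Subtype.ext_iff] using hf0)).mp h1 ⟨g, hg⟩
  exact ⟨c, (congrArg Subtype.val hc).symm⟩

theorem h0_zero_le : h0 (0 : Divisor K F) ≤ 1 := by
  obtain ⟨P⟩ := Crv.ne (K := K) (F := F)
  refine (h0_le_sub_single_add 0 P).trans ?_
  rw [h0_eq_zero_iff.mpr (RR_eq_bot_of_degree_neg (by
    rw [map_sub, degree_single_one, map_zero]; norm_num))]

theorem one_mem_RR {D : Divisor K F} (h : 0 ≤ D) : (1 : F) ∈ RR D := by
  rw [mem_RR_of_ne one_ne_zero]
  intro v
  rw [v.ord_one, zero_add]
  exact h v

theorem h0_le_one_of_degree_nonpos {D : Divisor K F} (h : Divisor.degree D ≤ 0) : h0 D ≤ 1 := by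
  obtain ⟨P⟩ := Crv.ne (K := K) (F := F)
  refine (h0_le_sub_single_add D P).trans ?_
  rw [h0_eq_zero_iff.mpr (RR_eq_bot_of_degree_neg (by
    rw [map_sub, degree_single_one]; omega))]

theorem h0_eq_zero_of_degree_neg {D : Divisor K F} (h : Divisor.degree D < 0) : h0 D = 0 :=
  h0_eq_zero_iff.mpr (RR_eq_bot_of_degree_neg h)

/-- a function is determined by its divisor up to a constant -/
theorem smul_of_dv_le {f g : F} (hf : f ≠ 0) (hg : g ∈ RR (-(dv f) : Divisor K F)) :
    ∃ c : K, g = c • f := by
  have h1 : f ∈ RR (-(dv f) : Divisor K F) := by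
    rw [mem_RR_iff_dv hf, add_neg_cancel]
  exact smul_of_h0_le_one (h0_le_one_of_degree_nonpos (by rw [map_neg, degree_dv, neg_zero]))
    h1 hf hg

end Fermat.Agent.H02F
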