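import Mathlib
import Fermat.Agent.H02F.Crv

set_option autoImplicit false

/-! Evaluation of functions at rational places. -/

noncomputable section

open AlgebraicCurve Module

namespace Fermat.Agent.H02F

variable {K F : Type*} [Field K] [Field F] [Algebra K F]

/-- `f` is regular at `v` -/
def Reg (v : Place K F) (f : F) : Prop := f ∈ v.toValuationSubring

theorem reg_iff {v : Place K F} {f : F} : Reg v f ↔ 0 ≤ v.ord f := H18.mem_iff v

theorem Reg.add {v : Place K F} {f g : F} (hf : Reg v f) (hg : Reg v g) : Reg v (f + g) :=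
  add_mem hf hg

theorem Reg.sub {v : Place K F} {f g : F} (hf : Reg v f) (hg : Reg v g) : Reg v (f - g) :=
  sub_mem hf hg

theorem Reg.mul {v : Place K F} {f g : F} (hf : Reg v f) (hg : Reg v g) : Reg v (f * g) :=
  mul_mem hf hg

theorem reg_alg (v : Place K F) (c : K) : Reg v (algebraMap K F c) := v.algebraMap_mem' c

theorem reg_zero (v : Place K F) : Reg v (0 : F) := zero_mem _

theorem reg_one (v : Place K F) : Reg v (1 : F) := one_mem _

theorem Reg.smul {v : Place K F} {f : F} (c : K) (hf : Reg v f) : Reg v (c • f) := by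
  rw [Algebra.smul_def]
  exact (reg_alg v c).mul hf

theorem Reg.sum {v : Place K F} {ι : Type*} {s : Finset ι} {f : ι → F}
    (h : ∀ i ∈ s, Reg v (f i)) : Reg v (∑ i ∈ s, f i) := sum_mem h

theorem Reg.pow {v : Place K F} {f : F} (hf : Reg v f) (n : ℕ) : Reg v (f ^ n) := pow_mem hf n

/-- `f` vanishes at `v` -/
def Van (v : Place K F) (f : F) : Prop := f = 0 ∨ 0 < v.ord f

theorem Van.reg {v : Place K F} {f : F} (h : Van v f) : Reg v f := by
  rcases h with rfl | h
  · exact reg_zero v
  · exact reg_iff.mpr h.le

theorem van_zero (v : Place K F) : Van v (0 : F) := Or.inl rfl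

theorem Van.add {v : Place K F} {f g : F} (hf : Van v f) (hg : Van v g) : Van v (f + g) := by
  by_cases h : f + g = 0
  · exact Or.inl h
  right
  have := H18.le_ord_add v (n := 1) h (hf.imp_right fun h => by omega)
    (hg.imp_right fun h => by omega)
  omega

theorem Van.neg {v : Place K F} {f : F} (hf : Van v f) : Van v (-f) := by
  rcases hf with rfl | hf
  · left; simp
  · right; rwa [H18.ord_neg]

theorem Van.sub {v : Place K F} {f g : F} (hf : Van v f) (hg : Van v g) : Van v (f - g) := by
  rw [sub_eq_add_neg]
  exact hf.add hg.neg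

theorem Van.mul_left {v : Place K F} {f g : F} (hf : Reg v f) (hg : Van v g) : Van v (f * g) := by
  rcases hg with rfl | hg
  · left; simp
  · by_cases hf0 : f = 0
    · left; simp [hf0]
    · right
      have hg0 : g ≠ 0 := by
        rintro rfl
        rw [v.ord_zero] at hg
        exact lt_irrefl _ hg
      rw [v.ord_mul hf0 hg0]
      have := reg_iff.mp hf
      omega

theorem Van.mul_right {v : Place K F} {f g : F} (hf : Van v f) (hg : Reg v g) :
    Van v (f * g) := by
  rw [mul_comm]; exact Van.mul_left hg hf

theorem not_van_const {v : Place K F} {c : K} (hc : c ≠ 0) : ¬ Van v (algebraMap K F c) := by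
  rintro (h | h)
  · exact hc (by simpa using h)
  · rw [H18.ord_algebraMap] at h
    exact lt_irrefl _ h

variable [Crv K F]

theorem exists_ev {v : Place K F} {f : F} (hf : Reg v f) :
    ∃ c : K, Van v (f - algebraMap K F c) :=
  H26.exists_ord_sub_pos v (Crv.deg_one v) (reg_iff.mp hf)

/-- value of a regular function -/
def ev (v : Place K F) (f : F) : K :=
  open Classical in if h : Reg v f then (exists_ev h).choose else 0

theorem van_sub_ev {v : Place K F} {f : F} (hf : Reg v f) :
    Van v (f - algebraMap K F (ev v f)) := by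
  unfold ev
  rw [dif_pos hf]
  exact (exists_ev hf).choose_spec

theorem ev_unique {v : Place K F} {f : F} {c : K} (h : Van v (f - algebraMap K F c)) :
    ev v f = c := by
  have hf : Reg v f := by
    have := h.reg.add (reg_alg v c)
    rwa [sub_add_cancel] at this
  by_contra hne
  have h1 := (van_sub_ev hf).sub h
  have h2 : f - algebraMap K F (ev v f) - (f - algebraMap K F c) =
      algebraMap K F (c - ev v f) := by
    rw [map_sub]; ring
  rw [h2] at h1
  exact not_van_const (sub_ne_zero.mpr (Ne.symm hne)) h1

theorem ev_alg (v : Place K F) (c : K) : ev v (algebraMap K F c) = c :=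
  ev_unique (by rw [sub_self]; exact van_zero v)

theorem ev_zero (v : Place K F) : ev v (0 : F) = 0 := by
  have := ev_alg v (0 : K)
  rwa [map_zero] at this

theorem ev_one (v : Place K F) : ev v (1 : F) = 1 := by
  have := ev_alg v (1 : K)
  rwa [map_one] at this

theorem ev_add {v : Place K F} {f g : F} (hf : Reg v f) (hg : Reg v g) :
    ev v (f + g) = ev v f + ev v g := by
  apply ev_unique
  have := (van_sub_ev hf).add (van_sub_ev hg)
  rw [map_add]
  convert this using 1
  ring

theorem ev_mul {v : Place K F} {f g : F} (hf : Reg v f) (hg : Reg v g) :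
    ev v (f * g) = ev v f * ev v g := by
  apply ev_unique
  have h1 := (van_sub_ev hf).mul_right hg
  have h2 := Van.mul_left (reg_alg v (ev v f)) (van_sub_ev hg)
  have := h1.add h2
  rw [map_mul]
  convert this using 1
  ring

theorem ev_smul {v : Place K F} (c : K) {f : F} (hf : Reg v f) :
    ev v (c • f) = c * ev v f := by
  rw [Algebra.smul_def, ev_mul (reg_alg v c) hf, ev_alg]

theorem ev_sub {v : Place K F} {f g : F} (hf : Reg v f) (hg : Reg v g) :
    ev v (f - g) = ev v f - ev v g := by
  have := ev_add (hf.sub hg) hg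
  rw [sub_add_cancel] at this
  rw [this, add_sub_cancel_right]

theorem ev_sum {v : Place K F} {ι : Type*} {s : Finset ι} {f : ι → F}
    (h : ∀ i ∈ s, Reg v (f i)) : ev v (∑ i ∈ s, f i) = ∑ i ∈ s, ev v (f i) := by
  classical
  induction s using Finset.induction_on with
  | empty => simp [ev_zero]
  | insert a s ha ih =>
    rw [Finset.sum_insert ha, Finset.sum_insert ha, ev_add (h a (Finset.mem_insert_self _ _))
      (Reg.sum fun i hi => h i (Finset.mem_insert_of_mem hi)),
      ih fun i hi => h i (Finset.mem_insert_of_mem hi)]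

theorem ev_pow {v : Place K F} {f : F} (hf : Reg v f) (n : ℕ) :
    ev v (f ^ n) = ev v f ^ n := by
  induction n with
  | zero => simp [ev_one]
  | succ n ih => rw [pow_succ, pow_succ, ev_mul (hf.pow n) hf, ih]

theorem ev_eq_zero_iff {v : Place K F} {f : F} (hf : Reg v f) : ev v f = 0 ↔ Van v f := by
  constructor
  · intro h
    have := van_sub_ev hf
    rwa [h, map_zero, sub_zero] at this
  · intro h
    apply ev_unique
    rwa [map_zero, sub_zero]

theorem ev_ne_zero_of_ord {v : Place K F} {f : F} (hf : f ≠ 0) (h : v.ord f = 0) :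
    ev v f ≠ 0 := by
  intro h0
  rcases (ev_eq_zero_iff (reg_iff.mpr h.ge)).mp h0 with h1 | h1
  · exact hf h1
  · omega

theorem reg_of_mem_RR {D : Divisor K F} {f : F} (hf : f ∈ RR D) {v : Place K F} (h : D v ≤ 0) :
    Reg v f := by
  rw [mem_RR] at hf
  rcases hf v with rfl | h1
  · exact reg_zero v
  · rw [reg_iff]; omega

theorem van_of_mem_RR {D : Divisor K F} {f : F} (hf : f ∈ RR D) {v : Place K F} (h : D v < 0) :
    Van v f := by
  rw [mem_RR] at hf
  rcases hf v with rfl | h1
  · exact van_zero v
  · right; omega

/-- improvement at a place where the function vanishes -/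
theorem mem_RR_sub_of_van {D : Divisor K F} {f : F} (hf : f ∈ RR D) {v : Place K F}
    (h : D v = 0) (hv : Van v f) : f ∈ RR (D - Finsupp.single v 1) := by
  rcases hv with rfl | hv
  · exact zero_mem _
  rw [mem_RR] at hf ⊢
  intro w
  by_cases hw : w = v
  · subst hw
    right
    rw [Finsupp.sub_apply, Finsupp.single_eq_same]
    omega
  · rw [Finsupp.sub_apply, Finsupp.single_eq_of_ne hw, sub_zero]
    exact hf w

end Fermat.Agent.H02F
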