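import Mathlib
import Fermat.Agent.H02F.Ev

set_option autoImplicit false

/-! Generic points on a curve. -/

noncomputable section

open AlgebraicCurve Module

namespace Fermat.Agent.H02F

variable {K F : Type*} [Field K] [Field F] [Algebra K F] [Crv K F]

/-- upper bound part of Riemann-Roch in large degree -/
def UB (K F : Type*) [Field K] [Field F] [Algebra K F] (g : ℤ) : Prop :=
  ∃ c : ℤ, ∀ D : Divisor K F, c ≤ Divisor.degree D → (h0 D : ℤ) ≤ Divisor.degree D + 1 - g

theorem exists_ord_eq_of_lt {B : Divisor K F} {P : Place K F}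
    (h : h0 B < h0 (B + Finsupp.single P 1)) :
    ∃ f ∈ RR (B + Finsupp.single P 1), f ≠ 0 ∧ P.ord f = -B P - 1 := by
  have hne : ¬ RR (B + Finsupp.single P 1) ≤ RR B := fun hle =>
    absurd (Submodule.finrank_mono hle) (not_le.mpr h)
  obtain ⟨f, h1, h2⟩ := SetLike.not_le_iff_exists.mp hne
  have hf : f ≠ 0 := by
    rintro rfl
    exact h2 (zero_mem _)
  refine ⟨f, h1, hf, ?_⟩
  rw [mem_RR_of_ne hf] at h1 h2
  push Not at h2
  obtain ⟨w, hw⟩ := h2
  have hwP : w = P := by
    by_contra hne
    have := h1 w
    rw [Finsupp.add_apply, Finsupp.single_eq_of_ne hne] at this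
    omega
  subst hwP
  have := h1 w
  rw [Finsupp.add_apply, Finsupp.single_eq_same] at this
  omega

/-- the divisor of a finite set of places -/
def ds (s : Finset (Place K F)) : Divisor K F := ∑ P ∈ s, Finsupp.single P 1

theorem ds_apply (s : Finset (Place K F)) (v : Place K F) [Decidable (v ∈ s)] :
    ds s v = if v ∈ s then 1 else 0 := by
  classical
  unfold ds
  rw [Finsupp.finsetSum_apply]
  by_cases h : v ∈ s
  · rw [if_pos h, Finset.sum_eq_single v]
    · simp
    · intro w _ hw
      rw [Finsupp.single_eq_of_ne hw.symm]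
    · intro h'; exact absurd h h'
  · rw [if_neg h, Finset.sum_eq_zero]
    intro w hw
    rw [Finsupp.single_eq_of_ne]
    rintro rfl
    exact h hw

theorem ds_insert [DecidableEq (Place K F)] {s : Finset (Place K F)} {P : Place K F}
    (h : P ∉ s) : ds (insert P s) = Finsupp.single P 1 + ds s := by
  unfold ds
  rw [Finset.sum_insert h]

@[simp] theorem degree_ds (s : Finset (Place K F)) : Divisor.degree (ds s) = s.card := by
  unfold ds
  rw [map_sum, Finset.sum_congr rfl fun P _ => degree_single_one P 1]
  simp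

theorem ds_nonneg (s : Finset (Place K F)) : 0 ≤ ds s :=
  Finset.sum_nonneg fun _ _ => single_nonneg _

theorem h0_ge_of_bad (B : Divisor K F) (s : Finset (Place K F))
    (h : ∀ P ∈ s, h0 B < h0 (B + Finsupp.single P 1)) : h0 B + s.card ≤ h0 (B + ds s) := by
  classical
  induction s using Finset.induction_on with
  | empty => simp [ds]
  | insert P s hP ih =>
    have ih' := ih fun Q hQ => h Q (Finset.mem_insert_of_mem hQ)
    obtain ⟨f, h1, hf, h2⟩ := exists_ord_eq_of_lt (h P (Finset.mem_insert_self _ _))
    have hlt : RR (B + ds s) < RR (B + ds (insert P s)) := by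
      rw [lt_iff_le_not_ge]
      refine ⟨RR_mono ?_, fun hle => ?_⟩
      · rw [ds_insert hP]
        exact add_le_add_right (le_add_of_nonneg_left (single_nonneg P)) B
      · have h3 : f ∈ RR (B + ds (insert P s)) := by
          refine RR_mono ?_ h1
          rw [ds_insert hP]
          exact add_le_add_right (le_add_of_nonneg_right (ds_nonneg s)) B
        have h4 := (mem_RR_of_ne hf).mp (hle h3) P
        rw [Finsupp.add_apply, ds_apply, if_neg hP] at h4
        omega
    have := Submodule.finrank_lt_finrank_of_lt hlt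
    rw [Finset.card_insert_of_notMem hP]
    change h0 (B + ds s) < h0 (B + ds (insert P s)) at this
    omega

/-- the tame lemma -/
theorem tame {g : ℤ} (hK : UB K F g) (n : ℕ) (B : Divisor K F)
    (hB : (h0 B : ℤ) ≤ max (n : ℤ) (Divisor.degree B + 1 - g)) :
    {P : Place K F | ¬ (h0 (B + Finsupp.single P 1) : ℤ) ≤
      max (n : ℤ) (Divisor.degree (B + Finsupp.single P 1) + 1 - g)}.Finite := by
  classical
  by_contra hinf
  obtain ⟨c, hc⟩ := hK
  by_cases h1 : (h0 B : ℤ) ≤ Divisor.degree B + 1 - g
  · apply hinf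
    convert Set.finite_empty
    ext P
    simp only [Set.mem_ofPred_eq, Set.mem_empty_iff_false, iff_false, not_not]
    refine le_max_of_le_right ?_
    have := h0_add_single_le B P
    rw [map_add, degree_single_one]
    omega
  have h1' : (h0 B : ℤ) ≤ n := by
    rcases le_max_iff.mp hB with h | h
    · exact h
    · exact absurd h h1
  obtain ⟨s, hs, hcard⟩ := (Set.not_finite.mp hinf).exists_subset_card_eq
    ((c - Divisor.degree B).toNat)
  have hbad : ∀ P ∈ s, h0 B < h0 (B + Finsupp.single P 1) := by
    intro P hP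
    have := hs hP
    simp only [Set.mem_ofPred_eq, not_le] at this
    have h2 := (le_max_left _ _).trans_lt this
    omega
  have h2 := h0_ge_of_bad B s hbad
  have h3 := hc (B + ds s) (by
    rw [map_add, degree_ds, hcard]
    have := Int.self_le_toNat (c - Divisor.degree B)
    omega)
  rw [map_add, degree_ds] at h3
  omega

/-- subtracting a generic point lowers the dimension -/
theorem finite_sub_bad (D : Divisor K F) (n : ℕ) (hD : h0 D ≤ n + 1) :
    {P : Place K F | ¬ h0 (D - Finsupp.single P 1) ≤ n}.Finite := by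
  classical
  by_cases h : h0 D = 0
  · convert Set.finite_empty
    ext P
    simp only [Set.mem_ofPred_eq, Set.mem_empty_iff_false, iff_false, not_not]
    have := h0_sub_single_le D P
    omega
  obtain ⟨f, hf, hf0⟩ := exists_ne_zero_of_h0_pos (Nat.pos_of_ne_zero h)
  refine (dv f + D : Divisor K F).support.finite_toSet.subset ?_
  intro P hP
  rw [Finset.mem_coe, Finsupp.mem_support_iff]
  intro h0'
  apply hP
  have hlt : RR (D - Finsupp.single P 1) < RR D := by
    rw [lt_iff_le_not_ge]
    refine ⟨RR_mono (sub_le_self _ (single_nonneg P)), fun hle => ?_⟩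
    have h4 := (mem_RR_of_ne hf0).mp (hle hf) P
    rw [Finsupp.add_apply, dv_apply] at h0'
    rw [Finsupp.sub_apply, Finsupp.single_eq_same] at h4
    omega
  have : h0 (D - Finsupp.single P 1) < h0 D := Submodule.finrank_lt_finrank_of_lt hlt
  omega

/-- generic sets of points -/
theorem exists_generic {g : ℤ} (hK : UB K F g) {ι : Type*} [Finite ι] (Z : ι → Divisor K F)
    (hZ : ∀ i, h0 (Z i) = 0) (G : Set (Place K F)) (hG : G.Infinite)
    (bad : Set (Place K F)) (hbad : bad.Finite) (m : ℕ) :
    ∃ s : Finset (Place K F), s.card = m ∧ (∀ P ∈ s, P ∈ G ∧ P ∉ bad) ∧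
      ∀ i, ∀ t ⊆ s, (h0 (Z i + ds t) : ℤ) ≤ max ((0 : ℕ) : ℤ) (Divisor.degree (Z i + ds t) + 1 - g) := by
  classical
  induction m with
  | zero =>
    refine ⟨∅, rfl, by simp, fun i t ht => ?_⟩
    rw [Finset.subset_empty.mp ht]
    simp [ds, hZ i]
  | succ m ih =>
    obtain ⟨s, hs, h1, h2⟩ := ih
    have hfin : (⋃ i : ι, ⋃ t ∈ s.powerset,
        {P : Place K F | ¬ (h0 (Z i + ds t + Finsupp.single P 1) : ℤ) ≤
          max ((0 : ℕ) : ℤ) (Divisor.degree (Z i + ds t + Finsupp.single P 1) + 1 - g)}).Finite := by
      apply Set.finite_iUnion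
      intro i
      apply Set.Finite.biUnion (Finset.finite_toSet _)
      intro t ht
      exact tame hK 0 _ (h2 i t (Finset.mem_powerset.mp ht))
    obtain ⟨P, hPG, hP⟩ := hG.exists_notMem_finset
      ((hfin.union (hbad.union s.finite_toSet)).toFinset)
    rw [Set.Finite.mem_toFinset] at hP
    simp only [Set.mem_union, not_or] at hP
    obtain ⟨hP1, hP2, hP3⟩ := hP
    have hPs : P ∉ s := hP3
    refine ⟨insert P s, by rw [Finset.card_insert_of_notMem hPs, hs], ?_, ?_⟩
    · intro Q hQ
      rcases Finset.mem_insert.mp hQ with rfl | hQ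
      · exact ⟨hPG, hP2⟩
      · exact h1 Q hQ
    · intro i t ht
      by_cases hPt : P ∈ t
      · have h3 : t = insert P (t.erase P) := (Finset.insert_erase hPt).symm
        have h4 : t.erase P ⊆ s := by
          intro Q hQ
          rw [Finset.mem_erase] at hQ
          exact (Finset.mem_insert.mp (ht hQ.2)).resolve_left hQ.1
        have h5 : Z i + ds t = Z i + ds (t.erase P) + Finsupp.single P 1 := by
          conv_lhs => rw [h3]
          rw [ds_insert (Finset.notMem_erase P t)]
          abel
        rw [h5]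
        by_contra hcon
        apply hP1
        simp only [Set.mem_iUnion]
        exact ⟨i, t.erase P, Finset.mem_powerset.mpr h4, hcon⟩
      · exact h2 i t (fun Q hQ => (Finset.mem_insert.mp (ht hQ)).resolve_left
          (fun h => hPt (h ▸ hQ)))

end Fermat.Agent.H02F
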