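import Mathlib
import Fermat.Agent.H02F.Gen
import Fermat.Agent.H02F.Det

set_option autoImplicit false

/-! The multiplication of sections and its kernel. -/

noncomputable section

open AlgebraicCurve Module

namespace Fermat.Agent.H02F

variable {K F : Type*} [Field K] [Field F] [Algebra K F] [Crv K F]

/-- divisor of a finite family of places -/
def dsf {θ : Type*} [Fintype θ] (τ : θ → Place K F) : Divisor K F :=
  ∑ t, Finsupp.single (τ t) 1

section dsf

variable {θ : Type*} [Fintype θ] {τ : θ → Place K F}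

theorem dsf_apply_of_notMem {v : Place K F} (h : ∀ t, τ t ≠ v) : dsf τ v = 0 := by
  unfold dsf
  rw [Finsupp.finsetSum_apply]
  exact Finset.sum_eq_zero fun t _ => Finsupp.single_eq_of_ne (Ne.symm (h t))

theorem dsf_apply_self (hτ : Function.Injective τ) (t : θ) : dsf τ (τ t) = 1 := by
  classical
  unfold dsf
  rw [Finsupp.finsetSum_apply, Finset.sum_eq_single t]
  · simp
  · intro s _ hs
    exact Finsupp.single_eq_of_ne (fun h => hs (hτ h).symm)
  · intro h; exact absurd (Finset.mem_univ t) h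

@[simp] theorem degree_dsf : Divisor.degree (dsf τ) = Fintype.card θ := by
  unfold dsf
  rw [map_sum, Finset.sum_congr rfl fun P _ => degree_single_one (τ P) 1]
  simp

theorem dsf_nonneg : 0 ≤ dsf τ := Finset.sum_nonneg fun _ _ => single_nonneg _

theorem single_le_dsf (t : θ) : Finsupp.single (τ t) 1 ≤ dsf τ := by
  classical
  unfold dsf
  exact Finset.single_le_sum (f := fun t => (Finsupp.single (τ t) 1 : Divisor K F))
    (fun _ _ => single_nonneg _) (Finset.mem_univ t)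

end dsf

theorem mul_mem_RR_add {D D' : Divisor K F} {f g : F} (hf : f ∈ RR D) (hg : g ∈ RR D') :
    f * g ∈ RR (D + D') := by
  by_cases hf0 : f = 0
  · rw [hf0, zero_mul]; exact zero_mem _
  by_cases hg0 : g = 0
  · rw [hg0, mul_zero]; exact zero_mem _
  rw [mem_RR_of_ne (mul_ne_zero hf0 hg0)]
  rw [mem_RR_of_ne hf0] at hf
  rw [mem_RR_of_ne hg0] at hg
  intro v
  rw [v.ord_mul hf0 hg0, Finsupp.add_apply]
  have := hf v
  have := hg v
  omega

theorem mem_RR_sub_of_reg {D : Divisor K F} {f : F} (hf : f ∈ RR D) {v : Place K F}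
    (h : D v = 1) (hv : Reg v f) : f ∈ RR (D - Finsupp.single v 1) := by
  by_cases hf0 : f = 0
  · rw [hf0]; exact zero_mem _
  rw [mem_RR_of_ne hf0] at hf ⊢
  intro w
  by_cases hw : w = v
  · subst hw
    rw [Finsupp.sub_apply, Finsupp.single_eq_same, h]
    have := reg_iff.mp hv
    omega
  · rw [Finsupp.sub_apply, Finsupp.single_eq_of_ne hw, sub_zero]
    exact hf w

theorem mem_RR_sub_dsf {θ : Type*} [Fintype θ] {τ : θ → Place K F}
    (hτ : Function.Injective τ) {D : Divisor K F} {f : F} (hf : f ∈ RR D)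
    (h : ∀ t, D (τ t) = 0) (hv : ∀ t, Van (τ t) f) : f ∈ RR (D - dsf τ) := by
  by_cases hf0 : f = 0
  · rw [hf0]; exact zero_mem _
  rw [mem_RR_of_ne hf0] at hf ⊢
  intro w
  rw [Finsupp.sub_apply]
  by_cases hw : ∃ t, τ t = w
  · obtain ⟨t, rfl⟩ := hw
    rw [dsf_apply_self hτ, h]
    have := (hv t).resolve_left hf0
    omega
  · push Not at hw
    rw [dsf_apply_of_notMem hw, sub_zero]
    exact hf w

/-- functions and places used in the multiplication -/
structure MData (K F : Type*) [Field K] [Field F] [Algebra K F] (n : ℕ) where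
  E₁ : Divisor K F
  E₂ : Divisor K F
  Qs : Place K F
  q : Fin (n + 1) → Place K F
  u : F
  v : Fin (n + 1) → F

/-- the columns -/
abbrev Col (n : ℕ) : Type := Bool × Option (Fin (n + 1))

namespace MData

variable {n : ℕ} (m : MData K F n)

/-- geometric hypotheses -/
structure Ok : Prop where
  h₁ : 0 ≤ m.E₁
  h₂ : 0 ≤ m.E₂
  hu : m.u ∈ RR (m.E₁ + Finsupp.single m.Qs 1)
  hv : ∀ i, m.v i ∈ RR (m.E₂ + Finsupp.single (m.q i) 1)
  inj : Function.Injective m.q
  s₁ : m.E₁ m.Qs = 0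
  s₂ : m.E₂ m.Qs = 0
  sq : ∀ i, m.q i ≠ m.Qs
  l₁ : m.E₁ (m.q (Fin.last n)) = 0
  l₂ : ∀ i, m.E₂ (m.q i) = 0

/-- first factor -/
def ff (a : Bool) : F := if a then m.u else 1

/-- second factor -/
def gg (b : Option (Fin (n + 1))) : F := b.elim 1 m.v

/-- products -/
def col (j : Col n) : F := m.ff j.1 * m.gg j.2

/-- linear combination of products -/
def H (w : Col n → K) : F := ∑ j, w j • m.col j

/-- evaluation row -/
def evrow (R : Place K F) (j : Col n) : K := ev R (m.ff j.1) * ev R (m.gg j.2)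

/-- row expressing that there is no pole at `q (last)` -/
def qrow (j : Col n) : K :=
  if j.2 = some (Fin.last n) then ev (m.q (Fin.last n)) (m.ff j.1) else 0

/-- row expressing that there is no pole at `Qs` -/
def qsrow (j : Col n) : K := if j.1 then ev m.Qs (m.gg j.2) else 0

variable {m}

theorem Ok.ff_mem (h : m.Ok) (a : Bool) : m.ff a ∈ RR (m.E₁ + Finsupp.single m.Qs 1) := by
  cases a
  · exact one_mem_RR (add_nonneg h.h₁ (single_nonneg _))
  · exact h.hu

theorem Ok.gg_mem (h : m.Ok) (b : Option (Fin (n + 1))) : m.gg b ∈ RR (m.E₂ + dsf m.q) := by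
  rcases b with _ | i
  · exact one_mem_RR (add_nonneg h.h₂ dsf_nonneg)
  · exact RR_mono (add_le_add_right (single_le_dsf i) _) (h.hv i)

/-- the total divisor -/
def tot (m : MData K F n) : Divisor K F := m.E₁ + Finsupp.single m.Qs 1 + (m.E₂ + dsf m.q)

theorem Ok.H_mem (h : m.Ok) (w : Col n → K) : m.H w ∈ RR m.tot :=
  Submodule.sum_mem _ fun j _ => Submodule.smul_mem _ _ (mul_mem_RR_add (h.ff_mem j.1) (h.gg_mem j.2))

theorem Ok.ff_reg (h : m.Ok) {R : Place K F} (h1 : m.E₁ R = 0) (h2 : m.Qs ≠ R) (a : Bool) :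
    Reg R (m.ff a) :=
  reg_of_mem_RR (h.ff_mem a) (by
    rw [Finsupp.add_apply, h1, Finsupp.single_eq_of_ne (Ne.symm h2)]; simp)

theorem Ok.gg_reg (h : m.Ok) {R : Place K F} (h1 : m.E₂ R = 0)
    (b : Option (Fin (n + 1))) (h2 : ∀ i, b = some i → m.q i ≠ R) :
    Reg R (m.gg b) := by
  rcases b with _ | i
  · exact reg_one R
  · exact reg_of_mem_RR (h.hv i) (by
      rw [Finsupp.add_apply, h1, Finsupp.single_eq_of_ne (Ne.symm (h2 i rfl))]; simp)

theorem Ok.col_reg (h : m.Ok) {R : Place K F} (h1 : m.E₁ R = 0) (h2 : m.E₂ R = 0)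
    (h3 : m.Qs ≠ R) (h4 : ∀ i, m.q i ≠ R) (j : Col n) : Reg R (m.col j) :=
  (h.ff_reg h1 h3 j.1).mul (h.gg_reg h2 j.2 fun i _ => h4 i)

theorem Ok.ev_H (h : m.Ok) {R : Place K F} (h1 : m.E₁ R = 0) (h2 : m.E₂ R = 0)
    (h3 : m.Qs ≠ R) (h4 : ∀ i, m.q i ≠ R) (w : Col n → K) :
    ev R (m.H w) = ∑ j, m.evrow R j * w j := by
  unfold H
  rw [ev_sum fun j _ => (h.col_reg h1 h2 h3 h4 j).smul _]
  refine Finset.sum_congr rfl fun j _ => ?_
  rw [ev_smul _ (h.col_reg h1 h2 h3 h4 j), col, ev_mul (h.ff_reg h1 h3 j.1)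
    (h.gg_reg h2 j.2 fun i _ => h4 i), evrow, mul_comm]

theorem Ok.reg_H (h : m.Ok) {R : Place K F} (h1 : m.E₁ R = 0) (h2 : m.E₂ R = 0)
    (h3 : m.Qs ≠ R) (h4 : ∀ i, m.q i ≠ R) (w : Col n → K) : Reg R (m.H w) :=
  Reg.sum fun j _ => (h.col_reg h1 h2 h3 h4 j).smul _

theorem Ok.van_H (h : m.Ok) {R : Place K F} (h1 : m.E₁ R = 0) (h2 : m.E₂ R = 0)
    (h3 : m.Qs ≠ R) (h4 : ∀ i, m.q i ≠ R) {w : Col n → K}
    (h5 : ∑ j, m.evrow R j * w j = 0) : Van R (m.H w) := by
  rw [← ev_eq_zero_iff (h.reg_H h1 h2 h3 h4 w), h.ev_H h1 h2 h3 h4, h5]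

theorem H_eq (m : MData K F n) (w : Col n → K) :
    m.H w = ∑ b, w (false, b) • m.gg b + m.u * ∑ b, w (true, b) • m.gg b := by
  unfold H
  rw [Fintype.sum_prod_type, Fintype.sum_bool, add_comm, Finset.mul_sum]
  congr 1
  · refine Finset.sum_congr rfl fun b _ => ?_
    simp [col, ff]
  · refine Finset.sum_congr rfl fun b _ => ?_
    simp [col, ff]

theorem reg_mul_of_van {R : Place K F} {D : Divisor K F} {f g : F} (hf : f ∈ RR D)
    (h : D R ≤ 1) (hg : Van R g) : Reg R (f * g) := by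
  by_cases hf0 : f = 0
  · rw [hf0, zero_mul]; exact reg_zero _
  rcases hg with rfl | hg
  · rw [mul_zero]; exact reg_zero _
  have hg0 : g ≠ 0 := by
    rintro rfl
    rw [R.ord_zero] at hg
    exact lt_irrefl _ hg
  rw [reg_iff, R.ord_mul hf0 hg0]
  have := (mem_RR_of_ne hf0).mp hf R
  omega

theorem Ok.reg_Qs (h : m.Ok) {w : Col n → K} (hw : ∑ j, m.qsrow j * w j = 0) :
    Reg m.Qs (m.H w) := by
  have hg : ∀ b, Reg m.Qs (m.gg b) := fun b => h.gg_reg h.s₂ b fun i _ => h.sq i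
  rw [H_eq]
  refine Reg.add (Reg.sum fun b _ => (hg b).smul _) ?_
  refine reg_mul_of_van h.hu ?_ ?_
  · rw [Finsupp.add_apply, h.s₁, Finsupp.single_eq_same]; simp
  · rw [← ev_eq_zero_iff (Reg.sum fun b _ => (hg b).smul _), ev_sum fun b _ => (hg b).smul _]
    rw [← hw, Fintype.sum_prod_type, Fintype.sum_bool]
    simp only [qsrow]
    rw [Finset.sum_congr rfl fun b _ => ev_smul (w (true, b)) (hg b)]
    simp [mul_comm]

theorem Ok.reg_q (h : m.Ok) {w : Col n → K} (hw : ∑ j, m.qrow j * w j = 0) :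
    Reg (m.q (Fin.last n)) (m.H w) := by
  classical
  set Q := m.q (Fin.last n) with hQ
  have hf : ∀ a, Reg Q (m.ff a) := fun a => h.ff_reg h.l₁ (Ne.symm (h.sq _)) a
  have hg : ∀ b, b ≠ some (Fin.last n) → Reg Q (m.gg b) := fun b hb =>
    h.gg_reg (h.l₂ _) b fun i hi hne => by
      apply hb
      rw [hi, h.inj hne]
  have hH : m.H w = (∑ b, if b = some (Fin.last n) then 0 else
      (w (true, b) • m.ff true + w (false, b) • m.ff false) * m.gg b) +
      m.v (Fin.last n) * (w (true, some (Fin.last n)) • m.ff true +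
        w (false, some (Fin.last n)) • m.ff false) := by
    unfold H
    rw [Fintype.sum_prod_type, Fintype.sum_bool, ← Finset.sum_add_distrib]
    have h1 : m.v (Fin.last n) * (w (true, some (Fin.last n)) • m.ff true +
        w (false, some (Fin.last n)) • m.ff false) = ∑ b, if b = some (Fin.last n) then
        (w (true, b) • m.ff true + w (false, b) • m.ff false) * m.gg b else 0 := by
      rw [Finset.sum_ite_eq' Finset.univ (some (Fin.last n))]
      simp [gg, mul_comm]
    rw [h1, ← Finset.sum_add_distrib]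
    refine Finset.sum_congr rfl fun b _ => ?_
    by_cases hb : b = some (Fin.last n)
    · rw [if_pos hb, if_pos hb, zero_add]
      simp only [col, add_mul, smul_mul_assoc]
    · rw [if_neg hb, if_neg hb, add_zero]
      simp only [col, add_mul, smul_mul_assoc]
  rw [hH]
  refine Reg.add (Reg.sum fun b _ => ?_) ?_
  · split_ifs with hb
    · exact reg_zero _
    · exact (((hf true).smul _).add ((hf false).smul _)).mul (hg b hb)
  · refine reg_mul_of_van (h.hv (Fin.last n)) ?_ ?_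
    · rw [Finsupp.add_apply, h.l₂, Finsupp.single_eq_same]; simp
    · rw [← ev_eq_zero_iff (((hf true).smul _).add ((hf false).smul _)),
        ev_add ((hf true).smul _) ((hf false).smul _), ev_smul _ (hf true),
        ev_smul _ (hf false)]
      rw [← hw, Fintype.sum_prod_type, Fintype.sum_bool]
      simp only [qrow]
      simp only [ite_mul, zero_mul, Finset.sum_ite_eq', Finset.mem_univ, if_true]
      ring

/-- avoidance of the places with poles -/
def Av (m : MData K F n) (R : Place K F) : Prop :=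
  m.E₁ R = 0 ∧ m.E₂ R = 0 ∧ m.Qs ≠ R ∧ ∀ i, m.q i ≠ R

theorem Av.tot {R : Place K F} (h : m.Av R) : m.tot R = 0 := by
  unfold MData.tot
  rw [Finsupp.add_apply, Finsupp.add_apply, Finsupp.add_apply, h.1, h.2.1,
    Finsupp.single_eq_of_ne (Ne.symm h.2.2.1), dsf_apply_of_notMem h.2.2.2]
  simp

variable {θ : Type*} [Fintype θ] {τ : θ → Place K F}

/-- sections for the first matrix -/
theorem Ok.mem' (h : m.Ok) (hτ : Function.Injective τ) (hav : ∀ t, m.Av (τ t))
    {S : Place K F} (hS : m.Av S) (hSτ : ∀ t, τ t ≠ S) {w : Col n → K}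
    (hX : ∑ j, m.evrow S j * w j = 0) (hY : ∑ j, m.qsrow j * w j = 0)
    (hT : ∀ t, ∑ j, m.evrow (τ t) j * w j = 0) :
    m.H w ∈ RR (m.E₁ + m.E₂ + dsf m.q - dsf τ - Finsupp.single S 1) := by
  have h1 : m.H w ∈ RR (m.tot - Finsupp.single m.Qs 1) := by
    refine mem_RR_sub_of_reg (h.H_mem w) ?_ (h.reg_Qs hY)
    unfold MData.tot
    rw [Finsupp.add_apply, Finsupp.add_apply, Finsupp.add_apply, h.s₁, h.s₂,
      Finsupp.single_eq_same, dsf_apply_of_notMem h.sq]
    simp
  have h2 : m.H w ∈ RR (m.tot - Finsupp.single m.Qs 1 - dsf τ) := by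
    refine mem_RR_sub_dsf hτ h1 (fun t => ?_) fun t =>
      h.van_H (hav t).1 (hav t).2.1 (hav t).2.2.1 (hav t).2.2.2 (hT t)
    rw [Finsupp.sub_apply, (hav t).tot, Finsupp.single_eq_of_ne (Ne.symm (hav t).2.2.1), sub_zero]
  have h3 : m.H w ∈ RR (m.tot - Finsupp.single m.Qs 1 - dsf τ - Finsupp.single S 1) := by
    refine mem_RR_sub_of_van h2 ?_ (h.van_H hS.1 hS.2.1 hS.2.2.1 hS.2.2.2 hX)
    rw [Finsupp.sub_apply, Finsupp.sub_apply, hS.tot,
      Finsupp.single_eq_of_ne (Ne.symm hS.2.2.1), dsf_apply_of_notMem hSτ]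
    simp
  convert h3 using 2
  unfold MData.tot
  abel

/-- sections for the second matrix -/
theorem Ok.mem'' (h : m.Ok) (hτ : Function.Injective τ) (hav : ∀ t, m.Av (τ t))
    {w : Col n → K}
    (hX : ∑ j, m.qrow j * w j = 0) (hY : ∑ j, m.qsrow j * w j = 0)
    (hT : ∀ t, ∑ j, m.evrow (τ t) j * w j = 0) :
    m.H w ∈ RR (m.E₁ + m.E₂ + dsf m.q - dsf τ - Finsupp.single (m.q (Fin.last n)) 1) := by
  have h1 : m.H w ∈ RR (m.tot - Finsupp.single m.Qs 1) := by
    refine mem_RR_sub_of_reg (h.H_mem w) ?_ (h.reg_Qs hY)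
    unfold MData.tot
    rw [Finsupp.add_apply, Finsupp.add_apply, Finsupp.add_apply, h.s₁, h.s₂,
      Finsupp.single_eq_same, dsf_apply_of_notMem h.sq]
    simp
  have h2 : m.H w ∈ RR (m.tot - Finsupp.single m.Qs 1 - dsf τ) := by
    refine mem_RR_sub_dsf hτ h1 (fun t => ?_) fun t =>
      h.van_H (hav t).1 (hav t).2.1 (hav t).2.2.1 (hav t).2.2.2 (hT t)
    rw [Finsupp.sub_apply, (hav t).tot, Finsupp.single_eq_of_ne (Ne.symm (hav t).2.2.1), sub_zero]
  have h3 : m.H w ∈ RR (m.tot - Finsupp.single m.Qs 1 - dsf τ -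
      Finsupp.single (m.q (Fin.last n)) 1) := by
    refine mem_RR_sub_of_reg h2 ?_ (h.reg_q hX)
    unfold MData.tot
    rw [Finsupp.sub_apply, Finsupp.sub_apply, Finsupp.add_apply, Finsupp.add_apply,
      Finsupp.add_apply, h.l₁, h.l₂, Finsupp.single_eq_of_ne (h.sq _),
      dsf_apply_self h.inj, dsf_apply_of_notMem fun t => (hav t).2.2.2 _ |>.symm]
    simp
  convert h3 using 2
  unfold MData.tot
  abel

end MData

end Fermat.Agent.H02F
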