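import Mathlib
import Fermat.Agent.H02F.Mulc

set_option autoImplicit false

/-! Base point free pencil trick and non-vanishing of the determinants. -/

noncomputable section

open AlgebraicCurve Module

namespace Fermat.Agent.H02F

variable {K F : Type*} [Field K] [Field F] [Algebra K F] [Crv K F]

namespace MData

variable {n : ℕ} {m : MData K F n}

/-- conditions for linear independence of the products -/
structure Ex (m : MData K F n) : Prop where
  u_ne : m.u ≠ 0
  u_ord : ∀ R, 0 < (m.E₁ + Finsupp.single m.Qs 1 : Divisor K F) R →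
    m.u ≠ 0 ∧ R.ord m.u = -(m.E₁ + Finsupp.single m.Qs 1 : Divisor K F) R
  pen : RR (m.E₂ + dsf m.q - (m.E₁ + Finsupp.single m.Qs 1)) = ⊥
  v_ord : ∀ i, (m.q i).ord (m.v i) < 0

theorem gg_indep (h : m.Ok) (hx : m.Ex) {c : Option (Fin (n + 1)) → K}
    (hc : ∑ b, c b • m.gg b = 0) : c = 0 := by
  classical
  have h1 : ∀ i, c (some i) = 0 := by
    intro i
    by_contra hne
    have hreg : ∀ b, b ≠ some i → Reg (m.q i) (m.gg b) := fun b hb =>
      h.gg_reg (h.l₂ i) b fun j hj hji => hb (by rw [hj, h.inj hji])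
    have h2 : m.v i = -(c (some i))⁻¹ • ∑ b ∈ Finset.univ.erase (some i), c b • m.gg b := by
      have h3 : c (some i) • m.gg (some i) +
          ∑ b ∈ Finset.univ.erase (some i), c b • m.gg b = 0 := by
        rw [Finset.add_sum_erase Finset.univ (fun b => c b • m.gg b) (Finset.mem_univ _)]
        exact hc
      have h4 : m.gg (some i) = m.v i := rfl
      rw [h4] at h3
      rw [neg_smul, eq_neg_of_add_eq_zero_right h3, smul_neg, neg_neg, smul_smul,
        inv_mul_cancel₀ hne, one_smul]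
    have h5 : Reg (m.q i) (m.v i) := by
      rw [h2]
      exact Reg.smul _ (Reg.sum fun b hb => (hreg b (Finset.ne_of_mem_erase hb)).smul _)
    have := reg_iff.mp h5
    have := hx.v_ord i
    omega
  have h2 : c none = 0 := by
    rw [Fintype.sum_option] at hc
    simp only [h1, zero_smul, Finset.sum_const_zero, add_zero] at hc
    have h3 : m.gg none = 1 := rfl
    rw [h3] at hc
    exact (smul_eq_zero.mp hc).resolve_right one_ne_zero
  funext b
  rcases b with _ | i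
  · exact h2
  · exact h1 i

theorem indep (h : m.Ok) (hx : m.Ex) {w : Col n → K} (hw : m.H w = 0) : w = 0 := by
  set w₀ := ∑ b, w (false, b) • m.gg b with hw₀
  set w₁ := ∑ b, w (true, b) • m.gg b with hw₁
  have hH : w₀ + m.u * w₁ = 0 := by rw [hw₀, hw₁, ← H_eq, hw]
  have hm₀ : w₀ ∈ RR (m.E₂ + dsf m.q) :=
    Submodule.sum_mem _ fun b _ => Submodule.smul_mem _ _ (h.gg_mem b)
  have hm₁ : w₁ ∈ RR (m.E₂ + dsf m.q) :=
    Submodule.sum_mem _ fun b _ => Submodule.smul_mem _ _ (h.gg_mem b)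
  have h1 : w₁ = 0 := by
    by_contra hne
    have hu := hx.u_ne
    have hw0 : w₀ = -(m.u * w₁) := eq_neg_of_add_eq_zero_left hH
    have hw0ne : w₀ ≠ 0 := by
      rw [hw0]
      exact neg_ne_zero.mpr (mul_ne_zero hu hne)
    have hmem : w₁ ∈ RR (m.E₂ + dsf m.q - (m.E₁ + Finsupp.single m.Qs 1)) := by
      rw [mem_RR_of_ne hne]
      intro R
      have ha := (mem_RR_of_ne hne).mp hm₁ R
      have hb := (mem_RR_of_ne hw0ne).mp hm₀ R
      rw [hw0, H18.ord_neg, R.ord_mul hu hne] at hb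
      rw [Finsupp.sub_apply]
      by_cases hpos : 0 < (m.E₁ + Finsupp.single m.Qs 1 : Divisor K F) R
      · have hc := (hx.u_ord R hpos).2
        omega
      · have hnn := (add_nonneg h.h₁ (single_nonneg m.Qs)) R
        rw [Finsupp.zero_apply] at hnn
        omega
    rw [hx.pen, Submodule.mem_bot] at hmem
    exact hne hmem
  have h0 : w₀ = 0 := by
    rw [h1, mul_zero, add_zero] at hH
    exact hH
  have h2 := gg_indep h hx (c := fun b => w (true, b)) h1
  have h3 := gg_indep h hx (c := fun b => w (false, b)) h0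
  funext ⟨a, b⟩
  cases a
  · exact congrFun h3 b
  · exact congrFun h2 b

variable {θ : Type*} [Fintype θ] {τ : θ → Place K F}

/-- first determinant -/
def det' (m : MData K F n) (e : Option (Option (Option θ)) ≃ Col n) (τ : θ → Place K F)
    (S R : Place K F) : K :=
  DET e (rows (m.evrow R) (m.evrow S) m.qsrow (fun t => m.evrow (τ t)))

/-- second determinant -/
def det'' (m : MData K F n) (e : Option (Option (Option θ)) ≃ Col n) (τ : θ → Place K F)
    (R : Place K F) : K :=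
  DET e (rows (m.evrow R) m.qrow m.qsrow (fun t => m.evrow (τ t)))

theorem det'_ne_zero (h : m.Ok) (hx : m.Ex) (e : Option (Option (Option θ)) ≃ Col n)
    (hτ : Function.Injective τ) (hav : ∀ t, m.Av (τ t))
    {S P : Place K F} (hS : m.Av S) (hSτ : ∀ t, τ t ≠ S) (hP : m.Av P) (hPτ : ∀ t, τ t ≠ P)
    (hPS : S ≠ P)
    (hN : RR (m.E₁ + m.E₂ + dsf m.q - dsf τ - Finsupp.single S 1 - Finsupp.single P 1) = ⊥) :
    m.det' e τ S P ≠ 0 := by
  refine DET_ne_zero e _ _ _ _ fun w h0 hX hY hT => indep h hx ?_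
  have h1 := h.mem' hτ hav hS hSτ hX hY hT
  have h2 : m.H w ∈ RR (m.E₁ + m.E₂ + dsf m.q - dsf τ - Finsupp.single S 1 -
      Finsupp.single P 1) := by
    refine mem_RR_sub_of_van h1 ?_ (h.van_H hP.1 hP.2.1 hP.2.2.1 hP.2.2.2 h0)
    rw [Finsupp.sub_apply, Finsupp.sub_apply, Finsupp.add_apply, Finsupp.add_apply, hP.1, hP.2.1,
      dsf_apply_of_notMem hP.2.2.2, dsf_apply_of_notMem hPτ, Finsupp.single_eq_of_ne hPS.symm]
    simp
  rwa [hN, Submodule.mem_bot] at h2

theorem det''_ne_zero (h : m.Ok) (hx : m.Ex) (e : Option (Option (Option θ)) ≃ Col n)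
    (hτ : Function.Injective τ) (hav : ∀ t, m.Av (τ t))
    {P : Place K F} (hP : m.Av P) (hPτ : ∀ t, τ t ≠ P)
    (hN : RR (m.E₁ + m.E₂ + dsf m.q - dsf τ - Finsupp.single (m.q (Fin.last n)) 1 -
      Finsupp.single P 1) = ⊥) :
    m.det'' e τ P ≠ 0 := by
  refine DET_ne_zero e _ _ _ _ fun w h0 hX hY hT => indep h hx ?_
  have h1 := h.mem'' hτ hav hX hY hT
  have h2 : m.H w ∈ RR (m.E₁ + m.E₂ + dsf m.q - dsf τ - Finsupp.single (m.q (Fin.last n)) 1 -
      Finsupp.single P 1) := by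
    refine mem_RR_sub_of_van h1 ?_ (h.van_H hP.1 hP.2.1 hP.2.2.1 hP.2.2.2 h0)
    rw [Finsupp.sub_apply, Finsupp.sub_apply, Finsupp.add_apply, Finsupp.add_apply, hP.1, hP.2.1,
      dsf_apply_of_notMem hP.2.2.2, dsf_apply_of_notMem hPτ,
      Finsupp.single_eq_of_ne (Ne.symm (hP.2.2.2 _))]
    simp
  rwa [hN, Submodule.mem_bot] at h2

/-- the function given by the cofactors, first matrix -/
theorem exists_h' (h : m.Ok) (e : Option (Option (Option θ)) ≃ Col n)
    (hτ : Function.Injective τ) (hav : ∀ t, m.Av (τ t))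
    {S : Place K F} (hS : m.Av S) (hSτ : ∀ t, τ t ≠ S) :
    ∃ f : F, f ∈ RR (m.E₁ + m.E₂ + dsf m.q - dsf τ - Finsupp.single S 1) ∧
      ∀ R, m.Av R → Reg R f ∧ ev R f = m.det' e τ S R := by
  refine ⟨m.H (cof e (m.evrow S) m.qsrow fun t => m.evrow (τ t)), ?_, fun R hR => ?_⟩
  · exact h.mem' hτ hav hS hSτ (DET_eq_zero_X e _ _ _) (DET_eq_zero_Y e _ _ _)
      (DET_eq_zero_T e _ _ _)
  · refine ⟨h.reg_H hR.1 hR.2.1 hR.2.2.1 hR.2.2.2 _, ?_⟩
    rw [h.ev_H hR.1 hR.2.1 hR.2.2.1 hR.2.2.2, det', DET_eq_sum]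

/-- the function given by the cofactors, second matrix -/
theorem exists_h'' (h : m.Ok) (e : Option (Option (Option θ)) ≃ Col n)
    (hτ : Function.Injective τ) (hav : ∀ t, m.Av (τ t)) :
    ∃ f : F, f ∈ RR (m.E₁ + m.E₂ + dsf m.q - dsf τ - Finsupp.single (m.q (Fin.last n)) 1) ∧
      ∀ R, m.Av R → Reg R f ∧ ev R f = m.det'' e τ R := by
  refine ⟨m.H (cof e m.qrow m.qsrow fun t => m.evrow (τ t)), ?_, fun R hR => ?_⟩
  · exact h.mem'' hτ hav (DET_eq_zero_X e _ _ _) (DET_eq_zero_Y e _ _ _)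
      (DET_eq_zero_T e _ _ _)
  · refine ⟨h.reg_H hR.1 hR.2.1 hR.2.2.1 hR.2.2.2 _, ?_⟩
    rw [h.ev_H hR.1 hR.2.1 hR.2.2.1 hR.2.2.2, det'', DET_eq_sum]

end MData

end Fermat.Agent.H02F
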