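import Mathlib
import Fermat.Agent.H02F.Gen
import Fermat.Agent.H28.ChartMk

set_option autoImplicit false

/-! Good reduction of a curve: places, divisors and evaluation. -/

noncomputable section

open AlgebraicCurve Module IsLocalRing

namespace Fermat.Agent.H02F

variable {L : Type*} [Field L] {A : ValuationSubring L} {F Fb : Type*} [Field F] [Field Fb]
  [Algebra L F] [Algebra (ResidueField A) Fb] [Crv L F] [Crv (ResidueField A) Fb]

/-- reduction of places compatible with the reduction of functions -/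
structure PRed (D : H28.RedData A F Fb) where
  r : Place L F → Place (ResidueField A) Fb
  hdiv : ∀ z : D.Z, D.ρ z ≠ 0 →
    Finsupp.mapDomain r (dv (z : F) : Divisor L F) = (dv (D.ρ z) : Divisor (ResidueField A) Fb)
  prim : ∀ f : F, f ≠ 0 → ∃ c : L, c ≠ 0 ∧ ∃ z : D.Z, (z : F) = c • f ∧ D.ρ z ≠ 0
  surj : Function.Surjective r

variable {D : H28.RedData A F Fb} (C : PRed D)

theorem coe_ne_zero_of_ρ {z : D.Z} (h : D.ρ z ≠ 0) : (z : F) ≠ 0 := by
  intro h0
  apply h
  have : z = 0 := Subtype.ext h0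
  rw [this, map_zero]

section MapDomain

theorem mapDomain_nonneg {α β : Type*} (r : α → β) {E : α →₀ ℤ} {Q : β}
    (h : ∀ P, r P = Q → 0 ≤ E P) : 0 ≤ Finsupp.mapDomain r E Q := by
  classical
  rw [Finsupp.mapDomain, Finsupp.sum_apply]
  refine Finset.sum_nonneg fun P _ => ?_
  dsimp only
  by_cases hP : r P = Q
  · rw [hP, Finsupp.single_eq_same]; exact h P hP
  · rw [Finsupp.single_eq_of_ne (Ne.symm hP)]

theorem mapDomain_pos {α β : Type*} (r : α → β) {E : α →₀ ℤ} {Q : β}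
    (h : ∀ P, r P = Q → 0 ≤ E P) {P₀ : α} (h1 : r P₀ = Q) (h2 : 0 < E P₀) :
    0 < Finsupp.mapDomain r E Q := by
  classical
  rw [Finsupp.mapDomain, Finsupp.sum_apply]
  refine lt_of_lt_of_le ?_ (Finset.single_le_sum (f := fun P => (Finsupp.single (r P) (E P)) Q)
    (fun P _ => ?_) (a := P₀) (Finsupp.mem_support_iff.mpr h2.ne'))
  · rw [h1, Finsupp.single_eq_same]; exact h2
  · by_cases hP : r P = Q
    · rw [hP, Finsupp.single_eq_same]; exact h P hP
    · rw [Finsupp.single_eq_of_ne (Ne.symm hP)]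

end MapDomain

namespace PRed

/-- reduction of divisors -/
def rd : Divisor L F →+ Divisor (ResidueField A) Fb := Finsupp.mapDomain.addMonoidHom C.r

theorem rd_apply (E : Divisor L F) : C.rd E = Finsupp.mapDomain C.r E := rfl

@[simp] theorem rd_single (P : Place L F) (n : ℤ) :
    C.rd (Finsupp.single P n) = Finsupp.single (C.r P) n := Finsupp.mapDomain_single

@[simp] theorem degree_rd (E : Divisor L F) :
    Divisor.degree (C.rd E) = Divisor.degree E := by
  induction E using Finsupp.induction_linear with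
  | zero => simp
  | add a b ha hb => rw [map_add, map_add, map_add, ha, hb]
  | single P n => rw [rd_single, degree_single_one, degree_single_one]

theorem rd_nonneg {E : Divisor L F} (h : 0 ≤ E) : 0 ≤ C.rd E := fun Q =>
  mapDomain_nonneg C.r fun P _ => h P

theorem rd_mono {E E' : Divisor L F} (h : E ≤ E') : C.rd E ≤ C.rd E' := by
  have := C.rd_nonneg (sub_nonneg.mpr h)
  rw [map_sub] at this
  exact sub_nonneg.mp this

theorem rd_dv {z : D.Z} (h : D.ρ z ≠ 0) : C.rd (dv (z : F)) = dv (D.ρ z) := C.hdiv z h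

theorem dv_smul {c : L} (hc : c ≠ 0) {f : F} (hf : f ≠ 0) :
    (dv (c • f) : Divisor L F) = dv f := by
  ext v
  rw [dv_apply, dv_apply, ord_smul hc v hf]

theorem rd_principal {E : Divisor L F} (h : E ∈ Divisor.principal (K := L) (F := F)) :
    C.rd E ∈ Divisor.principal (K := ResidueField A) (F := Fb) := by
  obtain ⟨f, hf, rfl⟩ := eq_dv_of_mem_principal h
  obtain ⟨c, hc, z, hz, hρ⟩ := C.prim f hf
  have : (dv f : Divisor L F) = dv (z : F) := by rw [hz, dv_smul hc hf]
  rw [this, C.rd_dv hρ]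
  exact dv_mem_principal hρ

/-- a nonzero section has a primitive multiple, whose reduction is a section -/
theorem exists_prim {E : Divisor L F} {f : F} (hf : f ∈ RR E) (hf0 : f ≠ 0) :
    ∃ c : L, c ≠ 0 ∧ ∃ z : D.Z, (z : F) = c • f ∧ D.ρ z ≠ 0 ∧ (z : F) ∈ RR E ∧
      D.ρ z ∈ RR (C.rd E) := by
  obtain ⟨c, hc, z, hz, hρ⟩ := C.prim f hf0
  have hzm : (z : F) ∈ RR E := by rw [hz]; exact Submodule.smul_mem _ _ hf
  refine ⟨c, hc, z, hz, hρ, hzm, ?_⟩
  rw [mem_RR_iff_dv hρ, ← C.rd_dv hρ, ← map_add]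
  exact C.rd_nonneg ((mem_RR_iff_dv (coe_ne_zero_of_ρ hρ)).mp hzm)

theorem ρ_mem_RR {E : Divisor L F} {z : D.Z} (hz : (z : F) ∈ RR E) :
    D.ρ z ∈ RR (C.rd E) := by
  by_cases hρ : D.ρ z = 0
  · rw [hρ]; exact zero_mem _
  rw [mem_RR_iff_dv hρ, ← C.rd_dv hρ, ← map_add]
  exact C.rd_nonneg ((mem_RR_iff_dv (coe_ne_zero_of_ρ hρ)).mp hz)

/-- the divisor has no sections residually -/
def Nul (E : Divisor L F) : Prop := h0 (C.rd E) = 0

theorem Nul.h0 {E : Divisor L F} (h : C.Nul E) : h0 E = 0 := by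
  by_contra hne
  obtain ⟨f, hf, hf0⟩ := exists_ne_zero_of_h0_pos (Nat.pos_of_ne_zero hne)
  obtain ⟨c, -, z, -, h1, -, h3⟩ := C.exists_prim hf hf0
  exact (h0_pos_of_mem h3 h1).ne' h

theorem h0_rd_pos {E : Divisor L F} (h : 0 < H02F.h0 E) : 0 < H02F.h0 (C.rd E) := by
  rw [Nat.pos_iff_ne_zero]
  intro h'
  exact h.ne' (Nul.h0 C h')

theorem Nul.mono {E E' : Divisor L F} (h : C.Nul E') (hle : E ≤ E') : C.Nul E :=
  Nat.eq_zero_of_le_zero ((h0_mono (C.rd_mono hle)).trans_eq h)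

theorem Nul.congr {E E' : Divisor L F} (h : C.Nul E)
    (hEE : E - E' ∈ Divisor.principal (K := L) (F := F)) : C.Nul E' := by
  have h1 := C.rd_principal hEE
  rw [map_sub] at h1
  unfold Nul
  rw [← h0_congr h1]
  exact h

theorem h0_rd_congr {E E' : Divisor L F} (hEE : E - E' ∈ Divisor.principal (K := L) (F := F)) :
    H02F.h0 (C.rd E) = H02F.h0 (C.rd E') := by
  have h1 := C.rd_principal hEE
  rw [map_sub] at h1
  exact h0_congr h1

theorem Nul.h0_rd_le_one {E : Divisor L F} {P : Place L F}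
    (h : C.Nul (E - Finsupp.single P 1)) : H02F.h0 (C.rd E) ≤ 1 := by
  have := h0_le_sub_single_add (C.rd E) (C.r P)
  unfold Nul at h
  rw [map_sub, rd_single] at h
  omega

theorem Nul.h0_le_one {E : Divisor L F} {P : Place L F}
    (h : C.Nul (E - Finsupp.single P 1)) : H02F.h0 E ≤ 1 := by
  have := h0_le_sub_single_add E P
  have h2 := Nul.h0 C h
  omega

/-- `A`-integrality of values -/
theorem eval {z : D.Z} {P : Place L F} (h : ∀ P', C.r P' = C.r P → Reg P' (z : F)) :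
    ∃ hA : ev P (z : F) ∈ A, Reg (C.r P) (D.ρ z) ∧
      residue A ⟨_, hA⟩ = ev (C.r P) (D.ρ z) := by
  set c := ev P (z : F) with hc
  have hvan := van_sub_ev (h P rfl)
  rw [← hc] at hvan
  -- key: a primitive function regular near `P` and vanishing at `P`
  have key : ∀ y : D.Z, D.ρ y ≠ 0 → (∀ P', C.r P' = C.r P → Reg P' (y : F)) → Van P (y : F) →
      0 < (C.r P).ord (D.ρ y) := by
    intro y hy hreg hv
    have h1 := C.rd_dv hy
    have h2 : (C.r P).ord (D.ρ y) = C.rd (dv (y : F)) (C.r P) := by rw [h1, dv_apply]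
    rw [h2]
    refine mapDomain_pos C.r (fun P' hP' => ?_) rfl (P₀ := P) ?_
    · rw [dv_apply]; exact reg_iff.mp (hreg P' hP')
    · rw [dv_apply]
      exact hv.resolve_left (coe_ne_zero_of_ρ hy)
  have hreg : Reg (C.r P) (D.ρ z) := by
    by_cases hρ : D.ρ z = 0
    · rw [hρ]; exact reg_zero _
    · rw [reg_iff]
      have h2 : (C.r P).ord (D.ρ z) = C.rd (dv (z : F)) (C.r P) := by rw [C.rd_dv hρ, dv_apply]
      rw [h2]
      refine mapDomain_nonneg C.r fun P' hP' => ?_
      rw [dv_apply]; exact reg_iff.mp (h P' hP')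
  have hA : c ∈ A := by
    by_contra hcA
    obtain ⟨h1, h2⟩ := H28.RedSys.inv_mem_maximalIdeal hcA
    have hc0 : c ≠ 0 := by
      intro h0
      rw [h0] at hcA
      exact hcA A.zero_mem
    let y : D.Z := ⟨algebraMap L F c⁻¹, D.alg_mem ⟨c⁻¹, h1⟩⟩ * z - 1
    have hy : D.ρ y = -1 := by
      have h3 : D.ρ ⟨algebraMap L F c⁻¹, D.alg_mem ⟨c⁻¹, h1⟩⟩ = 0 := by
        rw [D.ρ_alg ⟨c⁻¹, h1⟩, (residue_eq_zero_iff _).mpr h2, map_zero]
      rw [map_sub, map_mul, h3, zero_mul, map_one, zero_sub]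
    have hyF : (y : F) = algebraMap L F c⁻¹ * (z : F) - 1 := rfl
    have h4 := key y (by rw [hy]; exact neg_ne_zero.mpr one_ne_zero) (by
      intro P' hP'
      rw [hyF]
      exact ((reg_alg P' c⁻¹).mul (h P' hP')).sub (reg_one P')) (by
      have h5 : (y : F) = algebraMap L F c⁻¹ * ((z : F) - algebraMap L F c) := by
        rw [hyF, mul_sub, ← map_mul, inv_mul_cancel₀ hc0, map_one]
      rw [h5]
      exact Van.mul_left (reg_alg P _) hvan)
    rw [hy, H18.ord_neg, Place.ord_one] at h4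
    exact lt_irrefl _ h4
  refine ⟨hA, hreg, ?_⟩
  symm
  apply ev_unique
  let y : D.Z := z - ⟨algebraMap L F c, D.alg_mem ⟨c, hA⟩⟩
  have hy : D.ρ y = D.ρ z - algebraMap _ Fb (residue A ⟨c, hA⟩) := by
    rw [map_sub, D.ρ_alg ⟨c, hA⟩]
  rw [← hy]
  by_cases h0 : D.ρ y = 0
  · exact Or.inl h0
  · right
    exact key y h0 (fun P' hP' => (h P' hP').sub (reg_alg P' c)) hvan

end PRed

end Fermat.Agent.H02F
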