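import Mathlib
import Fermat.Agent.H02F.Red
import Fermat.Prelude.Def_AlgebraicCurve_BaseChangeGalois

set_option autoImplicit false

/-! Kernel functions on a finite group of divisor classes. -/

noncomputable section

open AlgebraicCurve Module IsLocalRing

namespace Fermat.Agent.H02F

variable {L : Type*} [Field L] {A : ValuationSubring L} {F Fb : Type*} [Field F] [Field Fb]
  [Algebra L F] [Algebra (ResidueField A) Fb] [Crv L F] [Crv (ResidueField A) Fb]

/-- linear equivalence -/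
def Leq {K E : Type*} [Field K] [Field E] [Algebra K E] (D D' : Divisor K E) : Prop :=
  D - D' ∈ Divisor.principal (K := K) (F := E)

section Leq

variable {K E : Type*} [Field K] [Field E] [Algebra K E] {D D' D'' D₁ D₁' : Divisor K E}

theorem Leq.refl (D : Divisor K E) : Leq D D := by unfold Leq; rw [sub_self]; exact zero_mem _

theorem Leq.symm (h : Leq D D') : Leq D' D := by
  unfold Leq; rw [← neg_sub]; exact neg_mem h

theorem Leq.trans (h : Leq D D') (h' : Leq D' D'') : Leq D D'' := by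
  unfold Leq; rw [← sub_add_sub_cancel D D' D'']; exact add_mem h h'

theorem Leq.add (h : Leq D D') (h' : Leq D₁ D₁') : Leq (D + D₁) (D' + D₁') := by
  unfold Leq; rw [add_sub_add_comm]; exact add_mem h h'

theorem Leq.sub (h : Leq D D') (h' : Leq D₁ D₁') : Leq (D - D₁) (D' - D₁') := by
  unfold Leq; rw [sub_sub_sub_comm]; exact sub_mem h h'

theorem Leq.add_right (h : Leq D D') (E' : Divisor K E) : Leq (D + E') (D' + E') :=
  h.add (Leq.refl _)

theorem Leq.sub_right (h : Leq D D') (E' : Divisor K E) : Leq (D - E') (D' - E') :=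
  h.sub (Leq.refl _)

theorem Leq.dv [Crv K E] {f : E} (hf : f ≠ 0) (D : Divisor K E) : Leq (dv f + D) D := by
  unfold Leq; rw [add_sub_cancel_right]; exact dv_mem_principal hf

theorem Leq.degree [Crv K E] (h : Leq D D') : Divisor.degree D = Divisor.degree D' := by
  have := degree_of_principal h
  rw [map_sub] at this
  omega

theorem Leq.h0 [Crv K E] (h : Leq D D') : h0 D = H02F.h0 D' := h0_congr h

end Leq

variable {D : H28.RedData A F Fb} (C : PRed D)

namespace PRed

theorem Nul.leq {E E' : Divisor L F} (h : C.Nul E) (hEE : Leq E E') : C.Nul E' :=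
  Nul.congr C h hEE

/-- if residually there is only the effective divisor, it avoids `P` -/
theorem clean {E₀ E : Divisor L F} (hE : 0 ≤ E) (h : Leq E E₀) {P : Place L F}
    (hP : C.Nul (E₀ - Finsupp.single P 1)) : C.rd E (C.r P) = 0 := by
  by_contra hne
  have h0 := C.rd_nonneg hE (C.r P)
  rw [Finsupp.zero_apply] at h0
  have h1 : C.Nul (E - Finsupp.single P 1) := Nul.leq C hP (h.symm.sub_right _)
  have h2 : 0 ≤ C.rd (E - Finsupp.single P 1) := by
    intro w
    rw [map_sub, rd_single, Finsupp.sub_apply, Finsupp.zero_apply]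
    by_cases hw : w = C.r P
    · subst hw
      rw [Finsupp.single_eq_same]; omega
    · rw [Finsupp.single_eq_of_ne hw, sub_zero]
      exact C.rd_nonneg hE w
  exact (h0_pos_of_mem (one_mem_RR h2) one_ne_zero).ne' h1

/-- converse of `clean` -/
theorem nul_of_clean {E₀ E : Divisor L F} (hE : 0 ≤ E) (h : Leq E E₀)
    (h1 : h0 (C.rd E₀) ≤ 1) {P : Place L F} (hP : C.rd E (C.r P) = 0) :
    C.Nul (E₀ - Finsupp.single P 1) := by
  refine Nul.leq C ?_ (h.sub_right _)
  have h2 : h0 (C.rd E) ≤ 1 := by rw [PRed.h0_rd_congr C h]; exact h1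
  unfold Nul
  by_contra hne
  obtain ⟨f, hf, hf0⟩ := exists_ne_zero_of_h0_pos (Nat.pos_of_ne_zero hne)
  have hf' : f ∈ RR (C.rd E) := by
    refine RR_mono ?_ hf
    rw [map_sub, rd_single]
    exact sub_le_self _ (single_nonneg _)
  obtain ⟨c, hc⟩ := smul_of_h0_le_one h2 (one_mem_RR (C.rd_nonneg hE)) one_ne_zero hf'
  have h3 := van_of_mem_RR hf (v := C.r P) (by
    rw [map_sub, rd_single, Finsupp.sub_apply, hP, Finsupp.single_eq_same]; omega)
  have hc0 : c ≠ 0 := by
    rintro rfl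
    rw [zero_smul] at hc
    exact hf0 hc
  rw [hc, Algebra.smul_def, mul_one] at h3
  exact not_van_const hc0 h3

theorem apply_eq_zero {E : Divisor L F} (hE : 0 ≤ E) {P : Place L F}
    (h : C.rd E (C.r P) = 0) {P' : Place L F} (hP' : C.r P' = C.r P) : E P' = 0 := by
  by_contra hne
  have h1 : 0 < E P' := lt_of_le_of_ne (hE P') (Ne.symm hne)
  have h2 := mapDomain_pos C.r (E := E) (Q := C.r P) (fun w _ => hE w) hP' h1
  rw [C.rd_apply] at h
  omega

/-- uniqueness of the effective divisor -/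
theorem eff_unique {E₀ E E' : Divisor L F} (hE : 0 ≤ E) (hE' : 0 ≤ E') (h : Leq E E₀)
    (h' : Leq E' E₀) {P : Place L F} (hP : C.Nul (E₀ - Finsupp.single P 1)) : E = E' := by
  obtain ⟨f, hf, hff⟩ := eq_dv_of_mem_principal (h'.trans h.symm)
  have h1 : f ∈ RR E := by
    rw [mem_RR_iff_dv hf, ← hff, sub_add_cancel]
    exact hE'
  have h2 : H02F.h0 E ≤ 1 := by
    rw [h.h0]; exact Nul.h0_le_one C hP
  obtain ⟨c, hc⟩ := smul_of_h0_le_one h2 (one_mem_RR hE) one_ne_zero h1
  have hc0 : c ≠ 0 := by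
    rintro rfl
    rw [zero_smul] at hc
    exact hf hc
  have h3 : (dv f : Divisor L F) = 0 := by
    ext v
    rw [dv_apply, hc, Algebra.smul_def, mul_one, H18.ord_algebraMap, Finsupp.zero_apply]
  rw [h3] at hff
  exact (sub_eq_zero.mp hff).symm

/-- the normalised function with poles bounded by `E + Q`, vanishing at `S` -/
structure IsU (E : Divisor L F) (Q S P₀ : Place L F) (u : D.Z) : Prop where
  mem : (u : F) ∈ RR (E + Finsupp.single Q 1 - Finsupp.single S 1)
  one : ev P₀ (u : F) = 1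
  regP₀ : Reg P₀ (u : F)
  oneb : ev (C.r P₀) (D.ρ u) = 1

theorem reg_near {E : Divisor L F} (hE : 0 ≤ E) {Q S P : Place L F}
    (hP : C.rd E (C.r P) = 0) (hQ : C.r Q ≠ C.r P) {f : F}
    (hf : f ∈ RR (E + Finsupp.single Q 1 - Finsupp.single S 1)) {P' : Place L F}
    (hP' : C.r P' = C.r P) : Reg P' f := by
  refine reg_of_mem_RR hf ?_
  have h1 := C.apply_eq_zero hE hP hP'
  have h2 : P' ≠ Q := by
    rintro rfl
    exact hQ hP'
  have h3 := single_nonneg S P'
  rw [Finsupp.zero_apply] at h3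
  rw [Finsupp.sub_apply, Finsupp.add_apply, h1, Finsupp.single_eq_of_ne h2]
  omega

theorem exists_u {n : ℕ} (lb : ∀ E : Divisor L F, Divisor.degree E - n ≤ H02F.h0 E)
    {E : Divisor L F} (hE : 0 ≤ E) (hdeg : Divisor.degree E = n + 1) {Q S P₀ : Place L F}
    (hP₀ : C.rd E (C.r P₀) = 0) (hQP₀ : C.r Q ≠ C.r P₀) (hSP₀ : C.r S ≠ C.r P₀)
    (hN : C.Nul (E + Finsupp.single Q 1 - Finsupp.single S 1 - Finsupp.single P₀ 1)) :
    ∃ u : D.Z, C.IsU E Q S P₀ u := by
  have h1 : 2 ≤ H02F.h0 (E + Finsupp.single Q 1) := by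
    have := lb (E + Finsupp.single Q 1)
    rw [map_add, degree_single_one, hdeg] at this
    omega
  have h2 := h0_le_sub_single_add (E + Finsupp.single Q 1) S
  obtain ⟨f, hf, hf0⟩ := exists_ne_zero_of_h0_pos
    (show 0 < H02F.h0 (E + Finsupp.single Q 1 - Finsupp.single S 1) by omega)
  obtain ⟨c, hc, z, hz, hρ, hzm, hρm⟩ := C.exists_prim hf hf0
  obtain ⟨hA, hreg, hres⟩ := C.eval (z := z) (P := P₀)
    (fun P' hP' => C.reg_near hE hP₀ hQP₀ hzm hP')
  have hne : ev (C.r P₀) (D.ρ z) ≠ 0 := by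
    intro h0
    rw [ev_eq_zero_iff hreg] at h0
    have h3 : D.ρ z ∈ RR (C.rd (E + Finsupp.single Q 1 - Finsupp.single S 1) -
        Finsupp.single (C.r P₀) 1) := by
      refine mem_RR_sub_of_van hρm ?_ h0
      rw [map_sub, map_add, rd_single, rd_single, Finsupp.sub_apply, Finsupp.add_apply, hP₀,
        Finsupp.single_eq_of_ne (Ne.symm hQP₀), Finsupp.single_eq_of_ne (Ne.symm hSP₀)]
      simp
    rw [← rd_single, ← map_sub] at h3
    unfold Nul at hN
    rw [h0_eq_zero_iff] at hN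
    rw [hN, Submodule.mem_bot] at h3
    exact hρ h3
  have hu : residue A ⟨_, hA⟩ ≠ 0 := by rw [hres]; exact hne
  have hunit : IsUnit (⟨_, hA⟩ : A) := by
    rw [ne_eq, residue_eq_zero_iff, mem_maximalIdeal, mem_nonunits_iff, not_not] at hu
    exact hu
  obtain ⟨a, ha⟩ := isUnit_iff_exists_inv.mp hunit
  have ha' : ev P₀ (z : F) * (a : L) = 1 := congrArg Subtype.val ha
  let u : D.Z := ⟨algebraMap L F a, D.alg_mem a⟩ * z
  have huF : (u : F) = (a : L) • (z : F) := by
    rw [Algebra.smul_def]; rfl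
  have hregP : Reg P₀ (z : F) := C.reg_near hE hP₀ hQP₀ hzm rfl
  refine ⟨u, ?_, ?_, ?_, ?_⟩
  · rw [huF]; exact Submodule.smul_mem _ _ hzm
  · rw [huF, ev_smul _ hregP, mul_comm]; exact ha'
  · rw [huF]; exact hregP.smul _
  · have h4 : D.ρ u = residue A a • D.ρ z := by
      rw [map_mul, D.ρ_alg a, Algebra.smul_def]
    rw [h4, ev_smul _ hreg, ← hres, ← map_mul, mul_comm, ha, map_one]

theorem IsU.ne_zero {E : Divisor L F} {Q S P₀ : Place L F} {u : D.Z} (h : C.IsU E Q S P₀ u) :
    (u : F) ≠ 0 := by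
  intro h0
  have := h.one
  rw [h0, ev_zero] at this
  exact zero_ne_one this

theorem IsU.ρ_ne_zero {E : Divisor L F} {Q S P₀ : Place L F} {u : D.Z}
    (h : C.IsU E Q S P₀ u) : D.ρ u ≠ 0 := by
  intro h0
  have := h.oneb
  rw [h0, ev_zero] at this
  exact zero_ne_one this

theorem IsU.memb {E : Divisor L F} {Q S P₀ : Place L F} {u : D.Z} (h : C.IsU E Q S P₀ u) :
    D.ρ u ∈ RR (C.rd E + Finsupp.single (C.r Q) 1 - Finsupp.single (C.r S) 1) := by
  have := C.ρ_mem_RR h.mem
  rwa [map_sub, map_add, rd_single, rd_single] at this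

/-- comparison with an arbitrary section -/
theorem IsU.ratio {E E₀ : Divisor L F} {Q S P₀ : Place L F} {u : D.Z}
    (h : C.IsU E Q S P₀ u)
    (hN : C.Nul (E + Finsupp.single Q 1 - Finsupp.single S 1 - Finsupp.single P₀ 1))
    {g : F} (hg : g ∈ RR (E + Finsupp.single Q 1 - Finsupp.single S 1)) (hg0 : g ≠ 0) :
    ∃ c : L, c ≠ 0 ∧ g = c • (u : F) := by
  obtain ⟨c, hc⟩ := smul_of_h0_le_one (Nul.h0_le_one C hN) h.mem (IsU.ne_zero C h) hg
  refine ⟨c, ?_, hc⟩
  rintro rfl
  rw [zero_smul] at hc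
  exact hg0 hc

end PRed

end Fermat.Agent.H02F
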