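import Mathlib
import Fermat.Agent.H02F.Indep
import Fermat.Agent.H02F.Kap

set_option autoImplicit false

/-! The addition law for a pair of classes. -/

noncomputable section

open AlgebraicCurve Module IsLocalRing

namespace Fermat.Agent.H02F

section Rdx

variable {L : Type*} [Field L] {A : ValuationSubring L}

/-- `a` is integral with residue `b` -/
def Rdx (a : L) (b : ResidueField A) : Prop := ∃ h : a ∈ A, residue A ⟨a, h⟩ = b

theorem Rdx.mul {a a' : L} {b b' : ResidueField A} (h : Rdx a b) (h' : Rdx a' b') :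
    Rdx (a * a') (b * b') := by
  obtain ⟨h1, rfl⟩ := h
  obtain ⟨h2, rfl⟩ := h'
  exact ⟨mul_mem h1 h2, by rw [← map_mul]; rfl⟩

theorem rdx_one : Rdx (1 : L) (1 : ResidueField A) :=
  ⟨one_mem _, by rw [← map_one (residue A)]; rfl⟩

theorem rdx_zero : Rdx (0 : L) (0 : ResidueField A) :=
  ⟨zero_mem _, by rw [← map_zero (residue A)]; rfl⟩

theorem Rdx.inv_mem {a : L} {b : ResidueField A} (h : Rdx a b) (hb : b ≠ 0) :
    a ≠ 0 ∧ a⁻¹ ∈ A := by
  obtain ⟨h1, rfl⟩ := h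
  have hunit : IsUnit (⟨a, h1⟩ : A) := by
    rw [ne_eq, residue_eq_zero_iff, mem_maximalIdeal, mem_nonunits_iff, not_not] at hb
    exact hb
  obtain ⟨c, hc⟩ := isUnit_iff_exists_inv.mp hunit
  have hc' : a * (c : L) = 1 := congrArg Subtype.val hc
  refine ⟨left_ne_zero_of_mul_eq_one hc', ?_⟩
  rw [← eq_inv_of_mul_eq_one_right hc']
  exact c.2

theorem rdx_DET {ι θ : Type*} [Fintype ι] [DecidableEq ι] (e : Option (Option (Option θ)) ≃ ι)
    {w : Option (Option (Option θ)) → ι → L} {wb : Option (Option (Option θ)) → ι → ResidueField A}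
    (h : ∀ r j, Rdx (w r j) (wb r j)) : Rdx (DET e w) (DET e wb) := by
  choose h1 h2 using h
  let w' : Option (Option (Option θ)) → ι → A := fun r j => ⟨w r j, h1 r j⟩
  have e1 : ((DET e w' : A) : L) = DET e w := map_DET e A.subtype w'
  have e2 : residue A (DET e w') = DET e wb := by
    rw [map_DET]
    congr 1
    funext r j
    exact h2 r j
  refine ⟨e1 ▸ (DET e w').2, ?_⟩
  rw [← e2]
  congr 1
  exact Subtype.ext e1.symm

end Rdx

variable {L : Type*} [Field L] {A : ValuationSubring L} {F Fb : Type*} [Field F] [Field Fb]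
  [Algebra L F] [Algebra (ResidueField A) Fb] [Crv L F] [Crv (ResidueField A) Fb]
  {D : H28.RedData A F Fb} (C : PRed D)

/-- multiplication data over the valuation ring -/
structure PData (D : H28.RedData A F Fb) (n : ℕ) where
  E₁ : Divisor L F
  E₂ : Divisor L F
  Qs : Place L F
  q : Fin (n + 1) → Place L F
  u : D.Z
  v : Fin (n + 1) → D.Z

namespace PData

variable {n : ℕ} (p : PData D n)

/-- generic fibre -/
def gen : MData L F n := ⟨p.E₁, p.E₂, p.Qs, p.q, p.u, fun i => p.v i⟩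

/-- special fibre -/
def spc : MData (ResidueField A) Fb n :=
  ⟨C.rd p.E₁, C.rd p.E₂, C.r p.Qs, fun i => C.r (p.q i), D.ρ p.u, fun i => D.ρ (p.v i)⟩

/-- hypotheses -/
structure Ok : Prop where
  h₁ : 0 ≤ p.E₁
  h₂ : 0 ≤ p.E₂
  hu : (p.u : F) ∈ RR (p.E₁ + Finsupp.single p.Qs 1)
  hv : ∀ i, (p.v i : F) ∈ RR (p.E₂ + Finsupp.single (p.q i) 1)
  inj : Function.Injective fun i => C.r (p.q i)
  s₁ : C.rd p.E₁ (C.r p.Qs) = 0
  s₂ : C.rd p.E₂ (C.r p.Qs) = 0
  sq : ∀ i, C.r (p.q i) ≠ C.r p.Qs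
  l₁ : C.rd p.E₁ (C.r (p.q (Fin.last n))) = 0
  l₂ : ∀ i, C.rd p.E₂ (C.r (p.q i)) = 0

variable {C} {p}

theorem Ok.gen (h : p.Ok C) : p.gen.Ok where
  h₁ := h.h₁
  h₂ := h.h₂
  hu := h.hu
  hv := h.hv
  inj := fun i j hij => h.inj (congrArg C.r hij)
  s₁ := C.apply_eq_zero h.h₁ h.s₁ rfl
  s₂ := C.apply_eq_zero h.h₂ h.s₂ rfl
  sq := fun i hi => h.sq i (congrArg C.r hi)
  l₁ := C.apply_eq_zero h.h₁ h.l₁ rfl
  l₂ := fun i => C.apply_eq_zero h.h₂ (h.l₂ i) rfl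

theorem Ok.spc (h : p.Ok C) : (p.spc C).Ok where
  h₁ := C.rd_nonneg h.h₁
  h₂ := C.rd_nonneg h.h₂
  hu := by
    have := C.ρ_mem_RR h.hu
    rwa [map_add, PRed.rd_single] at this
  hv := fun i => by
    have := C.ρ_mem_RR (h.hv i)
    rwa [map_add, PRed.rd_single] at this
  inj := h.inj
  s₁ := h.s₁
  s₂ := h.s₂
  sq := h.sq
  l₁ := h.l₁
  l₂ := h.l₂

theorem Ok.av (h : p.Ok C) {R : Place L F} (hR : (p.spc C).Av (C.r R)) : p.gen.Av R :=
  ⟨C.apply_eq_zero h.h₁ hR.1 rfl, C.apply_eq_zero h.h₂ hR.2.1 rfl,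
    fun h' => hR.2.2.1 (congrArg C.r h'), fun i h' => hR.2.2.2 i (congrArg C.r h')⟩

theorem Ok.rdx_u (h : p.Ok C) {R : Place L F} (h1 : C.rd p.E₁ (C.r R) = 0)
    (h2 : C.r p.Qs ≠ C.r R) (a : Bool) :
    Rdx (ev R (p.gen.ff a)) (ev (C.r R) ((p.spc C).ff a)) := by
  cases a
  · change Rdx (ev R 1) (ev (C.r R) 1)
    rw [ev_one, ev_one]
    exact rdx_one
  · change Rdx (ev R (p.u : F)) (ev (C.r R) (D.ρ p.u))
    obtain ⟨hA, -, hres⟩ := C.eval (z := p.u) (P := R) fun P' hP' =>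
      reg_of_mem_RR h.hu (by
        rw [Finsupp.add_apply, C.apply_eq_zero h.h₁ h1 hP', Finsupp.single_eq_of_ne]
        · simp
        · rintro rfl; exact h2 hP')
    exact ⟨hA, hres⟩

theorem Ok.rdx_v (h : p.Ok C) {R : Place L F} (h1 : C.rd p.E₂ (C.r R) = 0)
    (h2 : ∀ i, C.r (p.q i) ≠ C.r R) (b : Option (Fin (n + 1))) :
    Rdx (ev R (p.gen.gg b)) (ev (C.r R) ((p.spc C).gg b)) := by
  rcases b with _ | i
  · change Rdx (ev R 1) (ev (C.r R) 1)
    rw [ev_one, ev_one]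
    exact rdx_one
  · change Rdx (ev R (p.v i : F)) (ev (C.r R) (D.ρ (p.v i)))
    obtain ⟨hA, -, hres⟩ := C.eval (z := p.v i) (P := R) fun P' hP' =>
      reg_of_mem_RR (h.hv i) (by
        rw [Finsupp.add_apply, C.apply_eq_zero h.h₂ h1 hP', Finsupp.single_eq_of_ne]
        · simp
        · rintro rfl; exact h2 i hP')
    exact ⟨hA, hres⟩

theorem Ok.rdx_evrow (h : p.Ok C) {R : Place L F} (hR : (p.spc C).Av (C.r R)) (j : Col n) :
    Rdx (p.gen.evrow R j) ((p.spc C).evrow (C.r R) j) :=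
  (h.rdx_u hR.1 hR.2.2.1 j.1).mul (h.rdx_v hR.2.1 hR.2.2.2 j.2)

theorem Ok.rdx_qrow (h : p.Ok C) (j : Col n) :
    Rdx (p.gen.qrow j) ((p.spc C).qrow j) := by
  unfold MData.qrow
  split_ifs with h1
  · exact h.rdx_u h.l₁ (Ne.symm (h.sq _)) j.1
  · exact rdx_zero

theorem Ok.rdx_qsrow (h : p.Ok C) (j : Col n) :
    Rdx (p.gen.qsrow j) ((p.spc C).qsrow j) := by
  unfold MData.qsrow
  split_ifs with h1
  · exact h.rdx_v h.s₂ h.sq j.2
  · exact rdx_zero

variable {θ : Type*} [Fintype θ] {τ : θ → Place L F}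

theorem Ok.rdx_det' (h : p.Ok C) (e : Option (Option (Option θ)) ≃ Col n)
    (hav : ∀ t, (p.spc C).Av (C.r (τ t))) {S R : Place L F} (hS : (p.spc C).Av (C.r S))
    (hR : (p.spc C).Av (C.r R)) :
    Rdx (p.gen.det' e τ S R) ((p.spc C).det' e (fun t => C.r (τ t)) (C.r S) (C.r R)) := by
  refine rdx_DET e fun r j => ?_
  rcases r with _ | _ | _ | t
  · exact h.rdx_evrow hR j
  · exact h.rdx_evrow hS j
  · exact h.rdx_qsrow j
  · exact h.rdx_evrow (hav t) j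

theorem Ok.rdx_det'' (h : p.Ok C) (e : Option (Option (Option θ)) ≃ Col n)
    (hav : ∀ t, (p.spc C).Av (C.r (τ t))) {R : Place L F}
    (hR : (p.spc C).Av (C.r R)) :
    Rdx (p.gen.det'' e τ R) ((p.spc C).det'' e (fun t => C.r (τ t)) (C.r R)) := by
  refine rdx_DET e fun r j => ?_
  rcases r with _ | _ | _ | t
  · exact h.rdx_evrow hR j
  · exact h.rdx_qrow j
  · exact h.rdx_qsrow j
  · exact h.rdx_evrow (hav t) j

theorem rd_dsf : C.rd (dsf τ) = dsf fun t => C.r (τ t) := by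
  unfold dsf
  rw [map_sum]
  exact Finset.sum_congr rfl fun t _ => C.rd_single _ _

/-- the addition law: all the hypotheses are residual -/
theorem Ok.addition (h : p.Ok C) (hx : (p.spc C).Ex) (e : Option (Option (Option θ)) ≃ Col n)
    (hτ : Function.Injective fun t => C.r (τ t)) (hav : ∀ t, (p.spc C).Av (C.r (τ t)))
    {S P₀ P : Place L F} (hS : (p.spc C).Av (C.r S)) (hSτ : ∀ t, C.r (τ t) ≠ C.r S)
    (hP₀ : (p.spc C).Av (C.r P₀)) (hP₀τ : ∀ t, C.r (τ t) ≠ C.r P₀) (hSP₀ : C.r S ≠ C.r P₀)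
    (hP : (p.spc C).Av (C.r P)) (hPτ : ∀ t, C.r (τ t) ≠ C.r P)
    {E : Divisor L F} (hE : 0 ≤ E)
    (hEE : Leq E (p.E₁ + p.E₂ + dsf p.q - dsf τ - Finsupp.single (p.q (Fin.last n)) 1))
    {U : D.Z} (hU : C.IsU E (p.q (Fin.last n)) S P₀ U)
    (hnP₀ : C.Nul (E - Finsupp.single P₀ 1)) (hnP : C.Nul (E - Finsupp.single P 1))
    (hN : C.Nul (E + Finsupp.single (p.q (Fin.last n)) 1 - Finsupp.single S 1 -
      Finsupp.single P₀ 1)) :
    (∃ b : ResidueField A, b ≠ 0 ∧ Rdx (p.gen.det' e τ S P₀) b) ∧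
    (∃ b : ResidueField A, b ≠ 0 ∧ Rdx (p.gen.det'' e τ P) b) ∧
    p.gen.det' e τ S P * p.gen.det'' e τ P₀ =
      ev P (U : F) * (p.gen.det' e τ S P₀ * p.gen.det'' e τ P) := by
  have hav' : ∀ t, p.gen.Av (τ t) := fun t => h.av (hav t)
  have hτ' : Function.Injective τ := fun t s hts => hτ (congrArg C.r hts)
  have hS' := h.av hS
  have hP₀' := h.av hP₀
  have hP' := h.av hP
  -- residual non-vanishing
  have k1 : (p.spc C).det' e (fun t => C.r (τ t)) (C.r S) (C.r P₀) ≠ 0 := by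
    refine MData.det'_ne_zero h.spc hx e hτ hav hS hSτ hP₀ hP₀τ hSP₀ ?_
    have h1 : C.Nul (p.E₁ + p.E₂ + dsf p.q - dsf τ - Finsupp.single S 1 -
        Finsupp.single P₀ 1) := by
      refine PRed.Nul.leq C hN ?_
      have := (hEE.add_right (Finsupp.single (p.q (Fin.last n)) 1 - Finsupp.single S 1 -
        Finsupp.single P₀ 1))
      convert this using 1 <;> abel
    have h2 := h0_eq_zero_iff.mp h1
    rw [map_sub, map_sub, map_sub, map_add, map_add, rd_dsf, rd_dsf, PRed.rd_single,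
      PRed.rd_single] at h2
    exact h2
  have k2 : ∀ {R : Place L F}, (p.spc C).Av (C.r R) → (∀ t, C.r (τ t) ≠ C.r R) →
      C.Nul (E - Finsupp.single R 1) →
      (p.spc C).det'' e (fun t => C.r (τ t)) (C.r R) ≠ 0 := by
    intro R hR hRτ hnR
    refine MData.det''_ne_zero h.spc hx e hτ hav hR hRτ ?_
    have h1 := PRed.Nul.leq C hnR (hEE.sub_right (Finsupp.single R 1))
    have h2 := h0_eq_zero_iff.mp h1
    rw [map_sub, map_sub, map_sub, map_add, map_add, rd_dsf, rd_dsf, PRed.rd_single,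
      PRed.rd_single] at h2
    exact h2
  have r1 := h.rdx_det' e hav hS hP₀
  have r2 := h.rdx_det'' e hav hP
  have r3 := h.rdx_det'' e hav hP₀
  refine ⟨⟨_, k1, r1⟩, ⟨_, k2 hP hPτ hnP, r2⟩, ?_⟩
  obtain ⟨f', hf', hev'⟩ := MData.exists_h' h.gen e hτ' hav' hS' (fun t ht => hSτ t (by rw [ht]))
  obtain ⟨f'', hf'', hev''⟩ := MData.exists_h'' h.gen e hτ' hav'
  have hne'' : f'' ≠ 0 := by
    rintro rfl
    have h1 := (hev'' P₀ hP₀').2
    rw [ev_zero] at h1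
    exact (r3.inv_mem (k2 hP₀ hP₀τ hnP₀)).1 h1.symm
  have hge : 0 ≤ dv f'' + (p.E₁ + p.E₂ + dsf p.q - dsf τ -
      Finsupp.single (p.q (Fin.last n)) 1) := (mem_RR_iff_dv hne'').mp hf''
  have hEq : dv f'' + (p.E₁ + p.E₂ + dsf p.q - dsf τ -
      Finsupp.single (p.q (Fin.last n)) 1) = E :=
    C.eff_unique (E₀ := E) hge hE ((Leq.dv hne'' _).trans hEE.symm) (Leq.refl _) hnP₀
  have hmem : (U : F) * f'' ∈ RR (p.E₁ + p.E₂ + dsf p.q - dsf τ - Finsupp.single S 1) := by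
    rw [mul_mem_RR_iff hne'']
    have : p.E₁ + p.E₂ + dsf p.q - dsf τ - Finsupp.single S 1 + dv f'' =
        E + Finsupp.single (p.q (Fin.last n)) 1 - Finsupp.single S 1 := by
      rw [← hEq]; abel
    rw [this]
    exact hU.mem
  have hle : h0 (p.E₁ + p.E₂ + dsf p.q - dsf τ - Finsupp.single S 1) ≤ 1 := by
    apply PRed.Nul.h0_le_one C (P := P₀)
    refine PRed.Nul.leq C hN ?_
    have := (hEE.add_right (Finsupp.single (p.q (Fin.last n)) 1 - Finsupp.single S 1 -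
      Finsupp.single P₀ 1))
    convert this using 1 <;> abel
  have hUne := PRed.IsU.ne_zero C hU
  obtain ⟨c, hc⟩ := smul_of_h0_le_one hle hmem (mul_ne_zero hUne hne'') hf'
  have hregU : ∀ {R : Place L F}, (p.spc C).Av (C.r R) → C.Nul (E - Finsupp.single R 1) →
      Reg R (U : F) := by
    intro R hR hnR
    exact C.reg_near hE (C.clean hE (Leq.refl _) hnR) (hR.2.2.2 _) hU.mem rfl
  have e1 : p.gen.det' e τ S P = c * (ev P (U : F) * p.gen.det'' e τ P) := by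
    rw [← (hev' P hP').2, hc, ev_smul _ ((hregU hP hnP).mul (hev'' P hP').1),
      ev_mul (hregU hP hnP) (hev'' P hP').1, (hev'' P hP').2]
  have e2 : p.gen.det' e τ S P₀ = c * p.gen.det'' e τ P₀ := by
    rw [← (hev' P₀ hP₀').2, hc, ev_smul _ ((hregU hP₀ hnP₀).mul (hev'' P₀ hP₀').1),
      ev_mul (hregU hP₀ hnP₀) (hev'' P₀ hP₀').1, (hev'' P₀ hP₀').2, hU.one, one_mul]
  rw [e1, e2]
  ring

end PData

end Fermat.Agent.H02F
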