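import Mathlib
import Fermat.Agent.H02F.Pair

set_option autoImplicit false

/-! The context: a finite group of divisor classes, and kernel functions on it. -/

noncomputable section

open AlgebraicCurve Module IsLocalRing

namespace Fermat.Agent.H02F

variable {L : Type*} [Field L] {A : ValuationSubring L} {F Fb : Type*} [Field F] [Field Fb]
  [Algebra L F] [Algebra (ResidueField A) Fb] [Crv L F] [Crv (ResidueField A) Fb]

/-- parameters of a kernel function -/
structure Dat (L F : Type*) [Field L] [Field F] [Algebra L F] where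
  b : Divisor L F
  Q : Place L F
  S : Place L F
  P₀ : Place L F
  P : Place L F

/-- a finite group of divisor classes on a curve with good reduction -/
structure Ctx (D : H28.RedData A F Fb) (M : Type*) [AddCommGroup M] where
  C : PRed D
  n : ℕ
  lb : ∀ E : Divisor L F, Divisor.degree E - n ≤ h0 E
  ub : UB (ResidueField A) Fb (n + 1)
  d : M → Divisor L F
  deg_d : ∀ x, Divisor.degree (d x) = 0
  d_add : ∀ x y, Leq (d (x + y)) (d x + d y)
  d_inj : ∀ x y, Leq (d x) (d y) → x = y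
  I : Set (SemilinearAut L F)
  inf : (C.r '' {P | ∀ σ ∈ I, σ • P = P}).Infinite

variable {D : H28.RedData A F Fb} {M : Type*} [AddCommGroup M]

namespace Ctx

variable (X : Ctx D M)

/-- fixed places -/
def G : Set (Place L F) := {P | ∀ σ ∈ X.I, σ • P = P}

/-- residually empty -/
abbrev Nul (E : Divisor L F) : Prop := X.C.Nul E

/-- class of `x` translated by `b` -/
abbrev cl (b : Divisor L F) (x : M) : Divisor L F := X.d x + b

theorem exists_eff {E₀ : Divisor L F} (h : Divisor.degree E₀ = X.n + 1) :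
    ∃ E : Divisor L F, 0 ≤ E ∧ Leq E E₀ := by
  have h1 := X.lb E₀
  obtain ⟨f, hf, hf0⟩ := exists_ne_zero_of_h0_pos (show 0 < h0 E₀ by omega)
  exact ⟨dv f + E₀, (mem_RR_iff_dv hf0).mp hf, Leq.dv hf0 _⟩

/-- the effective divisor in the class `x + b` -/
def eff (b : Divisor L F) (x : M) : Divisor L F :=
  open Classical in
  if h : ∃ E : Divisor L F, 0 ≤ E ∧ Leq E (X.cl b x) then h.choose else 0

theorem degree_cl (b : Divisor L F) (x : M) :
    Divisor.degree (X.cl b x) = Divisor.degree b := by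
  unfold cl
  rw [map_add, X.deg_d, zero_add]

variable {X}

theorem eff_nonneg {b : Divisor L F} (hb : Divisor.degree b = X.n + 1) (x : M) :
    0 ≤ X.eff b x := by
  have h := X.exists_eff (E₀ := X.cl b x) (by rw [degree_cl, hb])
  unfold eff
  rw [dif_pos h]
  exact h.choose_spec.1

theorem eff_leq {b : Divisor L F} (hb : Divisor.degree b = X.n + 1) (x : M) :
    Leq (X.eff b x) (X.cl b x) := by
  have h := X.exists_eff (E₀ := X.cl b x) (by rw [degree_cl, hb])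
  unfold eff
  rw [dif_pos h]
  exact h.choose_spec.2

theorem degree_eff {b : Divisor L F} (hb : Divisor.degree b = X.n + 1) (x : M) :
    Divisor.degree (X.eff b x) = X.n + 1 := by
  rw [(eff_leq hb x).degree, degree_cl, hb]

variable (X)

/-- admissible parameters -/
structure Ok (δ : Dat L F) : Prop where
  deg_b : Divisor.degree δ.b = X.n + 1
  nQ : ∀ x, X.Nul (X.cl δ.b x - Finsupp.single δ.Q 1)
  nS : ∀ x, X.Nul (X.cl δ.b x - Finsupp.single δ.S 1)
  nP₀ : ∀ x, X.Nul (X.cl δ.b x - Finsupp.single δ.P₀ 1)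
  nP : ∀ x, X.Nul (X.cl δ.b x - Finsupp.single δ.P 1)
  QS : X.C.r δ.Q ≠ X.C.r δ.S
  QP₀ : X.C.r δ.Q ≠ X.C.r δ.P₀
  SP₀ : X.C.r δ.S ≠ X.C.r δ.P₀
  QP : X.C.r δ.Q ≠ X.C.r δ.P
  nn : ∀ x, X.Nul (X.cl δ.b x + Finsupp.single δ.Q 1 - Finsupp.single δ.S 1 -
    Finsupp.single δ.P₀ 1)

/-- parameters fixed by `I` -/
structure Inv (δ : Dat L F) : Prop where
  b : ∀ σ ∈ X.I, σ • δ.b = δ.b
  Q : δ.Q ∈ X.G
  S : δ.S ∈ X.G
  P₀ : δ.P₀ ∈ X.G
  P : δ.P ∈ X.G

/-- the normalised function -/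
def uu (b : Divisor L F) (Q S P₀ : Place L F) (x : M) : D.Z :=
  open Classical in
  if h : ∃ u : D.Z, X.C.IsU (X.eff b x) Q S P₀ u then h.choose else 0

/-- the kernel function -/
def kap (δ : Dat L F) (x : M) : L := ev δ.P (X.uu δ.b δ.Q δ.S δ.P₀ x : F)

variable {X}

theorem nul_eff {b : Divisor L F} (hb : Divisor.degree b = X.n + 1) {x : M} {E : Divisor L F}
    (h : X.Nul (X.cl b x + E)) : X.Nul (X.eff b x + E) :=
  PRed.Nul.leq X.C h ((eff_leq hb x).symm.add_right E)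

theorem clean {b : Divisor L F} (hb : Divisor.degree b = X.n + 1) {x : M} {P : Place L F}
    (h : X.Nul (X.cl b x - Finsupp.single P 1)) :
    X.C.rd (X.eff b x) (X.C.r P) = 0 :=
  X.C.clean (eff_nonneg hb x) (eff_leq hb x) h

theorem nul_of_clean {b : Divisor L F} (hb : Divisor.degree b = X.n + 1) {x : M} {P P' : Place L F}
    (h' : X.Nul (X.cl b x - Finsupp.single P' 1))
    (h : X.C.rd (X.eff b x) (X.C.r P) = 0) : X.Nul (X.cl b x - Finsupp.single P 1) :=
  X.C.nul_of_clean (eff_nonneg hb x) (eff_leq hb x) (PRed.Nul.h0_rd_le_one X.C h') h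

theorem Ok.nn_eff {δ : Dat L F} (h : X.Ok δ) (x : M) :
    X.Nul (X.eff δ.b x + Finsupp.single δ.Q 1 - Finsupp.single δ.S 1 -
    Finsupp.single δ.P₀ 1) :=
  PRed.Nul.leq X.C (h.nn x)
    ((((eff_leq h.deg_b x).symm.add_right _).sub_right _).sub_right _)

theorem Ok.isU {δ : Dat L F} (h : X.Ok δ) (x : M) :
    X.C.IsU (X.eff δ.b x) δ.Q δ.S δ.P₀ (X.uu δ.b δ.Q δ.S δ.P₀ x) := by
  have h1 : ∃ u : D.Z, X.C.IsU (X.eff δ.b x) δ.Q δ.S δ.P₀ u :=
    X.C.exists_u X.lb (eff_nonneg h.deg_b x) (degree_eff h.deg_b x)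
      (clean h.deg_b (h.nP₀ x)) h.QP₀ h.SP₀ (h.nn_eff x)
  unfold uu
  rw [dif_pos h1]
  exact h1.choose_spec

theorem Ok.kap_mem {δ : Dat L F} (h : X.Ok δ) (x : M) : X.kap δ x ∈ A := by
  have hu := h.isU x
  obtain ⟨hA, -, -⟩ := X.C.eval (z := X.uu δ.b δ.Q δ.S δ.P₀ x) (P := δ.P) fun P' hP' =>
    X.C.reg_near (eff_nonneg h.deg_b x) (clean h.deg_b (h.nP x)) h.QP hu.mem hP'
  exact hA

/-- intrinsic characterisation of the kernel function -/
theorem Ok.kap_eq {δ : Dat L F} (h : X.Ok δ) (x : M) {E : Divisor L F} (hE : 0 ≤ E)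
    (hEE : Leq E (X.cl δ.b x)) {g : F}
    (hg : g ∈ RR (E + Finsupp.single δ.Q 1 - Finsupp.single δ.S 1)) (hg0 : g ≠ 0) :
    Reg δ.P g ∧ Reg δ.P₀ g ∧ ev δ.P₀ g ≠ 0 ∧ ev δ.P g = X.kap δ x * ev δ.P₀ g := by
  have hEq : E = X.eff δ.b x := X.C.eff_unique (E₀ := X.cl δ.b x) hE (eff_nonneg h.deg_b x) hEE
    (eff_leq h.deg_b x) (h.nP₀ x)
  subst hEq
  have hu := h.isU x
  obtain ⟨c, hc, rfl⟩ := PRed.IsU.ratio X.C (E₀ := X.cl δ.b x) hu (h.nn_eff x) hg hg0
  have hreg : Reg δ.P (X.uu δ.b δ.Q δ.S δ.P₀ x : F) :=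
    X.C.reg_near (eff_nonneg h.deg_b x) (clean h.deg_b (h.nP x)) h.QP hu.mem rfl
  refine ⟨hreg.smul c, hu.regP₀.smul c, ?_, ?_⟩
  · rw [ev_smul c hu.regP₀, hu.one, mul_one]; exact hc
  · rw [ev_smul c hu.regP₀, hu.one, mul_one, ev_smul c hreg, kap, mul_comm]

end Ctx

end Fermat.Agent.H02F
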