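import Mathlib
import Fermat.Agent.H02F.Ctx

set_option autoImplicit false

/-! Choice of auxiliary points. -/

noncomputable section

open AlgebraicCurve Module IsLocalRing

namespace Fermat.Agent.H02F

variable {L : Type*} [Field L] {A : ValuationSubring L} {F Fb : Type*} [Field F] [Field Fb]
  [Algebra L F] [Algebra (ResidueField A) Fb] [Crv L F] [Crv (ResidueField A) Fb]

variable {D : H28.RedData A F Fb} {M : Type*} [AddCommGroup M]

namespace Ctx

variable (X : Ctx D M)

theorem exists_pt {bad : Set (Place (ResidueField A) Fb)} (hbad : bad.Finite) :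
    ∃ P ∈ X.G, X.C.r P ∉ bad := by
  obtain ⟨Q, ⟨P, hP, rfl⟩, hQ⟩ := X.inf.exists_notMem_finset hbad.toFinset
  exact ⟨P, hP, by rwa [Set.Finite.mem_toFinset] at hQ⟩

theorem exists_pts {Zs : Set (Divisor L F)} (hfin : Zs.Finite) (hZ : ∀ Z ∈ Zs, X.Nul Z)
    {bad : Set (Place (ResidueField A) Fb)} (hbad : bad.Finite) (m : ℕ) :
    ∃ τ : Fin m → Place L F, (∀ t, τ t ∈ X.G) ∧ (Function.Injective fun t => X.C.r (τ t)) ∧
      (∀ t, X.C.r (τ t) ∉ bad) ∧
      (∀ Z ∈ Zs, Divisor.degree Z + m ≤ X.n → X.Nul (Z + dsf τ)) ∧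
      (∀ Z ∈ Zs, ∀ l, Divisor.degree Z + m ≤ X.n + 1 →
        X.Nul (Z + dsf τ - Finsupp.single (τ l) 1)) := by
  classical
  haveI : Finite Zs := hfin.to_subtype
  obtain ⟨s, hs, h1, h2⟩ := exists_generic X.ub (fun i : Zs => X.C.rd (i : Divisor L F))
    (fun i => hZ i i.2) (X.C.r '' X.G) X.inf bad hbad m
  choose lift hl using fun P : s => (h1 P P.2).1
  let e : s ≃ Fin m := s.equivFinOfCardEq hs
  let τ : Fin m → Place L F := fun t => lift (e.symm t)
  have hr : ∀ t, X.C.r (τ t) = (e.symm t : Place (ResidueField A) Fb) := fun t => (hl _).2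
  have hds : X.C.rd (dsf τ) = ds s := by
    rw [PData.rd_dsf]
    unfold dsf ds
    rw [← Finset.sum_coe_sort s, ← Equiv.sum_comp e.symm]
    exact Finset.sum_congr rfl fun t _ => congrArg (fun P => Finsupp.single P (1 : ℤ)) (hr t)
  refine ⟨τ, fun t => (hl _).1, fun t t' htt => ?_, fun t => ?_, fun Z hZm hdeg => ?_,
    fun Z hZm l hdeg => ?_⟩
  · have htt' : X.C.r (τ t) = X.C.r (τ t') := htt
    rw [hr, hr] at htt'
    exact e.symm.injective (Subtype.ext htt')
  · rw [hr]
    exact (h1 _ (e.symm t).2).2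
  · have h3 := h2 ⟨Z, hZm⟩ s (Finset.Subset.refl s)
    have h4 : Divisor.degree (X.C.rd Z + ds s) = Divisor.degree Z + m := by
      rw [map_add, PRed.degree_rd, degree_ds, hs]
    rw [h4] at h3
    change H02F.h0 (X.C.rd (Z + dsf τ)) = 0
    rw [map_add, hds]
    have : max ((0 : ℕ) : ℤ) (Divisor.degree Z + m + 1 - (X.n + 1)) = 0 := by
      rw [max_eq_left]; · simp
      push_cast; omega
    rw [this] at h3
    exact_mod_cast h3.antisymm (by positivity)
  · have h3 := h2 ⟨Z, hZm⟩ (s.erase (X.C.r (τ l))) (Finset.erase_subset _ _)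
    have hmem : X.C.r (τ l) ∈ s := by rw [hr]; exact (e.symm l).2
    have h5 : ds s = Finsupp.single (X.C.r (τ l)) 1 + ds (s.erase (X.C.r (τ l))) := by
      rw [← ds_insert (Finset.notMem_erase _ _), Finset.insert_erase hmem]
    have hm : 1 ≤ m := by
      have := l.pos
      omega
    have h4 : Divisor.degree (X.C.rd Z + ds (s.erase (X.C.r (τ l)))) =
        Divisor.degree Z + m - 1 := by
      rw [map_add, PRed.degree_rd, degree_ds, Finset.card_erase_of_mem hmem, hs]
      push_cast [Nat.cast_sub hm]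
      ring
    rw [h4] at h3
    change H02F.h0 (X.C.rd (Z + dsf τ - Finsupp.single (τ l) 1)) = 0
    rw [map_sub, map_add, hds, PRed.rd_single, h5]
    have h6 : X.C.rd Z + (Finsupp.single (X.C.r (τ l)) 1 + ds (s.erase (X.C.r (τ l)))) -
        Finsupp.single (X.C.r (τ l)) 1 = X.C.rd Z + ds (s.erase (X.C.r (τ l))) := by abel
    rw [h6]
    have : max ((0 : ℕ) : ℤ) (Divisor.degree Z + m - 1 + 1 - (X.n + 1)) = 0 := by
      rw [max_eq_left]; · simp
      push_cast; omega
    rw [this] at h3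
    exact_mod_cast h3.antisymm (by positivity)

theorem smul_single_G {P : Place L F} (hP : P ∈ X.G) {σ : SemilinearAut L F} (hσ : σ ∈ X.I)
    (n : ℤ) : σ • (Finsupp.single P n : Divisor L F) = Finsupp.single P n := by
  rw [SemilinearAut.smul_single, hP σ hσ]

theorem smul_dsf_G {θ : Type*} [Fintype θ] {τ : θ → Place L F} (hτ : ∀ t, τ t ∈ X.G)
    {σ : SemilinearAut L F} (hσ : σ ∈ X.I) : σ • dsf τ = dsf τ := by
  unfold dsf
  rw [Finset.smul_sum]
  exact Finset.sum_congr rfl fun t _ => X.smul_single_G (hτ t) hσ 1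

theorem nul_of_degree_neg {E : Divisor L F} (h : Divisor.degree E < 0) : X.Nul E :=
  h0_eq_zero_of_degree_neg (by rw [PRed.degree_rd]; exact h)

/-- supports of the reductions of the effective divisors -/
def supps (b : Divisor L F) : Set (Place (ResidueField A) Fb) :=
  {P | ∃ x, X.C.rd (X.eff b x) P ≠ 0}

theorem finite_supps [Finite M] (b : Divisor L F) : (X.supps b).Finite := by
  have : X.supps b = ⋃ x : M, ((X.C.rd (X.eff b x)).support : Set _) := by
    ext P
    simp [supps, Finsupp.mem_support_iff]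
  rw [this]
  exact Set.finite_iUnion fun x => Finset.finite_toSet _

variable {X}

theorem rd_of_notMem_supps {b : Divisor L F} {P : Place (ResidueField A) Fb}
    (h : P ∉ X.supps b) (x : M) : X.C.rd (X.eff b x) P = 0 := by
  by_contra hne
  exact h ⟨x, hne⟩

/-- first step: the divisor `b₁` -/
theorem exists_b₁ [Finite M] {δ : Dat L F} (h : X.Ok δ) :
    ∃ b₁ : Divisor L F, Divisor.degree b₁ = X.n + 1 ∧ (∀ σ ∈ X.I, σ • b₁ = b₁) ∧
      (∀ x, ∀ R ∈ ({δ.Q, δ.S, δ.P₀, δ.P} : Set (Place L F)),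
        X.Nul (X.cl b₁ x - Finsupp.single R 1)) ∧
      ∀ y, X.Nul (X.cl δ.b y - b₁) := by
  classical
  let Zs : Set (Divisor L F) := ⋃ R ∈ ({δ.Q, δ.S, δ.P₀, δ.P} : Set (Place L F)),
    Set.range fun x => X.d x - Finsupp.single R 1
  have hfin : Zs.Finite := by
    apply Set.Finite.biUnion
    · exact Set.toFinite _
    · intro R _
      exact Set.finite_range _
  have hZ : ∀ Z ∈ Zs, X.Nul Z ∧ Divisor.degree Z = -1 := by
    intro Z hZ
    simp only [Zs, Set.mem_iUnion, Set.mem_range] at hZ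
    obtain ⟨R, -, x, rfl⟩ := hZ
    have : Divisor.degree (X.d x - Finsupp.single R 1) = -1 := by
      rw [map_sub, X.deg_d, degree_single_one]; ring
    exact ⟨X.nul_of_degree_neg (by rw [this]; norm_num), this⟩
  obtain ⟨τ, h1, h2, h3, h4, -⟩ := X.exists_pts hfin (fun Z hZm => (hZ Z hZm).1)
    (X.finite_supps δ.b) (X.n + 1)
  refine ⟨dsf τ, ?_, fun σ hσ => X.smul_dsf_G h1 hσ, fun x R hR => ?_, fun y => ?_⟩
  · rw [degree_dsf]; simp
  · have hm : X.d x - Finsupp.single R 1 ∈ Zs := by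
      simp only [Zs, Set.mem_iUnion, Set.mem_range]
      exact ⟨R, hR, x, rfl⟩
    have h5 := h4 _ hm (by rw [(hZ _ hm).2]; push_cast; omega)
    have h6 : X.cl (dsf τ) x - Finsupp.single R 1 = X.d x - Finsupp.single R 1 + dsf τ := by
      unfold cl; abel
    rw [h6]; exact h5
  · have h5 := nul_of_clean h.deg_b (h.nQ y) (rd_of_notMem_supps (h3 0) y)
    exact PRed.Nul.mono X.C h5 (sub_le_sub_left (single_le_dsf 0) _)

end Ctx

end Fermat.Agent.H02F
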