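import Mathlib
import Fermat.Agent.H02F.Choice

set_option autoImplicit false

/-! Choice of auxiliary points, continued. -/

noncomputable section

open AlgebraicCurve Module IsLocalRing

namespace Fermat.Agent.H02F

variable {L : Type*} [Field L] {A : ValuationSubring L} {F Fb : Type*} [Field F] [Field Fb]
  [Algebra L F] [Algebra (ResidueField A) Fb] [Crv L F] [Crv (ResidueField A) Fb]

variable {D : H28.RedData A F Fb} {M : Type*} [AddCommGroup M]

namespace Ctx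

variable (X : Ctx D M)

theorem exists_pt_sub {Ws : Set (Divisor (ResidueField A) Fb × ℕ)} (hfin : Ws.Finite)
    (hW : ∀ w ∈ Ws, h0 w.1 ≤ w.2 + 1)
    {bad : Set (Place (ResidueField A) Fb)} (hbad : bad.Finite) :
    ∃ P ∈ X.G, X.C.r P ∉ bad ∧ ∀ w ∈ Ws, h0 (w.1 - Finsupp.single (X.C.r P) 1) ≤ w.2 := by
  have h1 : (⋃ w ∈ Ws, {P : Place (ResidueField A) Fb |
      ¬ h0 (w.1 - Finsupp.single P 1) ≤ w.2}).Finite :=
    Set.Finite.biUnion hfin fun w hw => finite_sub_bad _ _ (hW w hw)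
  obtain ⟨P, hP, hPb⟩ := X.exists_pt (hbad.union h1)
  rw [Set.mem_union, not_or] at hPb
  refine ⟨P, hP, hPb.1, fun w hw => ?_⟩
  by_contra hcon
  exact hPb.2 (Set.mem_biUnion hw hcon)

variable {X}

theorem h0_rd_eff_le {b : Divisor L F} (hb : Divisor.degree b = X.n + 1) {x : M} {P : Place L F}
    (h : X.Nul (X.cl b x - Finsupp.single P 1)) : h0 (X.C.rd (X.eff b x)) ≤ 1 := by
  rw [PRed.h0_rd_congr X.C (eff_leq hb x)]
  exact PRed.Nul.h0_rd_le_one X.C h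

/-- second step: the pencil point -/
theorem exists_Qs [Finite M] {b₁ : Divisor L F} (hb : Divisor.degree b₁ = X.n + 1)
    {Q : Place L F} (h1 : ∀ x, X.Nul (X.cl b₁ x - Finsupp.single Q 1))
    {bad : Set (Place (ResidueField A) Fb)} (hbad : bad.Finite) :
    ∃ Qs ∈ X.G, X.C.r Qs ∉ bad ∧ X.C.r Qs ∉ X.supps b₁ ∧
      ∀ x R, 0 < X.C.rd (X.eff b₁ x) R →
        h0 (X.C.rd (X.eff b₁ x) - Finsupp.single R 1 + Finsupp.single (X.C.r Qs) 1) ≤ 1 := by
  have hfin : (⋃ x : M, ⋃ R ∈ (X.C.rd (X.eff b₁ x)).support,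
      {P : Place (ResidueField A) Fb |
        ¬ (h0 (X.C.rd (X.eff b₁ x) - Finsupp.single R 1 + Finsupp.single P 1) : ℤ) ≤
          max ((1 : ℕ) : ℤ) (Divisor.degree (X.C.rd (X.eff b₁ x) - Finsupp.single R 1 +
            Finsupp.single P 1) + 1 - (X.n + 1))}).Finite := by
    apply Set.finite_iUnion
    intro x
    apply Set.Finite.biUnion (Finset.finite_toSet _)
    intro R _
    refine tame X.ub 1 _ (le_max_of_le_left ?_)
    have h2 := h0_rd_eff_le hb (h1 x)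
    have h3 := h0_sub_single_le (X.C.rd (X.eff b₁ x)) R
    exact_mod_cast h3.trans h2
  obtain ⟨P, hP, hPb⟩ := X.exists_pt (hbad.union ((X.finite_supps b₁).union hfin))
  rw [Set.mem_union, Set.mem_union, not_or, not_or] at hPb
  refine ⟨P, hP, hPb.1, hPb.2.1, fun x R hR => ?_⟩
  have h4 := hPb.2.2
  simp only [Set.mem_iUnion, not_exists] at h4
  have h5 := h4 x R (Finsupp.mem_support_iff.mpr hR.ne')
  simp only [Set.mem_ofPred_eq, not_not] at h5
  have h6 : Divisor.degree (X.C.rd (X.eff b₁ x) - Finsupp.single R 1 +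
      Finsupp.single (X.C.r P) 1) = X.n + 1 := by
    rw [map_add, map_sub, degree_single_one, degree_single_one, PRed.degree_rd, degree_eff hb]
    ring
  rw [h6] at h5
  have h7 : max ((1 : ℕ) : ℤ) ((X.n : ℤ) + 1 + 1 - (X.n + 1)) = 1 := by
    rw [max_eq_left]
    · simp
    · push_cast; omega
  rw [h7] at h5
  exact_mod_cast h5

/-- third and fourth steps: the points `q` and `τ` -/
theorem exists_q_τ [Finite M] {δ : Dat L F} (h : X.Ok δ) {b₁ : Divisor L F}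
    (hb : Divisor.degree b₁ = X.n + 1)
    (h1 : ∀ x, X.Nul (X.cl b₁ x - Finsupp.single δ.Q 1))
    (h2 : ∀ y, X.Nul (X.cl δ.b y - b₁)) {Qs : Place L F}
    (hQsQ : X.C.r Qs ≠ X.C.r δ.Q) :
    ∃ (q : Fin (X.n + 1) → Place L F) (τ : Fin (2 * X.n + 1) → Place L F),
      q (Fin.last X.n) = δ.Q ∧ (∀ i, i ≠ Fin.last X.n → q i ∈ X.G) ∧ (∀ t, τ t ∈ X.G) ∧
      (Function.Injective fun i => X.C.r (q i)) ∧ (Function.Injective fun t => X.C.r (τ t)) ∧
      (∀ i, X.C.r (q i) ≠ X.C.r Qs) ∧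
      (∀ i, i ≠ Fin.last X.n → X.C.r (q i) ≠ X.C.r δ.S ∧ X.C.r (q i) ≠ X.C.r δ.P₀ ∧
        X.C.r (q i) ≠ X.C.r δ.P) ∧
      (∀ t, X.C.r (τ t) ≠ X.C.r Qs ∧ X.C.r (τ t) ≠ X.C.r δ.S ∧ X.C.r (τ t) ≠ X.C.r δ.P₀ ∧
        X.C.r (τ t) ≠ X.C.r δ.P ∧ ∀ i, X.C.r (τ t) ≠ X.C.r (q i)) ∧
      (∀ t, X.C.r (τ t) ∉ X.supps b₁) ∧
      Divisor.degree (δ.b + dsf τ - (dsf q - Finsupp.single δ.Q 1) - b₁) = X.n + 1 ∧
      (∀ y, ∀ R, (R = Qs ∨ R = δ.S ∨ R = δ.P₀ ∨ R = δ.P ∨ (∃ i, q i = R) ∨ (∃ t, τ t = R)) →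
        X.Nul (X.cl (δ.b + dsf τ - (dsf q - Finsupp.single δ.Q 1) - b₁) y -
          Finsupp.single R 1)) ∧
      (∀ x y, X.Nul (X.cl (δ.b + dsf τ - (dsf q - Finsupp.single δ.Q 1) - b₁) y + dsf q -
        (X.cl b₁ x + Finsupp.single Qs 1))) := by
  classical
  -- the points `q`
  obtain ⟨q', g1, g2, g3, -, -⟩ := X.exists_pts (Zs := ∅) Set.finite_empty (by simp)
    (bad := {X.C.r Qs, X.C.r δ.Q, X.C.r δ.S, X.C.r δ.P₀, X.C.r δ.P}) (Set.toFinite _) X.n
  have g3' : ∀ t, X.C.r (q' t) ≠ X.C.r Qs ∧ X.C.r (q' t) ≠ X.C.r δ.Q ∧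
      X.C.r (q' t) ≠ X.C.r δ.S ∧ X.C.r (q' t) ≠ X.C.r δ.P₀ ∧ X.C.r (q' t) ≠ X.C.r δ.P := by
    intro t
    have := g3 t
    simp only [Set.mem_insert_iff, Set.mem_singleton_iff, not_or] at this
    exact this
  let q : Fin (X.n + 1) → Place L F := Fin.snoc (α := fun _ => Place L F) q' δ.Q
  have hql : q (Fin.last X.n) = δ.Q := Fin.snoc_last (α := fun _ => Place L F) _ _
  have hqc : ∀ i : Fin X.n, q i.castSucc = q' i := fun i =>
    Fin.snoc_castSucc (α := fun _ => Place L F) _ _ i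
  have hdq : dsf q = dsf q' + Finsupp.single δ.Q 1 := by
    unfold dsf
    rw [Fin.sum_univ_castSucc, hql]
    congr 1
    exact Finset.sum_congr rfl fun i _ => by rw [hqc]
  have hcast : ∀ i : Fin (X.n + 1), i ≠ Fin.last X.n → ∃ j : Fin X.n, j.castSucc = i :=
    fun i hi => ⟨i.castPred hi, Fin.castSucc_castPred _ _⟩
  -- the family of divisors
  let Rs : Set (Place L F) := {Qs, δ.S, δ.P₀, δ.P} ∪ Set.range q
  have hRs : Rs.Finite := (Set.toFinite _).union (Set.finite_range q)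
  let Z1 : Set (Divisor L F) := ⋃ R ∈ Rs, Set.range fun y : M =>
    X.cl δ.b y - b₁ - dsf q' - Finsupp.single R 1
  let Z2 : Set (Divisor L F) := Set.range fun y : M => X.cl δ.b y - b₁ - dsf q'
  let Z3 : Set (Divisor L F) := Set.range fun z : M × M =>
    X.d z.2 - X.d z.1 + δ.b + Finsupp.single δ.Q 1 - b₁ - b₁ - Finsupp.single Qs 1
  have d1 : ∀ Z ∈ Z1, Divisor.degree Z = - X.n - 1 := by
    intro Z hZ
    simp only [Z1, Set.mem_iUnion, Set.mem_range] at hZ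
    obtain ⟨R, -, y, rfl⟩ := hZ
    rw [map_sub, map_sub, map_sub, degree_cl, h.deg_b, hb, degree_dsf, degree_single_one]
    simp
  have d2 : ∀ Z ∈ Z2, Divisor.degree Z = - X.n ∧ X.Nul Z := by
    intro Z hZ
    obtain ⟨y, rfl⟩ := hZ
    refine ⟨?_, PRed.Nul.mono X.C (h2 y) (sub_le_self _ dsf_nonneg)⟩
    dsimp only
    rw [map_sub, map_sub, degree_cl, h.deg_b, hb, degree_dsf]
    simp
  have d3 : ∀ Z ∈ Z3, Divisor.degree Z = - X.n - 1 := by
    intro Z hZ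
    obtain ⟨z, rfl⟩ := hZ
    dsimp only
    rw [map_sub, map_sub, map_sub, map_add, map_add, map_sub, X.deg_d, X.deg_d, h.deg_b, hb,
      degree_single_one, degree_single_one]
    ring
  have hZfin : (Z1 ∪ Z2 ∪ Z3).Finite :=
    ((Set.Finite.biUnion hRs fun R _ => Set.finite_range _).union (Set.finite_range _)).union
      (Set.finite_range _)
  obtain ⟨τ, t1, t2, t3, t4, t5⟩ := X.exists_pts hZfin (fun Z hZ => by
      rcases hZ with (hZ | hZ) | hZ
      · exact X.nul_of_degree_neg (by rw [d1 Z hZ]; omega)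
      · exact (d2 Z hZ).2
      · exact X.nul_of_degree_neg (by rw [d3 Z hZ]; omega))
    (bad := X.supps b₁ ∪ ({X.C.r Qs, X.C.r δ.S, X.C.r δ.P₀, X.C.r δ.P} ∪
      Set.range fun i => X.C.r (q i)))
    ((X.finite_supps b₁).union ((Set.toFinite _).union (Set.finite_range _))) (2 * X.n + 1)
  have t3' : ∀ t, X.C.r (τ t) ∉ X.supps b₁ ∧ (X.C.r (τ t) ≠ X.C.r Qs ∧
      X.C.r (τ t) ≠ X.C.r δ.S ∧ X.C.r (τ t) ≠ X.C.r δ.P₀ ∧ X.C.r (τ t) ≠ X.C.r δ.P) ∧
      ∀ i, X.C.r (τ t) ≠ X.C.r (q i) := by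
    intro t
    have := t3 t
    simp only [Set.mem_union, Set.mem_insert_iff, Set.mem_singleton_iff, Set.mem_range,
      not_or, not_exists] at this
    exact ⟨this.1, this.2.1, fun i hi => this.2.2 i hi.symm⟩
  have hb₂ : δ.b + dsf τ - (dsf q - Finsupp.single δ.Q 1) - b₁ =
      δ.b + dsf τ - dsf q' - b₁ := by rw [hdq]; abel
  refine ⟨q, τ, hql, ?_, t1, ?_, t2, ?_, ?_, ?_, fun t => (t3' t).1, ?_, ?_, ?_⟩
  · intro i hi
    obtain ⟨j, rfl⟩ := hcast i hi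
    rw [hqc]; exact g1 j
  · intro i j hij
    have hij' : X.C.r (q i) = X.C.r (q j) := hij
    by_cases hi : i = Fin.last X.n
    · by_cases hj : j = Fin.last X.n
      · rw [hi, hj]
      · exfalso
        obtain ⟨j, rfl⟩ := hcast j hj
        rw [hi, hql, hqc] at hij'
        exact (g3' j).2.1 hij'.symm
    · obtain ⟨i, rfl⟩ := hcast i hi
      by_cases hj : j = Fin.last X.n
      · exfalso
        rw [hj, hql, hqc] at hij'
        exact (g3' i).2.1 hij'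
      · obtain ⟨j, rfl⟩ := hcast j hj
        rw [hqc, hqc] at hij'
        rw [g2 hij']
  · intro i
    by_cases hi : i = Fin.last X.n
    · rw [hi, hql]; exact Ne.symm hQsQ
    · obtain ⟨i, rfl⟩ := hcast i hi
      rw [hqc]; exact (g3' i).1
  · intro i hi
    obtain ⟨i, rfl⟩ := hcast i hi
    rw [hqc]; exact (g3' i).2.2
  · intro t
    exact ⟨(t3' t).2.1.1, (t3' t).2.1.2.1, (t3' t).2.1.2.2.1, (t3' t).2.1.2.2.2, (t3' t).2.2⟩
  · rw [hb₂, map_sub, map_sub, map_add, degree_dsf, degree_dsf, h.deg_b, hb]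
    simp only [Fintype.card_fin]
    push_cast
    ring
  · intro y R hR
    rw [hb₂]
    have hcl : X.cl (δ.b + dsf τ - dsf q' - b₁) y - Finsupp.single R 1 =
        (X.cl δ.b y - b₁ - dsf q' - Finsupp.single R 1) + dsf τ := by
      unfold cl; abel
    by_cases hRt : ∃ t, τ t = R
    · obtain ⟨t, rfl⟩ := hRt
      have h5 := t5 (X.cl δ.b y - b₁ - dsf q') (Or.inl (Or.inr ⟨y, rfl⟩)) t (by
        rw [(d2 _ ⟨y, rfl⟩).1]; push_cast; omega)
      have h6 : X.cl (δ.b + dsf τ - dsf q' - b₁) y - Finsupp.single (τ t) 1 =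
        (X.cl δ.b y - b₁ - dsf q') + dsf τ - Finsupp.single (τ t) 1 := by
        unfold cl; abel
      rw [h6]; exact h5
    · have hRm : R ∈ Rs := by
        rcases hR with hR | hR | hR | hR | hR | hR
        · left; simp [hR]
        · left; simp [hR]
        · left; simp [hR]
        · left; simp [hR]
        · right; exact hR
        · exact absurd hR hRt
      have hm : X.cl δ.b y - b₁ - dsf q' - Finsupp.single R 1 ∈ Z1 := by
        simp only [Z1, Set.mem_iUnion, Set.mem_range]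
        exact ⟨R, hRm, y, rfl⟩
      rw [hcl]
      exact t4 _ (Or.inl (Or.inl hm)) (by rw [d1 _ hm]; push_cast; omega)
  · intro x y
    rw [hb₂]
    have hm : X.d y - X.d x + δ.b + Finsupp.single δ.Q 1 - b₁ - b₁ - Finsupp.single Qs 1 ∈ Z3 :=
      ⟨(x, y), rfl⟩
    have h7 := t4 _ (Or.inr hm) (by rw [d3 _ hm]; push_cast; omega)
    convert h7 using 1
    unfold cl
    rw [hdq]
    abel

/-- auxiliary data -/
structure Aux (L F : Type*) [Field L] [Field F] [Algebra L F] (n : ℕ) where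
  b₁ : Divisor L F
  b₂ : Divisor L F
  Qs : Place L F
  Ss : Place L F
  P₁ : Place L F
  q : Fin (n + 1) → Place L F
  τ : Fin (2 * n + 1) → Place L F

variable (X) in
/-- good auxiliary data -/
structure AuxOk (δ : Dat L F) (a : Aux L F X.n) : Prop where
  q_last : a.q (Fin.last X.n) = δ.Q
  b₂_eq : a.b₂ = δ.b + dsf a.τ - (dsf a.q - Finsupp.single δ.Q 1) - a.b₁
  ok₁ : ∀ R, (R = δ.Q ∨ R = δ.S ∨ R = δ.P₀ ∨ R = δ.P ∨ ∃ t, a.τ t = R) →
    X.Ok ⟨a.b₁, a.Qs, a.Ss, a.P₁, R⟩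
  ok₂ : ∀ i R, (R = a.Qs ∨ R = δ.S ∨ R = δ.P₀ ∨ R = δ.P ∨ ∃ t, a.τ t = R) →
    X.Ok ⟨a.b₂, a.q i, a.Ss, a.P₁, R⟩
  inv₁ : ∀ R, (R = δ.Q ∨ R = δ.S ∨ R = δ.P₀ ∨ R = δ.P ∨ ∃ t, a.τ t = R) →
    X.Inv ⟨a.b₁, a.Qs, a.Ss, a.P₁, R⟩
  inv₂ : ∀ i R, (R = a.Qs ∨ R = δ.S ∨ R = δ.P₀ ∨ R = δ.P ∨ ∃ t, a.τ t = R) →
    X.Inv ⟨a.b₂, a.q i, a.Ss, a.P₁, R⟩
  q_inj : Function.Injective fun i => X.C.r (a.q i)
  τ_inj : Function.Injective fun t => X.C.r (a.τ t)
  τ_ne : ∀ t, X.C.r (a.τ t) ≠ X.C.r δ.S ∧ X.C.r (a.τ t) ≠ X.C.r δ.P₀ ∧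
    X.C.r (a.τ t) ≠ X.C.r δ.P
  ex : ∀ x R, 0 < (X.C.rd (X.eff a.b₁ x) + Finsupp.single (X.C.r a.Qs) 1 :
      Divisor (ResidueField A) Fb) R →
    h0 (X.C.rd (X.eff a.b₁ x) + Finsupp.single (X.C.r a.Qs) 1 - Finsupp.single R 1 -
      Finsupp.single (X.C.r a.Ss) 1) = 0
  pen : ∀ x y, X.Nul (X.cl a.b₂ y + dsf a.q - (X.cl a.b₁ x + Finsupp.single a.Qs 1))

theorem exists_aux [Finite M] {δ : Dat L F} (h : X.Ok δ) (hi : X.Inv δ) :
    ∃ a : Aux L F X.n, X.AuxOk δ a := by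
  classical
  obtain ⟨b₁, hb₁, ib₁, n1, n2⟩ := exists_b₁ h
  have n1Q : ∀ x, X.Nul (X.cl b₁ x - Finsupp.single δ.Q 1) := fun x => n1 x _ (by simp)
  obtain ⟨Qs, gQs, hQs1, hQs2, hQs3⟩ := exists_Qs hb₁ n1Q
    (bad := {X.C.r δ.Q, X.C.r δ.S, X.C.r δ.P₀, X.C.r δ.P}) (Set.toFinite _)
  simp only [Set.mem_insert_iff, Set.mem_singleton_iff, not_or] at hQs1
  obtain ⟨q, τ, q_last, gq, gτ, q_inj, τ_inj, qQs, qne, τne, τs, hb₂, nb₂, pen⟩ :=
    exists_q_τ h hb₁ n1Q n2 (Qs := Qs) hQs1.1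
  set b₂ := δ.b + dsf τ - (dsf q - Finsupp.single δ.Q 1) - b₁ with hb₂def
  have gq' : ∀ i, q i ∈ X.G := by
    intro i
    by_cases hi' : i = Fin.last X.n
    · rw [hi', q_last]; exact hi.Q
    · exact gq i hi'
  have qne' : ∀ i, X.C.r (q i) ≠ X.C.r δ.S ∧ X.C.r (q i) ≠ X.C.r δ.P₀ ∧
      X.C.r (q i) ≠ X.C.r δ.P := by
    intro i
    by_cases hi' : i = Fin.last X.n
    · rw [hi', q_last]; exact ⟨h.QS, h.QP₀, h.QP⟩
    · exact qne i hi'
  -- the point `Ss`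
  have nQs : ∀ x, X.Nul (X.cl b₁ x - Finsupp.single Qs 1) := fun x =>
    nul_of_clean hb₁ (n1Q x) (rd_of_notMem_supps hQs2 x)
  have nQs₂ : ∀ y, X.Nul (X.cl b₂ y - Finsupp.single Qs 1) := fun y => nb₂ y _ (Or.inl rfl)
  let W : Set (Divisor (ResidueField A) Fb × ℕ) :=
    (Set.range fun x : M => (X.C.rd (X.cl b₁ x + Finsupp.single Qs 1), 1)) ∪
    (Set.range fun y : M × Fin (X.n + 1) =>
      (X.C.rd (X.cl b₂ y.1 + Finsupp.single (q y.2) 1), 1)) ∪
    (⋃ x : M, ⋃ R ∈ (X.C.rd (X.eff b₁ x)).support,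
      {(X.C.rd (X.eff b₁ x) - Finsupp.single R 1 + Finsupp.single (X.C.r Qs) 1, 0)})
  have hWfin : W.Finite := by
    refine ((Set.finite_range _).union (Set.finite_range _)).union (Set.finite_iUnion fun x => ?_)
    exact Set.Finite.biUnion (Finset.finite_toSet _) fun R _ => Set.finite_singleton _
  have hW : ∀ w ∈ W, h0 w.1 ≤ w.2 + 1 := by
    rintro w ((⟨x, rfl⟩ | ⟨y, rfl⟩) | hw)
    · dsimp only
      rw [map_add, PRed.rd_single]
      have h1 := h0_add_single_le (X.C.rd (X.cl b₁ x)) (X.C.r Qs)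
      have h2 := PRed.Nul.h0_rd_le_one X.C (nQs x)
      omega
    · dsimp only
      rw [map_add, PRed.rd_single]
      have h1 := h0_add_single_le (X.C.rd (X.cl b₂ y.1)) (X.C.r (q y.2))
      have h2 := PRed.Nul.h0_rd_le_one X.C (nQs₂ y.1)
      omega
    · simp only [Set.mem_iUnion, Set.mem_singleton_iff] at hw
      obtain ⟨x, R, hR, rfl⟩ := hw
      have hR' : 0 < X.C.rd (X.eff b₁ x) R :=
        lt_of_le_of_ne (X.C.rd_nonneg (eff_nonneg hb₁ x) R)
          (Ne.symm (Finsupp.mem_support_iff.mp hR))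
      exact hQs3 x R hR'
  obtain ⟨Ss, gSs, hSs1, hSs2⟩ := X.exists_pt_sub hWfin hW
    (bad := X.supps b₁ ∪ X.supps b₂ ∪ ({X.C.r Qs} ∪ Set.range fun i => X.C.r (q i)))
    (((X.finite_supps b₁).union (X.finite_supps b₂)).union
      ((Set.toFinite _).union (Set.finite_range _)))
  simp only [Set.mem_union, Set.mem_singleton_iff, Set.mem_range, not_or, not_exists] at hSs1
  -- the point `P₁`
  let W' : Set (Divisor (ResidueField A) Fb × ℕ) :=
    (Set.range fun x : M =>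
      (X.C.rd (X.cl b₁ x + Finsupp.single Qs 1) - Finsupp.single (X.C.r Ss) 1, 0)) ∪
    (Set.range fun y : M × Fin (X.n + 1) =>
      (X.C.rd (X.cl b₂ y.1 + Finsupp.single (q y.2) 1) - Finsupp.single (X.C.r Ss) 1, 0))
  have hW'fin : W'.Finite := (Set.finite_range _).union (Set.finite_range _)
  have hW' : ∀ w ∈ W', h0 w.1 ≤ w.2 + 1 := by
    rintro w (⟨x, rfl⟩ | ⟨y, rfl⟩)
    · have hm : (X.C.rd (X.cl b₁ x + Finsupp.single Qs 1), 1) ∈ W :=
        Or.inl (Or.inl (Set.mem_range_self x))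
      have h1 := hSs2 _ hm
      dsimp only at h1 ⊢
      exact h1
    · have hm : (X.C.rd (X.cl b₂ y.1 + Finsupp.single (q y.2) 1), 1) ∈ W :=
        Or.inl (Or.inr (Set.mem_range_self y))
      have h1 := hSs2 _ hm
      dsimp only at h1 ⊢
      exact h1
  obtain ⟨P₁, gP₁, hP₁1, hP₁2⟩ := X.exists_pt_sub hW'fin hW'
    (bad := X.supps b₁ ∪ X.supps b₂ ∪ ({X.C.r Qs, X.C.r Ss} ∪ Set.range fun i => X.C.r (q i)))
    (((X.finite_supps b₁).union (X.finite_supps b₂)).union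
      ((Set.toFinite _).union (Set.finite_range _)))
  simp only [Set.mem_union, Set.mem_insert_iff, Set.mem_singleton_iff, Set.mem_range, not_or,
    not_exists] at hP₁1
  have nn₁ : ∀ x, X.Nul (X.cl b₁ x + Finsupp.single Qs 1 - Finsupp.single Ss 1 -
      Finsupp.single P₁ 1) := by
    intro x
    have hm : (X.C.rd (X.cl b₁ x + Finsupp.single Qs 1) - Finsupp.single (X.C.r Ss) 1, 0) ∈ W' :=
      Or.inl (Set.mem_range_self x)
    have h1 := hP₁2 _ hm
    dsimp only at h1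
    unfold Ctx.Nul PRed.Nul
    rw [map_sub, map_sub, PRed.rd_single, PRed.rd_single]
    exact Nat.le_zero.mp h1
  have nn₂ : ∀ y i, X.Nul (X.cl b₂ y + Finsupp.single (q i) 1 - Finsupp.single Ss 1 -
      Finsupp.single P₁ 1) := by
    intro y i
    have hm : (X.C.rd (X.cl b₂ y + Finsupp.single (q i) 1) - Finsupp.single (X.C.r Ss) 1, 0) ∈
        W' := Or.inr (Set.mem_range_self (y, i))
    have h1 := hP₁2 _ hm
    dsimp only at h1
    unfold Ctx.Nul PRed.Nul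
    rw [map_sub, map_sub, PRed.rd_single, PRed.rd_single]
    exact Nat.le_zero.mp h1
  have nSs₁ : ∀ x, X.Nul (X.cl b₁ x - Finsupp.single Ss 1) := fun x =>
    nul_of_clean hb₁ (n1Q x) (rd_of_notMem_supps hSs1.1.1 x)
  have nSs₂ : ∀ x, X.Nul (X.cl b₂ x - Finsupp.single Ss 1) := fun x =>
    nul_of_clean hb₂ (nQs₂ x) (rd_of_notMem_supps hSs1.1.2 x)
  have nP₁₁ : ∀ x, X.Nul (X.cl b₁ x - Finsupp.single P₁ 1) := fun x =>
    nul_of_clean hb₁ (n1Q x) (rd_of_notMem_supps hP₁1.1.1 x)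
  have nP₁₂ : ∀ x, X.Nul (X.cl b₂ x - Finsupp.single P₁ 1) := fun x =>
    nul_of_clean hb₂ (nQs₂ x) (rd_of_notMem_supps hP₁1.1.2 x)
  have iSD : ∀ σ ∈ X.I, σ • b₂ = b₂ := by
    intro σ hσ
    rw [hb₂def, smul_sub, smul_sub, smul_sub, smul_add, hi.b σ hσ, X.smul_dsf_G gτ hσ,
      X.smul_dsf_G gq' hσ, X.smul_single_G hi.Q hσ, ib₁ σ hσ]
  refine ⟨⟨b₁, b₂, Qs, Ss, P₁, q, τ⟩, q_last, rfl, ?_, ?_, ?_, ?_, q_inj, τ_inj, ?_, ?_, pen⟩
  · intro R hR
    have hRn : (∀ x, X.Nul (X.cl b₁ x - Finsupp.single R 1)) ∧ X.C.r Qs ≠ X.C.r R := by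
      rcases hR with rfl | rfl | rfl | rfl | ⟨t, rfl⟩
      · exact ⟨n1Q, hQs1.1⟩
      · exact ⟨fun x => n1 x _ (by simp), hQs1.2.1⟩
      · exact ⟨fun x => n1 x _ (by simp), hQs1.2.2.1⟩
      · exact ⟨fun x => n1 x _ (by simp), hQs1.2.2.2⟩
      · exact ⟨fun x => nul_of_clean hb₁ (n1Q x) (rd_of_notMem_supps (τs t) x),
          Ne.symm (τne t).1⟩
    exact
      { deg_b := hb₁
        nQ := nQs
        nS := nSs₁
        nP₀ := nP₁₁
        nP := hRn.1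
        QS := fun h => hSs1.2.1 h.symm
        QP₀ := fun h => hP₁1.2.1.1 h.symm
        SP₀ := fun h => hP₁1.2.1.2 h.symm
        QP := hRn.2
        nn := nn₁ }
  · intro i R hR
    have hRn : X.C.r (q i) ≠ X.C.r R := by
      rcases hR with rfl | rfl | rfl | rfl | ⟨t, rfl⟩
      · exact qQs i
      · exact (qne' i).1
      · exact (qne' i).2.1
      · exact (qne' i).2.2
      · exact Ne.symm ((τne t).2.2.2.2 i)
    exact
      { deg_b := hb₂
        nQ := fun y => nb₂ y _ (by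
          right; right; right; right; left; exact ⟨i, rfl⟩)
        nS := nSs₂
        nP₀ := nP₁₂
        nP := fun y => nb₂ y R (by
          rcases hR with h | h | h | h | h
          · exact Or.inl h
          · exact Or.inr (Or.inl h)
          · exact Or.inr (Or.inr (Or.inl h))
          · exact Or.inr (Or.inr (Or.inr (Or.inl h)))
          · exact Or.inr (Or.inr (Or.inr (Or.inr (Or.inr h)))))
        QS := fun h => hSs1.2.2 i h
        QP₀ := fun h => hP₁1.2.2 i h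
        SP₀ := fun h => hP₁1.2.1.2 h.symm
        QP := hRn
        nn := fun y => nn₂ y i }
  · intro R hR
    refine ⟨ib₁, gQs, gSs, gP₁, ?_⟩
    rcases hR with rfl | rfl | rfl | rfl | ⟨t, rfl⟩
    · exact hi.Q
    · exact hi.S
    · exact hi.P₀
    · exact hi.P
    · exact gτ t
  · intro i R hR
    refine ⟨iSD, gq' i, gSs, gP₁, ?_⟩
    rcases hR with rfl | rfl | rfl | rfl | ⟨t, rfl⟩
    · exact gQs
    · exact hi.S
    · exact hi.P₀
    · exact hi.P
    · exact gτ t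
  · intro t
    exact ⟨(τne t).2.1, (τne t).2.2.1, (τne t).2.2.2.1⟩
  · intro x R hR
    dsimp only at hR ⊢
    by_cases hRs : 0 < X.C.rd (X.eff b₁ x) R
    · have hm : (X.C.rd (X.eff b₁ x) - Finsupp.single R 1 + Finsupp.single (X.C.r Qs) 1, 0) ∈
          W := by
        right
        rw [Set.mem_iUnion]
        refine ⟨x, ?_⟩
        rw [Set.mem_iUnion₂]
        exact ⟨R, Finsupp.mem_support_iff.mpr hRs.ne', rfl⟩
      have h1 := hSs2 _ hm
      dsimp only at h1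
      have h2 : X.C.rd (X.eff b₁ x) + Finsupp.single (X.C.r Qs) 1 - Finsupp.single R 1 -
          Finsupp.single (X.C.r Ss) 1 = X.C.rd (X.eff b₁ x) - Finsupp.single R 1 +
          Finsupp.single (X.C.r Qs) 1 - Finsupp.single (X.C.r Ss) 1 := by abel
      rw [h2]
      exact Nat.le_zero.mp h1
    · have hRQ : R = X.C.r Qs := by
        by_contra hne
        rw [Finsupp.add_apply, Finsupp.single_eq_of_ne hne] at hR
        omega
      subst hRQ
      have h3 := PRed.Nul.leq X.C (nSs₁ x) ((eff_leq hb₁ x).symm.sub_right _)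
      unfold PRed.Nul at h3
      rw [map_sub, PRed.rd_single] at h3
      rw [add_sub_cancel_right]
      exact h3

end Ctx

end Fermat.Agent.H02F
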