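import Mathlib
import Fermat.Agent.H02F.Choice2

set_option autoImplicit false

/-! The algebra generated by the kernel functions and its comultiplication. -/

noncomputable section

open AlgebraicCurve Module IsLocalRing

namespace Fermat.Agent.H02F

section General

variable {L : Type*} [Field L] {A : ValuationSubring L}

theorem DET_mem {ι θ : Type*} [Fintype ι] [DecidableEq ι]
    (e : Option (Option (Option θ)) ≃ ι) {R : Type*} [CommRing R] [Algebra A R]
    (B : Subalgebra A R) {w : Option (Option (Option θ)) → ι → R} (h : ∀ r j, w r j ∈ B) :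
    DET e w ∈ B := by
  unfold DET
  rw [Matrix.det_apply]
  refine sum_mem fun σ _ => ?_
  rw [Units.smul_def]
  exact zsmul_mem (prod_mem fun i _ => h _ _) _

theorem inv_mem_of_unit {T : Type*} [Finite T] (B : Subalgebra A (T → L)) {u : T → L}
    (hu : u ∈ B) (h : ∀ t, u t ∈ A ∧ u t ≠ 0 ∧ (u t)⁻¹ ∈ A) : (fun t => (u t)⁻¹) ∈ B := by
  classical
  cases nonempty_fintype T
  let p : Polynomial A := ∏ t : T, (Polynomial.X - Polynomial.C ⟨u t, (h t).1⟩)
  have hp : Polynomial.aeval u p = 0 := by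
    funext t
    have h1 : (Polynomial.aeval u p) t = Polynomial.aeval (u t) p := by
      have := Polynomial.aeval_algHom_apply (Pi.evalAlgHom A (fun _ : T => L) t) u p
      exact this.symm
    rw [h1, Pi.zero_apply, map_prod]
    apply Finset.prod_eq_zero (Finset.mem_univ t)
    rw [map_sub, Polynomial.aeval_X, Polynomial.aeval_C]
    exact sub_self _
  have hc : IsUnit (p.coeff 0) := by
    rw [Polynomial.coeff_zero_eq_eval_zero, Polynomial.eval_prod, IsUnit.prod_univ_iff]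
    intro t
    rw [Polynomial.eval_sub, Polynomial.eval_X, Polynomial.eval_C, zero_sub, IsUnit.neg_iff]
    exact isUnit_iff_exists_inv.mpr ⟨⟨(u t)⁻¹, (h t).2.2⟩, Subtype.ext (mul_inv_cancel₀ (h t).2.1)⟩
  obtain ⟨c, hc⟩ := hc
  have hdiv := Polynomial.divX_mul_X_add p
  have h2 : Polynomial.aeval u p.divX * u + algebraMap A (T → L) (p.coeff 0) = 0 := by
    have h3 := congrArg (Polynomial.aeval u) hdiv
    rw [hp, map_add, map_mul, Polynomial.aeval_X, Polynomial.aeval_C] at h3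
    exact h3
  have hq : Polynomial.aeval u p.divX ∈ B :=
    (Algebra.adjoin_le (Set.singleton_subset_iff.mpr hu))
      (Polynomial.aeval_mem_adjoin_singleton A u)
  have h4 : (fun t => (u t)⁻¹) = -(algebraMap A (T → L) ((c⁻¹ : Aˣ) : A) *
      Polynomial.aeval u p.divX) := by
    funext t
    have h5 := congrFun h2 t
    rw [Pi.add_apply, Pi.mul_apply, ← hc] at h5
    have h6 : (algebraMap A (T → L) (c : A)) t = ((c : A) : L) := rfl
    have h7 : (algebraMap A (T → L) ((c⁻¹ : Aˣ) : A)) t = (((c⁻¹ : Aˣ) : A) : L) := rfl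
    have h8 : (((c⁻¹ : Aˣ) : A) : L) * ((c : A) : L) = 1 := congrArg Subtype.val (Units.inv_mul c)
    rw [h6] at h5
    change (u t)⁻¹ = -((algebraMap A (T → L) ((c⁻¹ : Aˣ) : A)) t * (Polynomial.aeval u p.divX) t)
    rw [h7]
    have h9 : (Polynomial.aeval u p.divX) t * u t = -((c : A) : L) := eq_neg_of_add_eq_zero_left h5
    apply inv_eq_of_mul_eq_one_left
    rw [neg_mul, mul_assoc, h9, mul_neg, neg_neg, h8]
  rw [h4]
  exact neg_mem (mul_mem (Subalgebra.algebraMap_mem B _) hq)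

end General

variable {L : Type*} [Field L] {A : ValuationSubring L} {F Fb : Type*} [Field F] [Field Fb]
  [Algebra L F] [Algebra (ResidueField A) Fb] [Crv L F] [Crv (ResidueField A) Fb]

variable {D : H28.RedData A F Fb} {M : Type*} [AddCommGroup M]

namespace Ctx

variable (X : Ctx D M)

/-- the algebra generated by the kernel functions -/
def HH : Subalgebra A (M → L) :=
  Algebra.adjoin A {φ | ∃ δ : Dat L F, X.Ok δ ∧ X.Inv δ ∧ φ = X.kap δ}

theorem kap_mem_HH {δ : Dat L F} (h : X.Ok δ) (hi : X.Inv δ) : X.kap δ ∈ X.HH :=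
  Algebra.subset_adjoin ⟨δ, h, hi, rfl⟩

theorem HH_int {φ : M → L} (hφ : φ ∈ X.HH) (m : M) : φ m ∈ A := by
  induction hφ using Algebra.adjoin_induction with
  | mem x hx =>
    obtain ⟨δ, h, -, rfl⟩ := hx
    exact h.kap_mem m
  | algebraMap a => exact a.2
  | add x y _ _ hx hy => exact add_mem hx hy
  | mul x y _ _ hx hy => exact mul_mem hx hy

/-- pull back along the first projection -/
def pr₁ : X.HH →ₐ[A] (M × M → L) where
  toFun φ p := (φ : M → L) p.1
  map_one' := rfl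
  map_mul' _ _ := rfl
  map_zero' := rfl
  map_add' _ _ := rfl
  commutes' _ := rfl

/-- pull back along the second projection -/
def pr₂ : X.HH →ₐ[A] (M × M → L) where
  toFun φ p := (φ : M → L) p.2
  map_one' := rfl
  map_mul' _ _ := rfl
  map_zero' := rfl
  map_add' _ _ := rfl
  commutes' _ := rfl

/-- the image of the tensor square -/
def CC : Subalgebra A (M × M → L) := (Algebra.TensorProduct.productMap X.pr₁ X.pr₂).range

theorem pr₁_mem {φ : M → L} (h : φ ∈ X.HH) : (fun p : M × M => φ p.1) ∈ X.CC := by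
  unfold CC
  rw [Algebra.TensorProduct.productMap_range]
  exact (le_sup_left : X.pr₁.range ≤ X.pr₁.range ⊔ X.pr₂.range) ⟨⟨φ, h⟩, rfl⟩

theorem pr₂_mem {φ : M → L} (h : φ ∈ X.HH) : (fun p : M × M => φ p.2) ∈ X.CC := by
  unfold CC
  rw [Algebra.TensorProduct.productMap_range]
  exact (le_sup_right : X.pr₂.range ≤ X.pr₁.range ⊔ X.pr₂.range) ⟨⟨φ, h⟩, rfl⟩

theorem exists_of_mem_CC {ψ : M × M → L} (h : ψ ∈ X.CC) :
    ∃ (n : ℕ) (a b : Fin n → M → L), (∀ i, a i ∈ X.HH) ∧ (∀ i, b i ∈ X.HH) ∧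
      ∀ x y, ψ (x, y) = ∑ i, a i x * b i y := by
  obtain ⟨t, rfl⟩ := h
  induction t using TensorProduct.induction_on with
  | zero =>
    refine ⟨0, Fin.elim0, Fin.elim0, fun i => i.elim0, fun i => i.elim0, fun x y => ?_⟩
    simp
  | tmul φ ψ =>
    refine ⟨1, fun _ => φ, fun _ => ψ, fun _ => φ.2, fun _ => ψ.2, fun x y => ?_⟩
    simp [Algebra.TensorProduct.productMap_apply_tmul, pr₁, pr₂]
  | add t t' h h' =>
    obtain ⟨n, a, b, ha, hb, hab⟩ := h
    obtain ⟨n', a', b', ha', hb', hab'⟩ := h'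
    refine ⟨n + n', Fin.append a a', Fin.append b b', fun i => ?_, fun i => ?_, fun x y => ?_⟩
    · refine Fin.addCases (fun j => ?_) (fun j => ?_) i
      · rw [Fin.append_left]; exact ha j
      · rw [Fin.append_right]; exact ha' j
    · refine Fin.addCases (fun j => ?_) (fun j => ?_) i
      · rw [Fin.append_left]; exact hb j
      · rw [Fin.append_right]; exact hb' j
    · rw [map_add, Pi.add_apply, hab, hab', Fin.sum_univ_add]
      congr 1
      · exact Finset.sum_congr rfl fun j _ => by rw [Fin.append_left, Fin.append_left]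
      · exact Finset.sum_congr rfl fun j _ => by rw [Fin.append_right, Fin.append_right]

/-- the index bijection -/
def ee (n : ℕ) : Option (Option (Option (Fin (2 * n + 1)))) ≃ Col n :=
  Fintype.equivOfCardEq (by
    simp only [Fintype.card_option, Fintype.card_fin, Fintype.card_prod, Fintype.card_bool]
    ring)

/-- multiplication data for a pair of classes -/
def pd (a : Aux L F X.n) (x y : M) : PData D X.n :=
  ⟨X.eff a.b₁ x, X.eff a.b₂ y, a.Qs, a.q, X.uu a.b₁ a.Qs a.Ss a.P₁ x,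
    fun i => X.uu a.b₂ (a.q i) a.Ss a.P₁ y⟩

variable {X}

section Pair

variable {δ : Dat L F} {a : Aux L F X.n}

theorem evrow_mem (h : X.AuxOk δ a) {R : Place L F}
    (hR : R = δ.S ∨ R = δ.P₀ ∨ R = δ.P ∨ ∃ t, a.τ t = R) (j : Col X.n) :
    (fun p : M × M => (X.pd a p.1 p.2).gen.evrow R j) ∈ X.CC := by
  have h1 : X.kap ⟨a.b₁, a.Qs, a.Ss, a.P₁, R⟩ ∈ X.HH :=
    X.kap_mem_HH (h.ok₁ R (Or.inr hR)) (h.inv₁ R (Or.inr hR))
  have h2 : ∀ i, X.kap ⟨a.b₂, a.q i, a.Ss, a.P₁, R⟩ ∈ X.HH := fun i =>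
    X.kap_mem_HH (h.ok₂ i R (Or.inr hR)) (h.inv₂ i R (Or.inr hR))
  obtain ⟨c, b⟩ := j
  have e1 : (fun p : M × M => ev R ((X.pd a p.1 p.2).gen.ff c)) ∈ X.CC := by
    cases c
    · have : (fun p : M × M => ev R ((X.pd a p.1 p.2).gen.ff false)) = 1 := by
        funext p
        exact ev_one R
      rw [this]
      exact one_mem _
    · exact X.pr₁_mem h1
  have e2 : (fun p : M × M => ev R ((X.pd a p.1 p.2).gen.gg b)) ∈ X.CC := by
    rcases b with _ | i
    · have : (fun p : M × M => ev R ((X.pd a p.1 p.2).gen.gg none)) = 1 := by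
        funext p
        exact ev_one R
      rw [this]
      exact one_mem _
    · exact X.pr₂_mem (h2 i)
  exact mul_mem e1 e2

theorem qrow_mem (h : X.AuxOk δ a) (j : Col X.n) :
    (fun p : M × M => (X.pd a p.1 p.2).gen.qrow j) ∈ X.CC := by
  have h1 : X.kap ⟨a.b₁, a.Qs, a.Ss, a.P₁, δ.Q⟩ ∈ X.HH :=
    X.kap_mem_HH (h.ok₁ δ.Q (Or.inl rfl)) (h.inv₁ δ.Q (Or.inl rfl))
  obtain ⟨c, b⟩ := j
  by_cases hb : b = some (Fin.last X.n)
  · have h3 : (fun p : M × M => (X.pd a p.1 p.2).gen.qrow (c, b)) =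
        fun p : M × M => ev δ.Q ((X.pd a p.1 p.2).gen.ff c) := by
      funext p
      unfold MData.qrow
      rw [if_pos hb]
      have : (X.pd a p.1 p.2).gen.q (Fin.last X.n) = δ.Q := h.q_last
      rw [this]
    rw [h3]
    cases c
    · have : (fun p : M × M => ev δ.Q ((X.pd a p.1 p.2).gen.ff false)) = 1 := by
        funext p
        exact ev_one δ.Q
      rw [this]
      exact one_mem _
    · exact X.pr₁_mem h1
  · have h3 : (fun p : M × M => (X.pd a p.1 p.2).gen.qrow (c, b)) = 0 := by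
      funext p
      unfold MData.qrow
      rw [if_neg hb]
      rfl
    rw [h3]
    exact zero_mem _

theorem qsrow_mem (h : X.AuxOk δ a) (j : Col X.n) :
    (fun p : M × M => (X.pd a p.1 p.2).gen.qsrow j) ∈ X.CC := by
  have h2 : ∀ i, X.kap ⟨a.b₂, a.q i, a.Ss, a.P₁, a.Qs⟩ ∈ X.HH := fun i =>
    X.kap_mem_HH (h.ok₂ i a.Qs (Or.inl rfl)) (h.inv₂ i a.Qs (Or.inl rfl))
  obtain ⟨c, b⟩ := j
  cases c
  · have h3 : (fun p : M × M => (X.pd a p.1 p.2).gen.qsrow (false, b)) = 0 := rfl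
    rw [h3]
    exact zero_mem _
  · rcases b with _ | i
    · have : (fun p : M × M => (X.pd a p.1 p.2).gen.qsrow (true, none)) = 1 := by
        funext p
        exact ev_one a.Qs
      rw [this]
      exact one_mem _
    · exact X.pr₂_mem (h2 i)

theorem det'_mem (h : X.AuxOk δ a) {R : Place L F} (hR : R = δ.P₀ ∨ R = δ.P) :
    (fun p : M × M => (X.pd a p.1 p.2).gen.det' (ee X.n) a.τ δ.S R) ∈ X.CC := by
  let w : Option (Option (Option (Fin (2 * X.n + 1)))) → Col X.n → (M × M → L) := fun r j p =>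
    rows ((X.pd a p.1 p.2).gen.evrow R) ((X.pd a p.1 p.2).gen.evrow δ.S)
      ((X.pd a p.1 p.2).gen.qsrow) (fun t => (X.pd a p.1 p.2).gen.evrow (a.τ t)) r j
  have h1 : (fun p : M × M => (X.pd a p.1 p.2).gen.det' (ee X.n) a.τ δ.S R) =
      DET (ee X.n) w := by
    funext p
    have := map_DET (ee X.n) (Pi.evalRingHom (fun _ : M × M => L) p) w
    exact this.symm
  rw [h1]
  refine DET_mem _ _ fun r j => ?_
  rcases r with _ | _ | _ | t
  · exact evrow_mem h (Or.inr (hR.imp_right Or.inl)) j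
  · exact evrow_mem h (Or.inl rfl) j
  · exact qsrow_mem h j
  · exact evrow_mem h (Or.inr (Or.inr (Or.inr ⟨t, rfl⟩))) j

theorem det''_mem (h : X.AuxOk δ a) {R : Place L F} (hR : R = δ.P₀ ∨ R = δ.P) :
    (fun p : M × M => (X.pd a p.1 p.2).gen.det'' (ee X.n) a.τ R) ∈ X.CC := by
  let w : Option (Option (Option (Fin (2 * X.n + 1)))) → Col X.n → (M × M → L) := fun r j p =>
    rows ((X.pd a p.1 p.2).gen.evrow R) ((X.pd a p.1 p.2).gen.qrow)
      ((X.pd a p.1 p.2).gen.qsrow) (fun t => (X.pd a p.1 p.2).gen.evrow (a.τ t)) r j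
  have h1 : (fun p : M × M => (X.pd a p.1 p.2).gen.det'' (ee X.n) a.τ R) =
      DET (ee X.n) w := by
    funext p
    have := map_DET (ee X.n) (Pi.evalRingHom (fun _ : M × M => L) p) w
    exact this.symm
  rw [h1]
  refine DET_mem _ _ fun r j => ?_
  rcases r with _ | _ | _ | t
  · exact evrow_mem h (Or.inr (hR.imp_right Or.inl)) j
  · exact qrow_mem h j
  · exact qsrow_mem h j
  · exact evrow_mem h (Or.inr (Or.inr (Or.inr ⟨t, rfl⟩))) j

theorem pd_ok (h : X.AuxOk δ a) (x y : M) : (X.pd a x y).Ok X.C := by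
  have k1 := h.ok₁ δ.Q (Or.inl rfl)
  have k2 := fun i => h.ok₂ i a.Qs (Or.inl rfl)
  exact
    { h₁ := eff_nonneg k1.deg_b x
      h₂ := eff_nonneg (k2 0).deg_b y
      hu := RR_mono (sub_le_self _ (single_nonneg _)) (k1.isU x).mem
      hv := fun i => RR_mono (sub_le_self _ (single_nonneg _)) ((k2 i).isU y).mem
      inj := h.q_inj
      s₁ := clean k1.deg_b (k1.nQ x)
      s₂ := clean (k2 0).deg_b ((k2 0).nP y)
      sq := fun i => (k2 i).QP
      l₁ := by
        change X.C.rd (X.eff a.b₁ x) (X.C.r (a.q (Fin.last X.n))) = 0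
        rw [h.q_last]
        exact clean k1.deg_b (k1.nP x)
      l₂ := fun i => clean (k2 i).deg_b ((k2 i).nQ y) }

theorem pd_av (h : X.AuxOk δ a) (x y : M) {R : Place L F}
    (hR : R = δ.S ∨ R = δ.P₀ ∨ R = δ.P ∨ ∃ t, a.τ t = R) :
    ((X.pd a x y).spc X.C).Av (X.C.r R) := by
  have k1 := h.ok₁ R (Or.inr hR)
  have k2 := fun i => h.ok₂ i R (Or.inr hR)
  exact ⟨clean k1.deg_b (k1.nP x), clean (k2 0).deg_b ((k2 0).nP y), k1.QP, fun i => (k2 i).QP⟩

theorem pd_ex (h : X.AuxOk δ a) (x y : M) : ((X.pd a x y).spc X.C).Ex := by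
  have k1 := h.ok₁ δ.Q (Or.inl rfl)
  have k2 := fun i => h.ok₂ i a.Qs (Or.inl rfl)
  have hu := k1.isU x
  have huρ : D.ρ (X.uu a.b₁ a.Qs a.Ss a.P₁ x) ≠ 0 := PRed.IsU.ρ_ne_zero X.C hu
  refine ⟨huρ, fun R hR => ⟨huρ, ?_⟩, ?_, fun i => ?_⟩
  · have hmem : D.ρ (X.uu a.b₁ a.Qs a.Ss a.P₁ x) ∈ RR (X.C.rd (X.eff a.b₁ x) +
        Finsupp.single (X.C.r a.Qs) 1 - Finsupp.single (X.C.r a.Ss) 1) :=
      PRed.IsU.memb X.C hu
    have h1 := h.ex x R hR
    change R.ord (D.ρ (X.uu a.b₁ a.Qs a.Ss a.P₁ x)) =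
      -(X.C.rd (X.eff a.b₁ x) + Finsupp.single (X.C.r a.Qs) 1 : Divisor _ _) R
    change 0 < (X.C.rd (X.eff a.b₁ x) + Finsupp.single (X.C.r a.Qs) 1 : Divisor _ _) R at hR
    set G := X.C.rd (X.eff a.b₁ x) + Finsupp.single (X.C.r a.Qs) 1 with hG
    have h2 := (mem_RR_of_ne huρ).mp hmem
    have hSR : X.C.r a.Ss ≠ R := by
      rintro rfl
      have e1 : X.C.rd (X.eff a.b₁ x) (X.C.r a.Ss) = 0 := clean k1.deg_b (k1.nS x)
      rw [hG, Finsupp.add_apply, e1, Finsupp.single_eq_of_ne (Ne.symm k1.QS)] at hR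
      simp at hR
    have h3 := h2 R
    rw [Finsupp.sub_apply, Finsupp.single_eq_of_ne (Ne.symm hSR), sub_zero] at h3
    by_contra hne
    have h4 : D.ρ (X.uu a.b₁ a.Qs a.Ss a.P₁ x) ∈ RR (G - Finsupp.single R 1 -
        Finsupp.single (X.C.r a.Ss) 1) := by
      rw [mem_RR_of_ne huρ]
      intro R'
      have h5 := h2 R'
      rw [Finsupp.sub_apply] at h5
      rw [Finsupp.sub_apply, Finsupp.sub_apply]
      by_cases hRR : R' = R
      · subst hRR
        rw [Finsupp.single_eq_same, Finsupp.single_eq_of_ne (Ne.symm hSR)]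
        omega
      · rw [Finsupp.single_eq_of_ne hRR]
        omega
    rw [h0_eq_zero_iff.mp h1, Submodule.mem_bot] at h4
    exact huρ h4
  · have h1 := h.pen x y
    have h2 : X.Nul (X.eff a.b₂ y + dsf a.q - (X.eff a.b₁ x + Finsupp.single a.Qs 1)) := by
      refine PRed.Nul.leq X.C h1 ?_
      exact ((eff_leq (k2 0).deg_b y).symm.add_right _).sub
        ((eff_leq k1.deg_b x).symm.add_right _)
    have h3 := h0_eq_zero_iff.mp h2
    rw [map_sub, map_add, map_add, PData.rd_dsf, PRed.rd_single] at h3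
    exact h3
  · have hv := (k2 i).isU y
    have hvρ : D.ρ (X.uu a.b₂ (a.q i) a.Ss a.P₁ y) ≠ 0 := PRed.IsU.ρ_ne_zero X.C hv
    have hmem : D.ρ (X.uu a.b₂ (a.q i) a.Ss a.P₁ y) ∈ RR (X.C.rd (X.eff a.b₂ y) +
        Finsupp.single (X.C.r (a.q i)) 1 - Finsupp.single (X.C.r a.Ss) 1) :=
      PRed.IsU.memb X.C hv
    have e0 : X.C.rd (X.eff a.b₂ y) (X.C.r (a.q i)) = 0 := clean (k2 i).deg_b ((k2 i).nQ y)
    change (X.C.r (a.q i)).ord (D.ρ (X.uu a.b₂ (a.q i) a.Ss a.P₁ y)) < 0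
    by_contra hcon
    push Not at hcon
    have h4 : D.ρ (X.uu a.b₂ (a.q i) a.Ss a.P₁ y) ∈ RR (X.C.rd (X.eff a.b₂ y) -
        Finsupp.single (X.C.r a.Ss) 1) := by
      have h2 := (mem_RR_of_ne hvρ).mp hmem
      rw [mem_RR_of_ne hvρ]
      intro R'
      have h5 := h2 R'
      rw [Finsupp.sub_apply, Finsupp.add_apply] at h5
      rw [Finsupp.sub_apply]
      by_cases hRR : R' = X.C.r (a.q i)
      · subst hRR
        rw [e0, Finsupp.single_eq_of_ne (k2 i).QS]
        omega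
      · rw [Finsupp.single_eq_of_ne hRR] at h5
        omega
    have h5 : X.Nul (X.eff a.b₂ y - Finsupp.single a.Ss 1) :=
      PRed.Nul.leq X.C ((k2 i).nS y) ((eff_leq (k2 i).deg_b y).symm.sub_right _)
    have h6 := h0_eq_zero_iff.mp h5
    rw [map_sub, PRed.rd_single] at h6
    rw [h6, Submodule.mem_bot] at h4
    exact hvρ h4

/-- comultiplication of a kernel function -/
theorem kap_add_mem [Finite M] (hδ : X.Ok δ) (hi : X.Inv δ) :
    (fun p : M × M => X.kap δ (p.1 + p.2)) ∈ X.CC := by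
  obtain ⟨a, h⟩ := exists_aux hδ hi
  have key : ∀ x y : M, (∃ b : ResidueField A, b ≠ 0 ∧
      Rdx ((X.pd a x y).gen.det' (ee X.n) a.τ δ.S δ.P₀) b) ∧
      (∃ b : ResidueField A, b ≠ 0 ∧ Rdx ((X.pd a x y).gen.det'' (ee X.n) a.τ δ.P) b) ∧
      (X.pd a x y).gen.det' (ee X.n) a.τ δ.S δ.P * (X.pd a x y).gen.det'' (ee X.n) a.τ δ.P₀ =
      X.kap δ (x + y) * ((X.pd a x y).gen.det' (ee X.n) a.τ δ.S δ.P₀ *
        (X.pd a x y).gen.det'' (ee X.n) a.τ δ.P) := by
    intro x y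
    have k1 := h.ok₁ δ.Q (Or.inl rfl)
    have k2 := h.ok₂ 0 a.Qs (Or.inl rfl)
    have hql : (X.pd a x y).q (Fin.last X.n) = δ.Q := h.q_last
    have hEE : Leq (X.eff δ.b (x + y)) ((X.pd a x y).E₁ + (X.pd a x y).E₂ +
        dsf (X.pd a x y).q - dsf a.τ - Finsupp.single ((X.pd a x y).q (Fin.last X.n)) 1) := by
      rw [hql]
      have e1 : Leq (X.eff a.b₁ x + X.eff a.b₂ y) (X.cl a.b₁ x + X.cl a.b₂ y) :=
        (eff_leq k1.deg_b x).add (eff_leq k2.deg_b y)
      have e2 : Leq (X.eff a.b₁ x + X.eff a.b₂ y + dsf a.q - dsf a.τ - Finsupp.single δ.Q 1)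
          (X.cl a.b₁ x + X.cl a.b₂ y + dsf a.q - dsf a.τ - Finsupp.single δ.Q 1) :=
        ((e1.add_right _).sub_right _).sub_right _
      have e3 : X.cl a.b₁ x + X.cl a.b₂ y + dsf a.q - dsf a.τ - Finsupp.single δ.Q 1 =
          (X.d x + X.d y) + δ.b := by
        unfold cl
        rw [h.b₂_eq]
        abel
      rw [e3] at e2
      exact ((eff_leq hδ.deg_b (x + y)).trans ((X.d_add x y).add_right _)).trans e2.symm
    have hU : X.C.IsU (X.eff δ.b (x + y)) ((X.pd a x y).q (Fin.last X.n)) δ.S δ.P₀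
        (X.uu δ.b δ.Q δ.S δ.P₀ (x + y)) := by rw [hql]; exact hδ.isU (x + y)
    have hN := hδ.nn_eff (x + y)
    rw [← hql] at hN
    exact (pd_ok h x y).addition (pd_ex h x y) (ee X.n) h.τ_inj
      (fun t => pd_av h x y (Or.inr (Or.inr (Or.inr ⟨t, rfl⟩))))
      (S := δ.S) (P₀ := δ.P₀) (P := δ.P)
      (pd_av h x y (Or.inl rfl)) (fun t => (h.τ_ne t).1)
      (pd_av h x y (Or.inr (Or.inl rfl))) (fun t => (h.τ_ne t).2.1) hδ.SP₀
      (pd_av h x y (Or.inr (Or.inr (Or.inl rfl)))) (fun t => (h.τ_ne t).2.2)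
      (eff_nonneg hδ.deg_b (x + y)) hEE hU
      (PRed.Nul.leq X.C (hδ.nP₀ (x + y)) ((eff_leq hδ.deg_b (x + y)).symm.sub_right _))
      (PRed.Nul.leq X.C (hδ.nP (x + y)) ((eff_leq hδ.deg_b (x + y)).symm.sub_right _)) hN
  have m1 := det'_mem h (R := δ.P) (Or.inr rfl)
  have m2 := det''_mem h (R := δ.P₀) (Or.inl rfl)
  have m3 := det'_mem h (R := δ.P₀) (Or.inl rfl)
  have m4 := det''_mem h (R := δ.P) (Or.inr rfl)
  have i3 := inv_mem_of_unit X.CC m3 (fun p => by
    obtain ⟨⟨b, hb, hr⟩, -, -⟩ := key p.1 p.2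
    exact ⟨hr.choose, hr.inv_mem hb⟩)
  have i4 := inv_mem_of_unit X.CC m4 (fun p => by
    obtain ⟨-, ⟨b, hb, hr⟩, -⟩ := key p.1 p.2
    exact ⟨hr.choose, hr.inv_mem hb⟩)
  have hfin := mul_mem (mul_mem m1 m2) (mul_mem i3 i4)
  convert hfin using 1
  funext p
  obtain ⟨⟨b, hb, hr⟩, ⟨b', hb', hr'⟩, hk⟩ := key p.1 p.2
  have n1 := (hr.inv_mem hb).1
  have n2 := (hr'.inv_mem hb').1
  simp only [Pi.mul_apply]
  rw [hk]
  field_simp

/-- comultiplication -/
theorem HH_comul [Finite M] {φ : M → L} (hφ : φ ∈ X.HH) :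
    (fun p : M × M => φ (p.1 + p.2)) ∈ X.CC := by
  induction hφ using Algebra.adjoin_induction with
  | mem x hx =>
    obtain ⟨δ, h, hi, rfl⟩ := hx
    exact kap_add_mem h hi
  | algebraMap a => exact Subalgebra.algebraMap_mem X.CC a
  | add x y _ _ hx hy => exact add_mem hx hy
  | mul x y _ _ hx hy => exact mul_mem hx hy

end Pair

end Ctx

end Fermat.Agent.H02F
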