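import Mathlib
import Fermat.Agent.H02F.Alg

set_option autoImplicit false

/-! Kernel functions separate points. -/

noncomputable section

open AlgebraicCurve Module IsLocalRing

namespace Fermat.Agent.H02F

variable {L : Type*} [Field L] {A : ValuationSubring L} {F Fb : Type*} [Field F] [Field Fb]
  [Algebra L F] [Algebra (ResidueField A) Fb] [Crv L F] [Crv (ResidueField A) Fb]

variable {D : H28.RedData A F Fb} {M : Type*} [AddCommGroup M]

namespace Ctx

variable (X : Ctx D M)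

theorem exists_dat [Finite M] : ∃ δ : Dat L F, X.Ok δ ∧ X.Inv δ := by
  classical
  obtain ⟨R₀, gR₀, -⟩ := X.exists_pt (bad := ∅) Set.finite_empty
  let Zs : Set (Divisor L F) := Set.range fun x => X.d x - Finsupp.single R₀ 1
  have hZ : ∀ Z ∈ Zs, X.Nul Z ∧ Divisor.degree Z = -1 := by
    intro Z hZ
    obtain ⟨x, rfl⟩ := hZ
    have : Divisor.degree (X.d x - Finsupp.single R₀ 1) = -1 := by
      rw [map_sub, X.deg_d, degree_single_one]; ring
    exact ⟨X.nul_of_degree_neg (by rw [this]; norm_num), this⟩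
  obtain ⟨τ, h1, h2, h3, h4, -⟩ := X.exists_pts (Set.finite_range _)
    (fun Z hZm => (hZ Z hZm).1) (Set.finite_empty) (X.n + 1)
  set b : Divisor L F := dsf τ with hbdef
  have hb : Divisor.degree b = X.n + 1 := by rw [hbdef, degree_dsf]; simp
  have ib : ∀ σ ∈ X.I, σ • b = b := fun σ hσ => X.smul_dsf_G h1 hσ
  have nR₀ : ∀ x, X.Nul (X.cl b x - Finsupp.single R₀ 1) := by
    intro x
    have h5 := h4 _ ⟨x, rfl⟩ (by rw [(hZ _ ⟨x, rfl⟩).2]; push_cast; omega)
    have h6 : X.cl b x - Finsupp.single R₀ 1 = X.d x - Finsupp.single R₀ 1 + dsf τ := by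
      unfold cl; abel
    rw [h6]; exact h5
  obtain ⟨Q, gQ, hQ⟩ := X.exists_pt (X.finite_supps b)
  have nQ : ∀ x, X.Nul (X.cl b x - Finsupp.single Q 1) := fun x =>
    nul_of_clean hb (nR₀ x) (rd_of_notMem_supps hQ x)
  let W : Set (Divisor (ResidueField A) Fb × ℕ) :=
    Set.range fun x : M => (X.C.rd (X.cl b x + Finsupp.single Q 1), 1)
  have hW : ∀ w ∈ W, h0 w.1 ≤ w.2 + 1 := by
    rintro w ⟨x, rfl⟩
    dsimp only
    rw [map_add, PRed.rd_single]
    have h1 := h0_add_single_le (X.C.rd (X.cl b x)) (X.C.r Q)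
    have h2 := PRed.Nul.h0_rd_le_one X.C (nQ x)
    omega
  obtain ⟨S, gS, hS1, hS2⟩ := X.exists_pt_sub (Set.finite_range _) hW
    (bad := X.supps b ∪ {X.C.r Q}) ((X.finite_supps b).union (Set.toFinite _))
  simp only [Set.mem_union, Set.mem_singleton_iff, not_or] at hS1
  let W' : Set (Divisor (ResidueField A) Fb × ℕ) := Set.range fun x : M =>
      (X.C.rd (X.cl b x + Finsupp.single Q 1) - Finsupp.single (X.C.r S) 1, 0)
  have hW' : ∀ w ∈ W', h0 w.1 ≤ w.2 + 1 := by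
    rintro w ⟨x, rfl⟩
    have hm : (X.C.rd (X.cl b x + Finsupp.single Q 1), 1) ∈ W := Set.mem_range_self x
    have h1 := hS2 _ hm
    dsimp only at h1 ⊢
    exact h1
  obtain ⟨P, gP, hP1, hP2⟩ := X.exists_pt_sub (Set.finite_range _) hW'
    (bad := X.supps b ∪ {X.C.r Q, X.C.r S}) ((X.finite_supps b).union (Set.toFinite _))
  simp only [Set.mem_union, Set.mem_insert_iff, Set.mem_singleton_iff, not_or] at hP1
  have nP : ∀ x, X.Nul (X.cl b x - Finsupp.single P 1) := fun x =>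
    nul_of_clean hb (nR₀ x) (rd_of_notMem_supps hP1.1 x)
  refine ⟨⟨b, Q, S, P, P⟩, ?_, ⟨ib, gQ, gS, gP, gP⟩⟩
  exact
    { deg_b := hb
      nQ := nQ
      nS := fun x => nul_of_clean hb (nR₀ x) (rd_of_notMem_supps hS1.1 x)
      nP₀ := nP
      nP := nP
      QS := fun h => hS1.2 h.symm
      QP₀ := fun h => hP1.2.1 h.symm
      SP₀ := fun h => hP1.2.2 h.symm
      QP := fun h => hP1.2.1 h.symm
      nn := fun x => by
        have hm : (X.C.rd (X.cl b x + Finsupp.single Q 1) - Finsupp.single (X.C.r S) 1, 0) ∈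
          W' := Set.mem_range_self x
        have h1 := hP2 _ hm
        dsimp only at h1
        unfold Ctx.Nul PRed.Nul
        rw [map_sub, map_sub, PRed.rd_single, PRed.rd_single]
        exact Nat.le_zero.mp h1 }

variable {X}

theorem ord_uu {δ : Dat L F} {a : Aux L F X.n} (h : X.AuxOk δ a) (x : M) {R : Place L F}
    (hR : 0 < (X.eff a.b₁ x + Finsupp.single a.Qs 1 : Divisor L F) R) :
    R.ord (X.uu a.b₁ a.Qs a.Ss a.P₁ x : F) =
      -(X.eff a.b₁ x + Finsupp.single a.Qs 1 : Divisor L F) R := by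
  have k1 := h.ok₁ δ.Q (Or.inl rfl)
  have hu : X.C.IsU (X.eff a.b₁ x) a.Qs a.Ss a.P₁ (X.uu a.b₁ a.Qs a.Ss a.P₁ x) := k1.isU x
  have hune : (X.uu a.b₁ a.Qs a.Ss a.P₁ x : F) ≠ 0 := PRed.IsU.ne_zero X.C hu
  have huρ := PRed.IsU.ρ_ne_zero X.C hu
  have hE := eff_nonneg k1.deg_b x
  have h2 := (mem_RR_of_ne hune).mp hu.mem
  have hSR : a.Ss ≠ R := by
    rintro rfl
    have e1 : X.eff a.b₁ x a.Ss = 0 := X.C.apply_eq_zero hE (clean k1.deg_b (k1.nS x)) rfl
    have e2 : a.Ss ≠ a.Qs := fun h' => k1.QS (by rw [h'])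
    rw [Finsupp.add_apply, e1, Finsupp.single_eq_of_ne e2] at hR
    simp at hR
  have h3 := h2 R
  rw [Finsupp.sub_apply, Finsupp.single_eq_of_ne (Ne.symm hSR), sub_zero] at h3
  by_contra hne
  have h4 : (X.uu a.b₁ a.Qs a.Ss a.P₁ x : F) ∈ RR (X.eff a.b₁ x + Finsupp.single a.Qs 1 -
      Finsupp.single R 1 - Finsupp.single a.Ss 1) := by
    rw [mem_RR_of_ne hune]
    intro R'
    have h5 := h2 R'
    rw [Finsupp.sub_apply] at h5
    rw [Finsupp.sub_apply, Finsupp.sub_apply]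
    by_cases hRR : R' = R
    · subst hRR
      rw [Finsupp.single_eq_same, Finsupp.single_eq_of_ne (Ne.symm hSR)]
      omega
    · rw [Finsupp.single_eq_of_ne hRR]
      omega
  have h5 := X.C.ρ_mem_RR h4
  have hpos : 0 < (X.C.rd (X.eff a.b₁ x) + Finsupp.single (X.C.r a.Qs) 1 :
      Divisor (ResidueField A) Fb) (X.C.r R) := by
    have h6 := mapDomain_pos X.C.r (E := X.eff a.b₁ x + Finsupp.single a.Qs 1)
      (fun P _ => (add_nonneg hE (single_nonneg _)) P) rfl hR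
    rw [← PRed.rd_apply, map_add, PRed.rd_single] at h6
    exact h6
  have h7 := h.ex x (X.C.r R) hpos
  rw [map_sub, map_sub, map_add, PRed.rd_single, PRed.rd_single, PRed.rd_single,
    h0_eq_zero_iff.mp h7, Submodule.mem_bot] at h5
  exact huρ h5

theorem HH_sep [Finite M] {x y : M} (hxy : x ≠ y) : ∃ φ ∈ X.HH, φ x ≠ φ y := by
  classical
  by_contra hcon
  push Not at hcon
  apply hxy
  obtain ⟨δ, hδ, hi⟩ := X.exists_dat
  obtain ⟨a, h⟩ := exists_aux hδ hi
  have k1 := h.ok₁ δ.Q (Or.inl rfl)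
  have i1 := h.inv₁ δ.Q (Or.inl rfl)
  set f : F := (X.uu a.b₁ a.Qs a.Ss a.P₁ x : F) - (X.uu a.b₁ a.Qs a.Ss a.P₁ y : F) with hf
  have hux : X.C.IsU (X.eff a.b₁ x) a.Qs a.Ss a.P₁ (X.uu a.b₁ a.Qs a.Ss a.P₁ x) := k1.isU x
  have huy : X.C.IsU (X.eff a.b₁ y) a.Qs a.Ss a.P₁ (X.uu a.b₁ a.Qs a.Ss a.P₁ y) := k1.isU y
  have hf0 : f = 0 := by
    by_contra hne
    obtain ⟨R, gR, hR⟩ := X.exists_pt (bad := X.supps a.b₁ ∪ ({X.C.r a.Qs} ∪
      X.C.r '' ((dv f : Divisor L F).support : Set (Place L F))))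
      ((X.finite_supps _).union ((Set.toFinite _).union
        ((Finset.finite_toSet _).image _)))
    simp only [Set.mem_union, Set.mem_singleton_iff, not_or] at hR
    have hnP : ∀ x, X.Nul (X.cl a.b₁ x - Finsupp.single R 1) := fun x =>
      nul_of_clean k1.deg_b (k1.nQ x) (rd_of_notMem_supps hR.1 x)
    have kR : X.Ok ⟨a.b₁, a.Qs, a.Ss, a.P₁, R⟩ :=
      { deg_b := k1.deg_b
        nQ := k1.nQ
        nS := k1.nS
        nP₀ := k1.nP₀
        nP := hnP
        QS := k1.QS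
        QP₀ := k1.QP₀
        SP₀ := k1.SP₀
        QP := fun h' => hR.2.1 h'.symm
        nn := k1.nn }
    have iR : X.Inv ⟨a.b₁, a.Qs, a.Ss, a.P₁, R⟩ := ⟨i1.b, i1.Q, i1.S, i1.P₀, gR⟩
    have h1 := hcon _ (X.kap_mem_HH kR iR)
    have hreg : ∀ z, X.C.IsU (X.eff a.b₁ z) a.Qs a.Ss a.P₁ (X.uu a.b₁ a.Qs a.Ss a.P₁ z) →
        Reg R (X.uu a.b₁ a.Qs a.Ss a.P₁ z : F) := fun z hz =>
      X.C.reg_near (eff_nonneg k1.deg_b z) (clean k1.deg_b (hnP z)) kR.QP hz.mem rfl
    have h2 : ev R f = 0 := by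
      rw [hf, ev_sub (hreg x hux) (hreg y huy), sub_eq_zero]
      exact h1
    have h3 := (ev_eq_zero_iff ((hreg x hux).sub (hreg y huy))).mp h2
    have h4 := h3.resolve_left hne
    apply hR.2.2
    refine ⟨R, ?_, rfl⟩
    rw [Finset.mem_coe, Finsupp.mem_support_iff, dv_apply]
    exact h4.ne'
  have heq : (X.uu a.b₁ a.Qs a.Ss a.P₁ x : F) = X.uu a.b₁ a.Qs a.Ss a.P₁ y :=
    sub_eq_zero.mp hf0
  have hE : X.eff a.b₁ x = X.eff a.b₁ y := by
    have hEx : 0 ≤ X.eff a.b₁ x := eff_nonneg k1.deg_b x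
    have hEy : 0 ≤ X.eff a.b₁ y := eff_nonneg k1.deg_b y
    have key : ∀ R, (X.eff a.b₁ x + Finsupp.single a.Qs 1 : Divisor L F) R =
        (X.eff a.b₁ y + Finsupp.single a.Qs 1 : Divisor L F) R := by
      intro R
      have nx := (add_nonneg hEx (single_nonneg a.Qs)) R
      have ny := (add_nonneg hEy (single_nonneg a.Qs)) R
      have mx := (mem_RR_of_ne (PRed.IsU.ne_zero X.C hux)).mp
        (RR_mono (sub_le_self _ (single_nonneg _)) hux.mem) R
      have my := (mem_RR_of_ne (PRed.IsU.ne_zero X.C huy)).mp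
        (RR_mono (sub_le_self _ (single_nonneg _)) huy.mem) R
      rw [heq] at mx
      rw [Finsupp.zero_apply] at nx ny
      by_cases px : 0 < (X.eff a.b₁ x + Finsupp.single a.Qs 1 : Divisor L F) R
      · have ox := ord_uu h x px
        rw [heq] at ox
        by_cases py : 0 < (X.eff a.b₁ y + Finsupp.single a.Qs 1 : Divisor L F) R
        · have oy := ord_uu h y py
          omega
        · omega
      · by_cases py : 0 < (X.eff a.b₁ y + Finsupp.single a.Qs 1 : Divisor L F) R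
        · have oy := ord_uu h y py
          omega
        · omega
    ext R
    have := key R
    rw [Finsupp.add_apply, Finsupp.add_apply] at this
    omega
  have h1 : Leq (X.cl a.b₁ x) (X.cl a.b₁ y) := by
    have := eff_leq k1.deg_b y
    rw [← hE] at this
    exact (eff_leq k1.deg_b x).symm.trans this
  have h2 := h1.sub_right a.b₁
  unfold cl at h2
  rw [add_sub_cancel_right, add_sub_cancel_right] at h2
  exact X.d_inj x y h2

end Ctx

end Fermat.Agent.H02F
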