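import Mathlib
import Fermat.Agent.H02F.Sep
import Fermat.Agent.H02F.LocalDef

set_option autoImplicit false

/-! Galois equivariance of the kernel functions. -/

noncomputable section

open AlgebraicCurve Module IsLocalRing
open scoped Pointwise

namespace Fermat.Agent.H02F

section Aut

variable {K F : Type*} [Field K] [Field F] [Algebra K F] (σ : SemilinearAut K F)

theorem smul_mem_RR {E : Divisor K F} {f : F} (hf : f ∈ RR E) : σ • f ∈ RR (σ • E) := by
  rw [mem_RR] at hf ⊢
  intro v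
  rcases hf (σ⁻¹ • v) with h | h
  · left; rw [h, smul_zero]
  · right
    have h1 := SemilinearAut.ord_smul σ (σ⁻¹ • v) f
    rw [smul_inv_smul] at h1
    rw [h1, SemilinearAut.divisor_smul_apply]
    exact h

theorem smul_divisor_nonneg {E : Divisor K F} (h : 0 ≤ E) : 0 ≤ σ • E := by
  intro v
  rw [SemilinearAut.divisor_smul_apply]
  exact h _

theorem Leq.smul {E E' : Divisor K F} (h : Leq E E') : Leq (σ • E) (σ • E') := by
  unfold Leq
  rw [← smul_sub]
  exact SemilinearAut.smul_mem_principal σ h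

theorem reg_smul {P : Place K F} {f : F} (h : Reg P f) : Reg (σ • P) (σ • f) := by
  rw [reg_iff] at h ⊢
  rwa [SemilinearAut.ord_smul]

theorem ev_smul_aut [Crv K F] {P : Place K F} {f : F} (h : Reg P f) :
    ev (σ • P) (σ • f) = SemilinearAut.baseAut σ (ev P f) := by
  apply ev_unique
  rw [← SemilinearAut.smul_algebraMap, ← smul_sub]
  rcases van_sub_ev h with h1 | h1
  · left; rw [h1, smul_zero]
  · right; rwa [SemilinearAut.ord_smul]

end Aut

variable {L : Type*} [Field L] {A : ValuationSubring L} {F Fb : Type*} [Field F] [Field Fb]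
  [Algebra L F] [Algebra (ResidueField A) Fb] [Crv L F] [Crv (ResidueField A) Fb]

variable {D : H28.RedData A F Fb} {M : Type*} [AddCommGroup M]

/-- transformation of parameters -/
def Dat.tr (σ : SemilinearAut L F) (δ : Dat L F) : Dat L F :=
  ⟨σ • δ.b, σ • δ.Q, σ • δ.S, σ • δ.P₀, σ • δ.P⟩

namespace Ctx

variable {X : Ctx D M}

theorem kap_tr {σ : SemilinearAut L F} {sM : M → M}
    (hd : ∀ x, Leq (σ • X.d x) (X.d (sM x))) {δ : Dat L F} (h : X.Ok δ) (h' : X.Ok (δ.tr σ))
    (x : M) : X.kap (δ.tr σ) (sM x) = SemilinearAut.baseAut σ (X.kap δ x) := by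
  have hu := h.isU x
  have hreg : Reg δ.P (X.uu δ.b δ.Q δ.S δ.P₀ x : F) :=
    X.C.reg_near (eff_nonneg h.deg_b x) (clean h.deg_b (h.nP x)) h.QP hu.mem rfl
  have hmem := smul_mem_RR σ hu.mem
  rw [smul_sub, smul_add, SemilinearAut.smul_single, SemilinearAut.smul_single] at hmem
  have hne : σ • (X.uu δ.b δ.Q δ.S δ.P₀ x : F) ≠ 0 := by
    rw [smul_ne_zero_iff_ne]
    exact PRed.IsU.ne_zero X.C hu
  have hleq : Leq (σ • X.eff δ.b x) (X.cl (δ.tr σ).b (sM x)) := by
    refine ((eff_leq h.deg_b x).smul σ).trans ?_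
    unfold cl
    rw [smul_add]
    exact (hd x).add_right _
  obtain ⟨-, -, -, h4⟩ := h'.kap_eq (sM x) (smul_divisor_nonneg σ (eff_nonneg h.deg_b x)) hleq
    hmem hne
  change ev (σ • δ.P) _ = X.kap (δ.tr σ) (sM x) * ev (σ • δ.P₀) _ at h4
  rw [ev_smul_aut σ hreg, ev_smul_aut σ hu.regP₀, hu.one, map_one, mul_one] at h4
  exact h4.symm

variable (X) in
/-- an automorphism compatible with the reduction -/
structure Sym (σ : SemilinearAut L F) (sM : M → M) : Prop where
  hd : ∀ x, Leq (σ • X.d x) (X.d (sM x))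
  surj : Function.Surjective sM
  nul : ∀ E, X.Nul E → X.Nul (σ • E)
  inj : ∀ P Q, X.C.r (σ • P) = X.C.r (σ • Q) → X.C.r P = X.C.r Q
  norm : ∀ τ ∈ X.I, ∃ τ' ∈ X.I, τ * σ = σ * τ'

theorem Sym.ok {σ : SemilinearAut L F} {sM : M → M} (hs : X.Sym σ sM) {δ : Dat L F}
    (h : X.Ok δ) : X.Ok (δ.tr σ) := by
  have key : ∀ E : Divisor L F, (∀ x, X.Nul (X.cl δ.b x + E)) →
      ∀ x, X.Nul (X.cl (δ.tr σ).b x + σ • E) := by
    intro E hE x
    obtain ⟨x', rfl⟩ := hs.surj x
    have h1 := hs.nul _ (hE x')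
    refine PRed.Nul.leq X.C h1 ?_
    unfold cl Dat.tr
    rw [smul_add, smul_add]
    exact ((hs.hd x').add_right _).add_right _
  have key1 : ∀ P : Place L F, (∀ x, X.Nul (X.cl δ.b x - Finsupp.single P 1)) →
      ∀ x, X.Nul (X.cl (δ.tr σ).b x - Finsupp.single (σ • P) 1) := by
    intro P hP x
    have h1 := key (-Finsupp.single P 1) (fun x => by
      rw [← sub_eq_add_neg]; exact hP x) x
    rwa [smul_neg, SemilinearAut.smul_single, ← sub_eq_add_neg] at h1
  exact
    { deg_b := by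
        change Divisor.degree (σ • δ.b) = _
        rw [SemilinearAut.degree_smul, h.deg_b]
      nQ := key1 _ h.nQ
      nS := key1 _ h.nS
      nP₀ := key1 _ h.nP₀
      nP := key1 _ h.nP
      QS := fun h' => h.QS (hs.inj _ _ h')
      QP₀ := fun h' => h.QP₀ (hs.inj _ _ h')
      SP₀ := fun h' => h.SP₀ (hs.inj _ _ h')
      QP := fun h' => h.QP (hs.inj _ _ h')
      nn := fun x => by
        have h1 := key (Finsupp.single δ.Q 1 - Finsupp.single δ.S 1 - Finsupp.single δ.P₀ 1)
          (fun x => by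
            have := h.nn x
            convert this using 1
            abel) x
        rw [smul_sub, smul_sub, SemilinearAut.smul_single, SemilinearAut.smul_single,
          SemilinearAut.smul_single] at h1
        convert h1 using 1
        unfold Dat.tr
        abel }

theorem Sym.smul_G {σ : SemilinearAut L F} {sM : M → M} (hs : X.Sym σ sM) {P : Place L F}
    (hP : P ∈ X.G) : σ • P ∈ X.G := by
  intro τ hτ
  obtain ⟨τ', hτ', he⟩ := hs.norm τ hτ
  rw [← mul_smul, he, mul_smul, hP τ' hτ']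

theorem Sym.inv {σ : SemilinearAut L F} {sM : M → M} (hs : X.Sym σ sM) {δ : Dat L F}
    (h : X.Inv δ) : X.Inv (δ.tr σ) where
  b := by
    intro τ hτ
    obtain ⟨τ', hτ', he⟩ := hs.norm τ hτ
    change τ • σ • δ.b = σ • δ.b
    rw [← mul_smul, he, mul_smul, h.b τ' hτ']
  Q := hs.smul_G h.Q
  S := hs.smul_G h.S
  P₀ := hs.smul_G h.P₀
  P := hs.smul_G h.P

theorem Inv.tr_eq {δ : Dat L F} (h : X.Inv δ) {σ : SemilinearAut L F} (hσ : σ ∈ X.I) :
    δ.tr σ = δ := by
  unfold Dat.tr
  rw [h.b σ hσ, h.Q σ hσ, h.S σ hσ, h.P₀ σ hσ, h.P σ hσ]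

theorem Sym.stab {σ : SemilinearAut L F} {sM : M ≃ M} (hs : X.Sym σ sM)
    (hA : ∀ a ∈ A, SemilinearAut.baseAut σ a ∈ A) {φ : M → L} (hφ : φ ∈ X.HH) :
    (fun m => SemilinearAut.baseAut σ (φ (sM.symm m))) ∈ X.HH := by
  induction hφ using Algebra.adjoin_induction with
  | mem x hx =>
    obtain ⟨δ, h, hi, rfl⟩ := hx
    have : (fun m => SemilinearAut.baseAut σ (X.kap δ (sM.symm m))) = X.kap (δ.tr σ) := by
      funext m
      rw [← kap_tr hs.hd h (hs.ok h), Equiv.apply_symm_apply]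
    rw [this]
    exact X.kap_mem_HH (hs.ok h) (hs.inv hi)
  | algebraMap a =>
    exact Subalgebra.algebraMap_mem X.HH (⟨SemilinearAut.baseAut σ a, hA a a.2⟩ : A)
  | add x y _ _ hx hy =>
    have : (fun m => SemilinearAut.baseAut σ ((x + y) (sM.symm m))) =
        (fun m => SemilinearAut.baseAut σ (x (sM.symm m))) +
        fun m => SemilinearAut.baseAut σ (y (sM.symm m)) := by
      funext m; simp
    rw [this]
    exact add_mem hx hy
  | mul x y _ _ hx hy =>
    have : (fun m => SemilinearAut.baseAut σ ((x * y) (sM.symm m))) =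
        (fun m => SemilinearAut.baseAut σ (x (sM.symm m))) *
        fun m => SemilinearAut.baseAut σ (y (sM.symm m)) := by
      funext m; simp
    rw [this]
    exact mul_mem hx hy

end Ctx

/-- the algebra of kernel functions is a local Hopf order -/
theorem localHopf {A : ValuationSubring Qb} {F Fb : Type*} [Field F] [Field Fb]
    [Algebra Qb F] [Algebra (ResidueField A) Fb] [Crv Qb F] [Crv (ResidueField A) Fb]
    {D : H28.RedData A F Fb} {M : Type*} [AddCommGroup M] [Finite M] (X : Ctx D M)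
    (act : GQ →* AddMonoid.End M) (gal : GQ →* SemilinearAut Qb F)
    (hbase : ∀ σ a, SemilinearAut.baseAut (gal σ) a = σ a)
    (hI : X.I = gal '' (A.inertiaSubgroupIn ℚ : Set GQ))
    (hd : ∀ σ x, Leq (gal σ • X.d x) (X.d (act σ x)))
    (hnul : ∀ σ ∈ A.decompositionSubgroup ℚ, ∀ E, X.Nul E → X.Nul (gal σ • E))
    (hinj : ∀ σ ∈ A.decompositionSubgroup ℚ, ∀ P Q, X.C.r (gal σ • P) = X.C.r (gal σ • Q) →
      X.C.r P = X.C.r Q) :
    LocalHopf A act X.HH := by
  have hactinv : ∀ (σ : GQ) (m : M), act σ (act σ⁻¹ m) = m := by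
    intro σ m
    have h1 : act σ * act σ⁻¹ = 1 := by rw [← map_mul, mul_inv_cancel, map_one]
    exact DFunLike.congr_fun h1 m
  have hactinv' : ∀ (σ : GQ) (m : M), act σ⁻¹ (act σ m) = m := by
    intro σ m
    have h1 : act σ⁻¹ * act σ = 1 := by rw [← map_mul, inv_mul_cancel, map_one]
    exact DFunLike.congr_fun h1 m
  let sM : GQ → (M ≃ M) := fun σ => ⟨act σ, act σ⁻¹, hactinv' σ, hactinv σ⟩
  have hA : ∀ σ ∈ A.decompositionSubgroup ℚ, ∀ a ∈ A, σ a ∈ A := by
    intro σ hσ a ha
    have h1 : σ • A = A := hσ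
    rw [← h1]
    exact ValuationSubring.smul_mem_pointwise_smul σ a A ha
  have hsym : ∀ σ ∈ A.decompositionSubgroup ℚ, X.Sym (gal σ) (sM σ) := by
    intro σ hσ
    refine ⟨hd σ, (sM σ).surjective, hnul σ hσ, hinj σ hσ, ?_⟩
    intro τ hτ
    rw [hI] at hτ ⊢
    obtain ⟨t, ht, rfl⟩ := hτ
    refine ⟨gal (σ⁻¹ * t * σ), ⟨_, ?_, rfl⟩, ?_⟩
    · obtain ⟨t', ht', rfl⟩ := ht
      have hn : (A.inertiaSubgroup ℚ).Normal := by
        unfold ValuationSubring.inertiaSubgroup
        infer_instance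
      have h1 := hn.conj_mem t' ht' ((⟨σ, hσ⟩ : A.decompositionSubgroup ℚ)⁻¹)
      rw [inv_inv] at h1
      exact ⟨_, h1, rfl⟩
    · rw [← map_mul, ← map_mul]
      congr 1
      group
  refine
    { int := fun φ hφ m => X.HH_int hφ m
      span := ?_
      stab := ?_
      sep := fun x y hxy => Ctx.HH_sep hxy
      comul := fun φ hφ => ?_ }
  · intro φ hφ
    have h1 : Subalgebra.toSubmodule X.HH = Submodule.span A
        (Submonoid.closure {φ | ∃ δ : Dat Qb F, X.Ok δ ∧ X.Inv δ ∧ φ = X.kap δ} :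
          Set (M → Qb)) := Algebra.adjoin_eq_span A _
    have h2 : φ ∈ Subalgebra.toSubmodule X.HH := hφ
    rw [h1] at h2
    refine Submodule.span_mono ?_ h2
    intro ψ hψ
    refine ⟨?_, fun σ hσ m => ?_⟩
    · have h3 : ψ ∈ Subalgebra.toSubmodule X.HH := by
        rw [h1]; exact Submodule.subset_span hψ
      exact h3
    · induction hψ using Submonoid.closure_induction with
      | mem x hx =>
        obtain ⟨δ, h, hi, rfl⟩ := hx
        have hσD : σ ∈ A.decompositionSubgroup ℚ := by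
          obtain ⟨t', -, rfl⟩ := hσ
          exact t'.2
        have hσI : gal σ ∈ X.I := by
          rw [hI]; exact ⟨σ, hσ, rfl⟩
        have h3 := Ctx.kap_tr (X := X) (sM := act σ) (hd σ) h
          ((hsym σ hσD).ok h) m
        rw [Ctx.Inv.tr_eq hi hσI, hbase] at h3
        exact h3
      | one => simp
      | mul x y _ _ hx hy =>
        rw [Pi.mul_apply, Pi.mul_apply, hx, hy, map_mul]
  · intro σ hσ φ hφ
    have h1 := (hsym σ hσ).stab (sM := sM σ) (fun a ha => by
      rw [hbase]; exact hA σ hσ a ha) hφ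
    have h2 : (fun m => SemilinearAut.baseAut (gal σ) (φ ((sM σ).symm m))) =
        fun m => σ (φ (act σ⁻¹ m)) := by
      funext m
      rw [hbase]
      rfl
    rw [h2] at h1
    exact h1
  · obtain ⟨n, a, b, ha, hb, hab⟩ := X.exists_of_mem_CC (Ctx.HH_comul hφ)
    exact ⟨n, a, b, ha, hb, fun x y => hab x y⟩

end Fermat.Agent.H02F
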