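import Mathlib
import Fermat.Agent.H02F.Red
import Fermat.Agent.H02F.HopfDef
import Fermat.Agent.H23.R.ResK0
import Fermat.Prelude.Def_AlgebraicCurve_BaseChangeGalois

set_option autoImplicit false

/-! Places fixed by inertia reduce to infinitely many places. -/

noncomputable section

open AlgebraicCurve Module IsLocalRing

namespace Fermat.Agent.H02F

theorem exists_inertia_lift {A : ValuationSubring Qb} {ℓ : ℕ} (hℓ : ℓ.Prime)
    (hA : A.LiesOverPrime ℓ) (x : ResidueField A) :
    ∃ c : A, residue A c = x ∧ ∀ σ ∈ A.inertiaSubgroupIn ℚ, σ (c : Qb) = c := by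
  obtain ⟨y, rfl⟩ := residue_surjective x
  obtain ⟨c, hc⟩ := H23.R.exists_A0_residue hℓ hA y
  refine ⟨⟨((c : H23.R.K0 A) : Qb), c.2⟩, ?_, fun σ hσ => ?_⟩
  · rw [← residue_eq_zero_iff, map_sub, sub_eq_zero] at hc
    exact hc.symm
  · exact (c : H23.R.K0 A).2 ⟨σ, hσ⟩

variable {L : Type*} [Field L] {A : ValuationSubring L} {F Fb : Type*} [Field F] [Field Fb]
  [Algebra L F] [Algebra (ResidueField A) Fb] [Crv L F] [Crv (ResidueField A) Fb]
variable {D : H28.RedData A F Fb} (C : PRed D)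

namespace PRed

/-- exactly one place of the fibre is a zero -/
theorem exists_unique_zero {z : D.Z} {v : Place (ResidueField A) Fb} (hv : v.ord (D.ρ z) = 1)
    (hreg : ∀ P, C.r P = v → Reg P (z : F)) :
    ∃ P, (C.r P = v ∧ 0 < P.ord (z : F)) ∧ ∀ P', C.r P' = v → 0 < P'.ord (z : F) → P' = P := by
  have hρ : D.ρ z ≠ 0 := by
    intro h
    rw [h, Place.ord_zero] at hv
    exact zero_ne_one hv
  have h1 : C.rd (dv (z : F)) v = 1 := by rw [C.rd_dv hρ, dv_apply, hv]
  have hex : ∃ P, C.r P = v ∧ 0 < P.ord (z : F) := by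
    by_contra hne
    push Not at hne
    have h2 : 0 ≤ C.rd (-dv (z : F)) v := mapDomain_nonneg C.r fun P hP => by
      rw [Finsupp.neg_apply, dv_apply]
      have := hne P hP
      omega
    rw [map_neg, Finsupp.neg_apply, h1] at h2
    omega
  obtain ⟨P, hP1, hP2⟩ := hex
  refine ⟨P, ⟨hP1, hP2⟩, fun P' h1' h2' => ?_⟩
  by_contra hne
  have h2 : 0 ≤ C.rd (dv (z : F) - Finsupp.single P 1 - Finsupp.single P' 1) v :=
    mapDomain_nonneg C.r fun Q hQ => by
      rw [Finsupp.sub_apply, Finsupp.sub_apply, dv_apply]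
      have h3 := reg_iff.mp (hreg Q hQ)
      by_cases hQP : Q = P
      · subst hQP
        rw [Finsupp.single_eq_same, Finsupp.single_eq_of_ne (Ne.symm hne)]
        omega
      · rw [Finsupp.single_eq_of_ne hQP]
        by_cases hQP' : Q = P'
        · subst hQP'
          rw [Finsupp.single_eq_same]
          omega
        · rw [Finsupp.single_eq_of_ne hQP']
          omega
  rw [map_sub, map_sub, rd_single, rd_single, Finsupp.sub_apply, Finsupp.sub_apply, h1, hP1, h1',
    Finsupp.single_eq_same] at h2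
  omega

theorem fixed_infinite (t : D.Z) (ht : D.ρ t ≠ 0)
    (hpole : ∀ P, Reg (C.r P) (D.ρ t) → Reg P (t : F))
    (hinf : Infinite (Place (ResidueField A) Fb))
    (hram : {v : Place (ResidueField A) Fb | Reg v (D.ρ t) ∧
      v.ord (D.ρ t - algebraMap (ResidueField A) Fb (ev v (D.ρ t))) ≠ 1}.Finite)
    (I : Set (SemilinearAut L F)) (hI1 : ∀ σ ∈ I, σ • (t : F) = t)
    (hI2 : ∀ σ ∈ I, ∀ P, C.r (σ • P) = C.r P)
    (hlift : ∀ x : ResidueField A, ∃ c : A, residue A c = x ∧
      ∀ σ ∈ I, SemilinearAut.baseAut σ (c : L) = c) :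
    (C.r '' {P | ∀ σ ∈ I, σ • P = P}).Infinite := by
  have hpoles : {v : Place (ResidueField A) Fb | ¬ Reg v (D.ρ t)}.Finite := by
    refine (dv (D.ρ t) : Divisor (ResidueField A) Fb).support.finite_toSet.subset ?_
    intro v hv
    rw [Set.mem_ofPred_eq, reg_iff] at hv
    rw [Finset.mem_coe, Finsupp.mem_support_iff, dv_apply]
    omega
  have hsub : ({v : Place (ResidueField A) Fb | ¬ Reg v (D.ρ t)} ∪
      {v : Place (ResidueField A) Fb | Reg v (D.ρ t) ∧
      v.ord (D.ρ t - algebraMap (ResidueField A) Fb (ev v (D.ρ t))) ≠ 1})ᶜ ⊆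
      C.r '' {P | ∀ σ ∈ I, σ • P = P} := by
    intro v hv
    rw [Set.mem_compl_iff, Set.mem_union, not_or] at hv
    obtain ⟨hv1, hv2⟩ := hv
    rw [Set.mem_ofPred_eq, not_not] at hv1
    rw [Set.mem_ofPred_eq] at hv2
    push Not at hv2
    have hv3 := hv2 hv1
    obtain ⟨c, hc1, hc2⟩ := hlift (ev v (D.ρ t))
    let z : D.Z := t - ⟨algebraMap L F c, D.alg_mem c⟩
    have hz : D.ρ z = D.ρ t - algebraMap (ResidueField A) Fb (ev v (D.ρ t)) := by
      rw [map_sub, D.ρ_alg c, hc1]
    have hreg : ∀ P, C.r P = v → Reg P (z : F) := by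
      intro P hP
      have h1 : Reg P (t : F) := hpole P (by rw [hP]; exact hv1)
      exact h1.sub (reg_alg P c)
    obtain ⟨P, ⟨hP1, hP2⟩, hP3⟩ := C.exists_unique_zero (z := z) (v := v) (by rw [hz]; exact hv3)
      hreg
    refine ⟨P, fun σ hσ => ?_, hP1⟩
    apply hP3
    · rw [hI2 σ hσ, hP1]
    · have h2 : σ • (z : F) = z := by
        change σ • ((t : F) - algebraMap L F c) = (t : F) - algebraMap L F c
        rw [smul_sub, hI1 σ hσ, SemilinearAut.smul_algebraMap, hc2 σ hσ]
      have h3 := SemilinearAut.ord_smul σ P (z : F)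
      rw [h2] at h3
      rw [h3]; exact hP2
  refine Set.Infinite.mono hsub ?_
  exact (hpoles.union hram).infinite_compl

end PRed

end Fermat.Agent.H02F
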