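import Mathlib
import Fermat.Agent.H02F.Red
import Fermat.Agent.FF.T8
import Fermat.Agent.H11Q.LevelOfCusp

set_option autoImplicit false
set_option linter.unusedSectionVars false

/-! Riemann-Roch input for the curves, and the upper bound on the special fibre. -/

noncomputable section

open AlgebraicCurve Module IsLocalRing Fermat.Agent.H28 IsDedekindDomain ModularCurve
open scoped WithZero

namespace Fermat.Agent.H02F

section RR

variable (K F : Type*) [Field K] [Field F] [Algebra K F] [IsAlgClosed K] [FF.FunField K F]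

instance crv_of_funField : Crv K F where
  deg_one := FF.deg_eq_one
  ne := FF.nonempty_place

variable {K F}

theorem h0_eq_ell (D : Divisor K F) : h0 D = FF.ell D := rfl

theorem lb_of_funField (E : Divisor K F) :
    Divisor.degree E + 1 - genusFF K F ≤ h0 E := by
  have := FF.riemannRoch E
  rw [h0_eq_ell]
  omega

theorem h0_of_degree_ge {E : Divisor K F} (h : 2 * (genusFF K F : ℤ) ≤ Divisor.degree E) :
    (h0 E : ℤ) = Divisor.degree E + 1 - genusFF K F := by
  rw [h0_eq_ell]
  exact FF.ell_of_hh_zero (FF.hh_eq_zero_of_degree_ge h)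

theorem ub_of_le {g : ℤ} (h : g ≤ genusFF K F) : UB K F g :=
  ⟨2 * genusFF K F, fun D hD => by rw [h0_of_degree_ge hD]; omega⟩

end RR

attribute [-instance] HahnSeries.instModule HahnSeries.instSMul HahnSeries.instDistribMulAction
  HahnSeries.instSMulZeroClass

variable {L : Type*} [Field L] [IsAlgClosed L] {A : ValuationSubring L} {F Fb : Type*}
  [Field F] [Field Fb] [Algebra L F] [Algebra (ResidueField A) Fb]
  [IsAlgClosed (ResidueField A)] [FF.FunField L F] [FF.FunField (ResidueField A) Fb]
  {D : RedData A F Fb} {C : TwoCharts D} (Z : H11Q.Cusp C)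

/-- lifts of linearly independent functions are linearly independent -/
theorem linearIndependent_lift {ι : Type*} [Finite ι] {y : ι → Fb} {x : ι → D.Z}
    (hy : LinearIndependent (ResidueField A) y) (hx : ∀ i, D.ρ (x i) = y i) :
    LinearIndependent L (fun i => (x i : F)) := by
  classical
  cases nonempty_fintype ι
  rw [Fintype.linearIndependent_iff]
  intro c hc
  by_contra hne
  push Not at hne
  obtain ⟨j, hj⟩ := hne
  haveI : Nonempty ι := ⟨j⟩
  obtain ⟨i₀, hi₀⟩ := Finite.exists_max fun i => A.valuation (c i)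
  have hc0 : c i₀ ≠ 0 := by
    intro h0
    have := hi₀ j
    rw [h0, map_zero, le_zero_iff, map_eq_zero] at this
    exact hj this
  have hA : ∀ i, c i / c i₀ ∈ A := by
    intro i
    rw [← ValuationSubring.valuation_le_one_iff, map_div₀]
    exact div_le_one_of_le₀ (hi₀ i) zero_le
  let a : ι → A := fun i => ⟨c i / c i₀, hA i⟩
  have h1 : ∑ i, (⟨algebraMap L F (a i), D.alg_mem (a i)⟩ : D.Z) * x i = 0 := by
    apply Subtype.ext
    rw [ZeroMemClass.coe_zero, AddSubmonoidClass.coe_finsetSum]
    have h2 : ∀ i, (((⟨algebraMap L F (a i), D.alg_mem (a i)⟩ : D.Z) * x i : D.Z) : F) =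
        (c i₀)⁻¹ • (c i • (x i : F)) := by
      intro i
      rw [smul_smul, Algebra.smul_def]
      change algebraMap L F (c i / c i₀) * (x i : F) = _
      rw [div_eq_inv_mul]
    rw [Finset.sum_congr rfl fun i _ => h2 i, ← Finset.smul_sum, hc, smul_zero]
  have h3 := congrArg D.ρ h1
  rw [map_sum, map_zero] at h3
  have h4 : ∑ i, residue A (a i) • y i = 0 := by
    rw [← h3]
    refine Finset.sum_congr rfl fun i _ => ?_
    rw [map_mul, D.ρ_alg (a i), hx, Algebra.smul_def]
  have h5 := (Fintype.linearIndependent_iff.mp hy) _ h4 i₀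
  have h6 : a i₀ = 1 := Subtype.ext (div_self hc0)
  rw [h6, map_one] at h5
  exact one_ne_zero h5

/-- the prime of the cusp on the special fibre -/
def cuspPrime : HeightOneSpectrum (CR (ResidueField A) (D.ρ C.t₂)) where
  asIdeal := Z.Pb₂
  isPrime := Z.isRat_Pb₂.isMaximal.isPrime
  ne_bot := by
    intro h
    have h1 := Z.tO_mem_Pb₂
    rw [h, Ideal.mem_bot] at h1
    exact C.tb₂_ne_zero h1

/-- the cusp on the special fibre -/
def cuspB : Place (ResidueField A) Fb := H18.placeOfPrime (ResidueField A) Fb (cuspPrime Z)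

theorem mem_CR_of_forall {k E : Type*} [Field k] [Field E] [Algebra k E] {t : E}
    [IsDedekindDomain (CR k t)] [IsFractionRing (CR k t) E] {x : E}
    (h : ∀ v : HeightOneSpectrum (CR k t), x ∈ (H18.placeOfPrime k E v).toValuationSubring) :
    x ∈ CR k t := by
  have h1 : ∀ v : HeightOneSpectrum (CR k t), v.valuation E x ≤ 1 := by
    intro v
    rw [← H18.mem_placeOfPrime k E v]
    exact h v
  obtain ⟨y, hy⟩ := HeightOneSpectrum.mem_integers_of_valuation_le_one (R := CR k t) E x h1
  rw [← hy]
  exact y.2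

theorem h0_cusp_le {n₀ : ℕ} (hn₀ : ∀ n, n₀ ≤ n → ∀ y ∈ Z.OO, H11Q.Low (Z.eb y) (-n) →
    ∃ x : D.Z, Z.PolP (x : F) ∧ H11Q.Low (Z.e (x : F)) (-n) ∧ D.ρ x = y) {n : ℕ} (hn : n₀ ≤ n) :
    h0 (Finsupp.single (cuspB Z) (n : ℤ)) ≤ h0 (Finsupp.single Z.P (n : ℤ) : Divisor L F) := by
  have htb : 0 < (cuspB Z).ord (D.ρ C.t₂) := by
    have := (H18.ord_placeOfPrime_pos_iff (ResidueField A) Fb (cuspPrime Z) C.tb₂_ne_zero).mpr
      Z.tO_mem_Pb₂
    exact this
  have key : ∀ y : Fb, y ∈ RR (Finsupp.single (cuspB Z) (n : ℤ)) →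
      ∃ x : D.Z, (x : F) ∈ RR (Finsupp.single Z.P (n : ℤ) : Divisor L F) ∧ D.ρ x = y := by
    intro y hy
    have hreg : ∀ v, v ≠ cuspB Z → y ∈ v.toValuationSubring := by
      intro v hv
      exact reg_of_mem_RR hy (by rw [Finsupp.single_eq_of_ne hv])
    have h1 : y ∈ CR (ResidueField A) (D.ρ C.t₁) := by
      apply mem_CR_of_forall
      intro v
      apply hreg
      intro h
      have h2 := H18.algebraMap_mem_placeOfPrime (ResidueField A) Fb v
        (tO (ResidueField A) (D.ρ C.t₁))
      rw [h] at h2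
      have h3 : D.ρ C.t₁ ∈ (cuspB Z).toValuationSubring := h2
      rw [H18.mem_iff] at h3
      have h4 : D.ρ C.t₁ = (D.ρ C.t₂)⁻¹ := eq_inv_of_mul_eq_one_left C.ρ_mul_eq
      rw [h4, Place.ord_inv] at h3
      omega
    have h2 : Z.InLb n y := by
      intro p hp
      apply mem_CR_of_forall
      intro v
      by_cases hv : H18.placeOfPrime (ResidueField A) Fb v = cuspB Z
      · rw [hv]
        rcases eq_or_ne (y * (p : Fb)) 0 with h0 | h0
        · rw [h0]; exact zero_mem _
        have hy0 : y ≠ 0 := left_ne_zero_of_mul h0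
        have hp0 : (p : Fb) ≠ 0 := right_ne_zero_of_mul h0
        rw [H18.mem_iff, Place.ord_mul _ hy0 hp0]
        have h3 := (mem_RR_of_ne hy0).mp hy (cuspB Z)
        rw [Finsupp.single_eq_same] at h3
        have h4 : (n : ℤ) ≤ (cuspB Z).ord (p : Fb) := by
          have h5 : (cuspPrime Z).valuation Fb (algebraMap _ Fb p) ≤ WithZero.exp (-(n : ℤ)) := by
            rw [HeightOneSpectrum.valuation_of_algebraMap,
              HeightOneSpectrum.intValuation_le_pow_iff_mem]
            exact hp
          have h6 : (cuspB Z).ord (p : Fb) =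
              -(WithZero.log ((cuspPrime Z).valuation Fb (algebraMap _ Fb p))) :=
            H18.ord_placeOfPrime (ResidueField A) Fb (cuspPrime Z) _
          rw [h6]
          have h7 : (cuspPrime Z).valuation Fb (algebraMap _ Fb p) ≠ 0 := by
            rw [ne_eq, map_eq_zero]; exact hp0
          have h8 := (WithZero.log_le_iff_le_exp h7).mpr h5
          omega
        omega
      · exact mul_mem (hreg _ hv) (H18.algebraMap_mem_placeOfPrime (ResidueField A) Fb v p)
    have h3 : y ∈ Z.OO := ⟨h1, n, h2⟩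
    have h4 : H11Q.Low (Z.eb y) (-n) := H11Q.InL.low Z.lowb1 Z.lowb2 h2
    obtain ⟨x, hx1, hx2, hx3⟩ := hn₀ n hn y h3 h4
    refine ⟨x, ?_, hx3⟩
    by_cases hx0 : (x : F) = 0
    · rw [hx0]; exact zero_mem _
    rw [mem_RR_of_ne hx0]
    intro v
    by_cases hv : v = Z.P
    · rw [hv, Finsupp.single_eq_same]
      have := (Z.low_iff_ord hx0).mp hx2
      omega
    · rw [Finsupp.single_eq_of_ne hv, add_zero]
      exact (H18.mem_iff v).mp (hx1 v hv)
  -- lift a basis
  let b := Module.finBasis (ResidueField A) (RR (Finsupp.single (cuspB Z) (n : ℤ)))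
  choose x hx1 hx2 using fun i => key (b i : Fb) (b i).2
  have hb : LinearIndependent (ResidueField A) (fun i => (b i : Fb)) :=
    b.linearIndependent.map' (Submodule.subtype _) (Submodule.ker_subtype _)
  have h5 := linearIndependent_lift hb hx2
  have h6 : LinearIndependent L (fun i => (⟨x i, hx1 i⟩ :
      RR (Finsupp.single Z.P (n : ℤ) : Divisor L F))) :=
    LinearIndependent.of_comp (Submodule.subtype _) h5
  have h7 := h6.fintype_card_le_finrank
  rw [Fintype.card_fin] at h7
  exact h7

include Z in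
/-- equality of genera, in the form needed -/
theorem ub_special : UB (ResidueField A) Fb (genusFF L F) := by
  obtain ⟨n₀, hn₀⟩ := Z.exists_n₁
  apply ub_of_le
  let n : ℕ := n₀ + 2 * genusFF L F + 2 * genusFF (ResidueField A) Fb
  have h1 := h0_cusp_le Z hn₀ (n := n) (by omega)
  have h2 := h0_of_degree_ge (K := L) (F := F) (E := Finsupp.single Z.P (n : ℤ)) (by
    rw [degree_single_one]; push_cast [n]; omega)
  have h3 := h0_of_degree_ge (K := ResidueField A) (F := Fb)
    (E := Finsupp.single (cuspB Z) (n : ℤ)) (by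
    rw [degree_single_one]; push_cast [n]; omega)
  rw [degree_single_one] at h2 h3
  omega

end Fermat.Agent.H02F
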