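import Mathlib
import Fermat.Agent.H02F.Red
import Fermat.Agent.H02F.Inst
import Fermat.Agent.H28.PlaceMap

set_option autoImplicit false
set_option linter.unusedSectionVars false

/-! The localised reduction data, and the reduction of places. -/

noncomputable section

open AlgebraicCurve Module IsLocalRing Fermat.Agent.H28

namespace Fermat.Agent.H02F

section Loc

variable {L : Type*} [Field L] {A : ValuationSubring L} {F Fb : Type*} [Field F] [Field Fb]
  [Algebra L F] [Algebra (ResidueField A) Fb] (D : RedData A F Fb)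

theorem coe_ne_zero' {z : D.Z} (h : D.ρ z ≠ 0) : (z : F) ≠ 0 := by
  intro h0
  apply h
  have : z = 0 := Subtype.ext h0
  rw [this, map_zero]

/-- fractions of integral functions with primitive denominator -/
def locZ : Subring F where
  carrier := {f | ∃ a b : D.Z, D.ρ b ≠ 0 ∧ f * (b : F) = a}
  mul_mem' := by
    rintro f g ⟨a, b, hb, h⟩ ⟨a', b', hb', h'⟩
    refine ⟨a * a', b * b', by rw [map_mul]; exact mul_ne_zero hb hb', ?_⟩
    push_cast
    rw [← h, ← h']; ring
  one_mem' := ⟨1, 1, by rw [map_one]; exact one_ne_zero, by push_cast; rw [one_mul]⟩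
  add_mem' := by
    rintro f g ⟨a, b, hb, h⟩ ⟨a', b', hb', h'⟩
    refine ⟨a * b' + a' * b, b * b', by rw [map_mul]; exact mul_ne_zero hb hb', ?_⟩
    push_cast
    rw [← h, ← h']; ring
  zero_mem' := ⟨0, 1, by rw [map_one]; exact one_ne_zero, by push_cast; rw [zero_mul]⟩
  neg_mem' := by
    rintro f ⟨a, b, hb, h⟩
    exact ⟨-a, b, hb, by push_cast; rw [← h, neg_mul]⟩

variable {D}

theorem loc_unique {f : F} {a b a' b' : D.Z} (hb : D.ρ b ≠ 0) (hb' : D.ρ b' ≠ 0)
    (h : f * (b : F) = a) (h' : f * (b' : F) = a') : D.ρ a / D.ρ b = D.ρ a' / D.ρ b' := by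
  rw [div_eq_div_iff hb hb', ← map_mul, ← map_mul]
  congr 1
  apply Subtype.ext
  push_cast
  rw [← h, ← h']; ring

/-- reduction of a fraction -/
def locFun (f : locZ D) : Fb := D.ρ f.2.choose / D.ρ f.2.choose_spec.choose

theorem locFun_eq (f : locZ D) {a b : D.Z} (hb : D.ρ b ≠ 0) (h : (f : F) * (b : F) = a) :
    locFun f = D.ρ a / D.ρ b :=
  loc_unique f.2.choose_spec.choose_spec.1 hb f.2.choose_spec.choose_spec.2 h

variable (D) in
/-- reduction of fractions -/
def locρ : locZ D →+* Fb where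
  toFun := locFun
  map_one' := by
    rw [locFun_eq (a := 1) (b := 1) _ (by rw [map_one]; exact one_ne_zero) (by
      push_cast; rw [one_mul]), map_one, div_one]
  map_mul' := by
    rintro ⟨f, hf⟩ ⟨g, hg⟩
    obtain ⟨a, b, hb, h⟩ := id hf
    obtain ⟨a', b', hb', h'⟩ := id hg
    rw [locFun_eq ⟨f, hf⟩ hb h, locFun_eq ⟨g, hg⟩ hb' h', locFun_eq (a := a * a') (b := b * b') _
      (by rw [map_mul]; exact mul_ne_zero hb hb') (by
        push_cast
        rw [← h, ← h']; ring), map_mul, map_mul, div_mul_div_comm]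
  map_zero' := by
    rw [locFun_eq (a := 0) (b := 1) _ (by rw [map_one]; exact one_ne_zero) (by
      push_cast; rw [zero_mul]), map_zero, zero_div]
  map_add' := by
    rintro ⟨f, hf⟩ ⟨g, hg⟩
    obtain ⟨a, b, hb, h⟩ := id hf
    obtain ⟨a', b', hb', h'⟩ := id hg
    rw [locFun_eq ⟨f, hf⟩ hb h, locFun_eq ⟨g, hg⟩ hb' h',
      locFun_eq (a := a * b' + a' * b) (b := b * b') _
      (by rw [map_mul]; exact mul_ne_zero hb hb') (by
        push_cast
        rw [← h, ← h']; ring), div_add_div _ _ hb hb', map_add, map_mul, map_mul, map_mul]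
    congr 1
    ring

theorem locρ_eq (f : locZ D) {a b : D.Z} (hb : D.ρ b ≠ 0) (h : (f : F) * (b : F) = a) :
    locρ D f = D.ρ a / D.ρ b := locFun_eq f hb h

theorem mem_locZ (z : D.Z) : (z : F) ∈ locZ D :=
  ⟨z, 1, by rw [map_one]; exact one_ne_zero, by push_cast; rw [mul_one]⟩

theorem locρ_coe (z : D.Z) : locρ D ⟨z, mem_locZ z⟩ = D.ρ z := by
  rw [locρ_eq (a := z) (b := 1) _ (by rw [map_one]; exact one_ne_zero) (by
    push_cast; rw [mul_one]), map_one, div_one]

variable (D) in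
/-- the localised reduction data -/
def loc : RedData A F Fb where
  Z := locZ D
  ρ := locρ D
  alg_mem a := mem_locZ ⟨_, D.alg_mem a⟩
  ρ_alg a := by
    rw [← D.ρ_alg a, ← locρ_coe]

/-- an integral function as an element of the localisation -/
def toLoc (z : D.Z) : (loc D).Z := ⟨z, mem_locZ z⟩

@[simp] theorem coe_toLoc (z : D.Z) : ((toLoc z : (loc D).Z) : F) = z := rfl

theorem ρ_toLoc (z : D.Z) : (loc D).ρ (toLoc z) = D.ρ z := locρ_coe z

theorem exists_frac_loc (z : (loc D).Z) : ∃ a b : D.Z, D.ρ b ≠ 0 ∧ (z : F) * (b : F) = a ∧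
    (loc D).ρ z * D.ρ b = D.ρ a := by
  obtain ⟨f, hf⟩ := z
  obtain ⟨a, b, hb, h⟩ := id hf
  refine ⟨a, b, hb, h, ?_⟩
  have h1 : (loc D).ρ ⟨f, hf⟩ = D.ρ a / D.ρ b := locρ_eq ⟨f, hf⟩ hb h
  rw [h1, div_mul_cancel₀ _ hb]

end Loc

section Place

variable {L : Type*} [Field L] [IsAlgClosed L] {A : ValuationSubring L} {F Fb : Type*}
  [Field F] [Field Fb] [Algebra L F] [Algebra (ResidueField A) Fb]
  [IsAlgClosed (ResidueField A)] [FF.FunField L F] [FF.FunField (ResidueField A) Fb]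
  {D : RedData A F Fb} (C : TwoCharts D)

theorem mapDomain_redPl_dv {z : D.Z} (hz : D.ρ z ≠ 0) :
    Finsupp.mapDomain C.redPl (dv (z : F) : Divisor L F) = dv (D.ρ z) := by
  ext Q
  rw [dv_apply]
  exact C.mapDomain_div z hz (dv_apply _) Q

/-- reduction of places -/
def pRed : PRed (loc D) where
  r := C.redPl
  hdiv z hz := by
    obtain ⟨a, b, hb, h, hρ⟩ := exists_frac_loc z
    have ha : D.ρ a ≠ 0 := by rw [← hρ]; exact mul_ne_zero hz hb
    have hz0 : (z : F) ≠ 0 := coe_ne_zero' (loc D) hz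
    have hb0 : (b : F) ≠ 0 := coe_ne_zero' D hb
    have h1 : (dv (a : F) : Divisor L F) = dv (z : F) + dv (b : F) := by rw [← h, dv_mul hz0 hb0]
    have h2 : (dv (D.ρ a) : Divisor (ResidueField A) Fb) = dv ((loc D).ρ z) + dv (D.ρ b) := by
      rw [← hρ, dv_mul hz hb]
    have h3 := mapDomain_redPl_dv C ha
    rw [h1, Finsupp.mapDomain_add, mapDomain_redPl_dv C hb, h2] at h3
    exact add_right_cancel h3
  prim f hf := by
    obtain ⟨c, a, b, hc, ha, hb, h⟩ := C.h₁.exists_frac hf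
    have ha' := C.h₁.ρ_toZ_ne ha
    have hb' := C.h₁.ρ_toZ_ne hb
    have h' : f * ((C.h₁.toZ b : D.Z) : F) = algebraMap L F c * ((C.h₁.toZ a : D.Z) : F) := h
    have h1 : (c⁻¹ • f) * ((C.h₁.toZ b : D.Z) : F) = ((C.h₁.toZ a : D.Z) : F) := by
      rw [Algebra.smul_def, mul_assoc, h', ← mul_assoc, ← map_mul, inv_mul_cancel₀ hc, map_one,
        one_mul]
    refine ⟨c⁻¹, inv_ne_zero hc, ⟨c⁻¹ • f, ⟨_, _, hb', h1⟩⟩, rfl, ?_⟩
    have h2 : (loc D).ρ ⟨c⁻¹ • f, ⟨_, _, hb', h1⟩⟩ = D.ρ (C.h₁.toZ a) / D.ρ (C.h₁.toZ b) :=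
      locρ_eq ⟨c⁻¹ • f, ⟨_, _, hb', h1⟩⟩ hb' h1
    rw [h2]
    exact div_ne_zero ha' hb'
  surj := C.redPl_surjective

theorem pRed_r : (pRed C).r = C.redPl := rfl

/-- the chart function has its poles at the expected places -/
theorem reg_of_reg_redPl {P : Place L F} (h : Reg (C.redPl P) (D.ρ C.t₁)) :
    Reg P (C.t₁ : F) := by
  by_cases hg : C.GoodPl P
  · exact (inChart_iff P).mp (TwoCharts.GoodPl.inChart C hg)
  · exfalso
    rw [C.redPl_of_not hg] at h
    exact C.ρt₁_notMem_pl₂ (C.tb₂_mem_primeOf hg) h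

end Place

end Fermat.Agent.H02F
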