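import Mathlib
import Fermat.Agent.H02F.Ev

set_option autoImplicit false

/-! A separable coordinate is unramified at almost all places. -/

noncomputable section

open AlgebraicCurve Module Polynomial IntermediateField

namespace Fermat.Agent.H02F

variable {K F : Type*} [Field K] [Field F] [Algebra K F] [Crv K F]

theorem isUnram_aux {P : Place K F} {t α : F} (ht : Reg P t) (hα : Reg P α)
    (p : (Algebra.adjoin K {t})[X]) (hp : aeval α p = 0)
    (hp' : ev P (aeval α (derivative p)) ≠ 0) :
    ∀ (N : ℕ) (h : F), h ∈ Algebra.adjoin K {t, α} → h ≠ 0 → P.ord h ≤ N →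
      ∃ k : ℤ, P.ord h = k * P.ord (t - algebraMap K F (ev P t)) := by
  classical
  set B := Algebra.adjoin K {t, α} with hB
  set c := ev P t with hc
  set a := ev P α with ha
  have htB : t ∈ B := Algebra.subset_adjoin (by simp)
  have hαB : α ∈ B := Algebra.subset_adjoin (by simp)
  have hRB : Algebra.adjoin K {t} ≤ B := Algebra.adjoin_mono (by simp)
  have hKB : ∀ x : K, algebraMap K F x ∈ B := fun x => Subalgebra.algebraMap_mem B x
  have hregB : ∀ h ∈ B, Reg P h := by
    intro h hh
    induction hh using Algebra.adjoin_induction with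
    | mem x hx =>
      rcases hx with rfl | rfl
      · exact ht
      · exact hα
    | algebraMap x => exact reg_alg P x
    | add x y _ _ hx hy => exact hx.add hy
    | mul x y _ _ hx hy => exact hx.mul hy
  set τ := t - algebraMap K F c with hτ
  set β := α - algebraMap K F a with hβ
  have hτB : τ ∈ B := sub_mem htB (hKB c)
  have hβB : β ∈ B := sub_mem hαB (hKB a)
  have hvτ : Van P τ := van_sub_ev ht
  have hvβ : Van P β := van_sub_ev hα
  -- decomposition of elements of `B`
  have hdec : ∀ h ∈ B, ∃ x ∈ B, ∃ y ∈ B, h - algebraMap K F (ev P h) = τ * x + β * y := by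
    intro h hh
    induction hh using Algebra.adjoin_induction with
    | mem x hx =>
      rcases hx with rfl | rfl
      · exact ⟨1, one_mem _, 0, zero_mem _, by rw [hτ]; ring⟩
      · exact ⟨0, zero_mem _, 1, one_mem _, by rw [hβ]; ring⟩
    | algebraMap x => exact ⟨0, zero_mem _, 0, zero_mem _, by rw [ev_alg]; ring⟩
    | add x y hx hy ihx ihy =>
      obtain ⟨x1, hx1, y1, hy1, h1⟩ := ihx
      obtain ⟨x2, hx2, y2, hy2, h2⟩ := ihy
      refine ⟨x1 + x2, add_mem hx1 hx2, y1 + y2, add_mem hy1 hy2, ?_⟩
      rw [ev_add (hregB x hx) (hregB y hy), map_add]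
      linear_combination h1 + h2
    | mul x y hx hy ihx ihy =>
      obtain ⟨x1, hx1, y1, hy1, h1⟩ := ihx
      obtain ⟨x2, hx2, y2, hy2, h2⟩ := ihy
      refine ⟨x * x2 + algebraMap K F (ev P y) * x1, add_mem (mul_mem hx hx2)
        (mul_mem (hKB _) hx1), x * y2 + algebraMap K F (ev P y) * y1,
        add_mem (mul_mem hx hy2) (mul_mem (hKB _) hy1), ?_⟩
      rw [ev_mul (hregB x hx) (hregB y hy), map_mul]
      linear_combination x * h2 + algebraMap K F (ev P y) * h1
  have hdecR : ∀ h ∈ Algebra.adjoin K {t}, ∃ x ∈ B, h - algebraMap K F (ev P h) = τ * x := by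
    intro h hh
    induction hh using Algebra.adjoin_induction with
    | mem x hx =>
      rcases hx with rfl
      exact ⟨1, one_mem _, by rw [hτ]; ring⟩
    | algebraMap x => exact ⟨0, zero_mem _, by rw [ev_alg]; ring⟩
    | add x y hx hy ihx ihy =>
      obtain ⟨x1, hx1, h1⟩ := ihx
      obtain ⟨x2, hx2, h2⟩ := ihy
      refine ⟨x1 + x2, add_mem hx1 hx2, ?_⟩
      rw [ev_add (hregB x (hRB hx)) (hregB y (hRB hy)), map_add]
      linear_combination h1 + h2
    | mul x y hx hy ihx ihy =>
      obtain ⟨x1, hx1, h1⟩ := ihx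
      obtain ⟨x2, hx2, h2⟩ := ihy
      refine ⟨x * x2 + algebraMap K F (ev P y) * x1, add_mem (mul_mem (hRB hx) hx2)
        (mul_mem (hKB _) hx1), ?_⟩
      rw [ev_mul (hregB x (hRB hx)) (hregB y (hRB hy)), map_mul]
      linear_combination x * h2 + algebraMap K F (ev P y) * h1
  -- the relation between `β` and `τ`
  obtain ⟨u, hu, hu0, w, hw, huw⟩ : ∃ u ∈ B, ev P u ≠ 0 ∧ ∃ w ∈ B, u * β = τ * w := by
    let pB : B[X] := p.map (Subalgebra.inclusion hRB).toRingHom
    let αB : B := ⟨α, hαB⟩
    let βB : B := ⟨β, hβB⟩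
    have hev : ∀ (q : (Algebra.adjoin K {t})[X]) (x : B),
        (((q.map (Subalgebra.inclusion hRB).toRingHom).eval x : B) : F) = aeval (x : F) q := by
      intro q x
      rw [Polynomial.eval_map, Polynomial.aeval_def]
      have := Polynomial.hom_eval₂ q (Subalgebra.inclusion hRB).toRingHom B.val.toRingHom x
      exact this
    obtain ⟨k, hk⟩ := pB.binomExpansion αB (-βB)
    have h1 : pB.eval αB = 0 := Subtype.ext (by rw [hev]; exact hp)
    have h2 : ((pB.derivative.eval αB : B) : F) = aeval α (derivative p) := by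
      rw [Polynomial.derivative_map, hev]
    have h3 : αB + -βB = algebraMap K B a := Subtype.ext (by
      change α + -β = algebraMap K F a
      rw [hβ]; ring)
    rw [h1, h3] at hk
    refine ⟨aeval α (derivative p) - (k : F) * β, ?_, ?_, ?_⟩
    · rw [← h2]
      exact sub_mem (Subtype.prop _) (mul_mem k.2 hβB)
    · have hr1 : Reg P (aeval α (derivative p)) := by
        rw [← h2]; exact hregB _ (Subtype.prop _)
      have hr2 : Van P ((k : F) * β) := Van.mul_left (hregB _ k.2) hvβ
      rw [ev_sub hr1 hr2.reg, (ev_eq_zero_iff hr2.reg).mpr hr2, sub_zero]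
      exact hp'
    · have h4 : (aeval α (derivative p) - (k : F) * β) * β =
          -((pB.eval (algebraMap K B a) : B) : F) := by
        have h5 := congrArg (Subtype.val) hk
        have h6 : ((0 + pB.derivative.eval αB * -βB + k * (-βB) ^ 2 : B) : F) =
            aeval α (derivative p) * (-β) + (k : F) * (-β) ^ 2 := by
          rw [← h2]
          push_cast
          ring
        rw [h5]
        have h7 : (Subtype.val (0 + eval αB (derivative pB) * -βB + k * (-βB) ^ 2) : F) =
            ((0 + pB.derivative.eval αB * -βB + k * (-βB) ^ 2 : B) : F) := rfl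
        rw [h7, h6]
        ring
      have h8 : ((pB.eval (algebraMap K B a) : B) : F) ∈ Algebra.adjoin K {t} := by
        have h9 : ((pB.eval (algebraMap K B a) : B) : F) =
            ((p.eval (algebraMap K (Algebra.adjoin K {t}) a) : Algebra.adjoin K {t}) : F) := by
          rw [hev]
          change aeval (algebraMap K F a) p = _
          have h10 : algebraMap K F a =
            algebraMap (Algebra.adjoin K {t}) F (algebraMap K (Algebra.adjoin K {t}) a) := rfl
          rw [h10, Polynomial.aeval_algebraMap_apply, Polynomial.coe_aeval_eq_eval]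
          rfl
        rw [h9]
        exact Subtype.prop _
      obtain ⟨x, hx, hx2⟩ := hdecR _ h8
      have h11 : ev P ((pB.eval (algebraMap K B a) : B) : F) = 0 := by
        have h12 : ((pB.eval (algebraMap K B a) : B) : F) =
            -((aeval α (derivative p) - (k : F) * β) * β) := by rw [h4, neg_neg]
        have hr1 : Reg P (aeval α (derivative p)) := by
          rw [← h2]; exact hregB _ (Subtype.prop _)
        have hv : Van P ((pB.eval (algebraMap K B a) : B) : F) := by
          rw [h12]
          exact (Van.mul_left (hr1.sub ((hregB _ k.2).mul (hregB _ hβB))) hvβ).neg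
        exact (ev_eq_zero_iff hv.reg).mpr hv
      rw [h11, map_zero, sub_zero] at hx2
      exact ⟨-x, neg_mem hx, by rw [h4, hx2]; ring⟩
  have hune : u ≠ 0 := by
    rintro rfl
    exact hu0 (ev_zero P)
  have hou : P.ord u = 0 := by
    have h1 := reg_iff.mp (hregB u hu)
    by_contra hne
    exact hu0 ((ev_eq_zero_iff (hregB u hu)).mpr (Or.inr (lt_of_le_of_ne h1 (Ne.symm hne))))
  intro N
  induction N with
  | zero =>
    intro h hh hne hle
    have := reg_iff.mp (hregB h hh)
    exact ⟨0, by push_cast at hle; omega⟩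
  | succ N ih =>
    intro h hh hne hle
    have hnn := reg_iff.mp (hregB h hh)
    by_cases h0 : P.ord h = 0
    · exact ⟨0, by rw [h0]; ring⟩
    have hv : Van P h := Or.inr (lt_of_le_of_ne hnn (Ne.symm h0))
    obtain ⟨x, hx, y, hy, hxy⟩ := hdec h hh
    rw [(ev_eq_zero_iff hv.reg).mpr hv, map_zero, sub_zero] at hxy
    have h1 : u * h = τ * (u * x + w * y) := by
      rw [hxy]
      linear_combination y * huw
    have hne2 : u * h ≠ 0 := mul_ne_zero hune hne
    have hτne : τ ≠ 0 := by
      intro h2
      rw [h1, h2, zero_mul] at hne2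
      exact hne2 rfl
    have hh' : u * x + w * y ≠ 0 := by
      intro h2
      rw [h1, h2, mul_zero] at hne2
      exact hne2 rfl
    have hord : P.ord h = P.ord τ + P.ord (u * x + w * y) := by
      have h3 := congrArg P.ord h1
      rw [P.ord_mul hune hne, P.ord_mul hτne hh', hou, zero_add] at h3
      exact h3
    have hτpos : 0 < P.ord τ := hvτ.resolve_left hτne
    obtain ⟨k, hk⟩ := ih (u * x + w * y) (add_mem (mul_mem hu hx) (mul_mem hw hy)) hh' (by
      push_cast at hle ⊢
      omega)
    exact ⟨k + 1, by rw [hord, hk]; ring⟩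

open scoped IntermediateField.algebraAdjoinAdjoin in
theorem finite_ramified {t : F} (htr : Transcendental K t) [FiniteDimensional K⟮t⟯ F]
    [Algebra.IsSeparable K⟮t⟯ F] :
    {P : Place K F | Reg P t ∧ P.ord (t - algebraMap K F (ev P t)) ≠ 1}.Finite := by
  classical
  obtain ⟨α, hα⟩ := Field.exists_primitive_element K⟮t⟯ F
  let f₀ := minpoly K⟮t⟯ α
  have hint : IsIntegral K⟮t⟯ α := Algebra.IsIntegral.isIntegral α
  have hsep : f₀.Separable := Algebra.IsSeparable.isSeparable K⟮t⟯ α
  obtain ⟨b, hb⟩ := IsLocalization.integerNormalization_map_to_map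
    (nonZeroDivisors (Algebra.adjoin K {t})) f₀
  set p := IsLocalization.integerNormalization (nonZeroDivisors (Algebra.adjoin K {t})) f₀
  have hb0 : algebraMap (Algebra.adjoin K {t}) F (b : Algebra.adjoin K {t}) ≠ 0 := by
    have h1 := nonZeroDivisors.coe_ne_zero b
    intro h2
    exact h1 (Subtype.ext h2)
  have hmap : ∀ q : (Algebra.adjoin K {t})[X], aeval α q =
      aeval α (q.map (algebraMap (Algebra.adjoin K {t}) K⟮t⟯)) := by
    intro q
    rw [Polynomial.aeval_map_algebraMap]
  have hb' : p.map (algebraMap (Algebra.adjoin K {t}) K⟮t⟯) =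
      C (algebraMap (Algebra.adjoin K {t}) K⟮t⟯ (b : Algebra.adjoin K {t})) * f₀ := by
    rw [hb, ← Polynomial.smul_eq_C_mul]
    rfl
  have hp : aeval α p = 0 := by
    rw [hmap, hb', map_mul, minpoly.aeval, mul_zero]
  have hp' : aeval α (derivative p) ≠ 0 := by
    rw [hmap, ← Polynomial.derivative_map, hb', Polynomial.derivative_C_mul, map_mul,
      Polynomial.aeval_C]
    refine mul_ne_zero ?_ (hsep.aeval_derivative_ne_zero (minpoly.aeval _ _))
    exact hb0
  have htop : IntermediateField.adjoin K {t, α} = ⊤ := by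
    have h1 : IntermediateField.adjoin K {t, α} =
        (IntermediateField.adjoin K⟮t⟯ {α}).restrictScalars K := by
      rw [IntermediateField.adjoin_adjoin_left, Set.singleton_union]
    rw [h1, hα]
    rfl
  refine ((dv α : Divisor K F).support.finite_toSet.union
    (dv (aeval α (derivative p)) : Divisor K F).support.finite_toSet).subset ?_
  rintro P ⟨hPt, hP1⟩
  rw [Set.mem_union]
  by_contra hcon
  push Not at hcon
  obtain ⟨h1, h2⟩ := hcon
  rw [Finset.mem_coe, Finsupp.mem_support_iff, dv_apply, not_not] at h1 h2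
  apply hP1
  have key := isUnram_aux (P := P) (t := t) (α := α) hPt (reg_iff.mpr h1.ge) p hp
    (ev_ne_zero_of_ord hp' h2)
  obtain ⟨f, hf0, hf1⟩ := H18.exists_ord_eq_one P
  have hfm : f ∈ IntermediateField.adjoin K {t, α} := by rw [htop]; trivial
  obtain ⟨r, hr, s, hs, hrs⟩ := IntermediateField.mem_adjoin_iff_div.mp hfm
  have hs0 : s ≠ 0 := by
    rintro rfl
    rw [div_zero] at hrs
    exact hf0 hrs
  have hr0 : r ≠ 0 := by
    rintro rfl
    rw [zero_div] at hrs
    exact hf0 hrs
  obtain ⟨k, hk⟩ := key (P.ord r).toNat r hr hr0 (Int.self_le_toNat _)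
  obtain ⟨l, hl⟩ := key (P.ord s).toNat s hs hs0 (Int.self_le_toNat _)
  rw [hrs, div_eq_mul_inv, P.ord_mul hr0 (inv_ne_zero hs0), P.ord_inv, hk, hl] at hf1
  have hτ0 : t - algebraMap K F (ev P t) ≠ 0 := by
    intro h
    apply htr
    rw [sub_eq_zero.mp h]
    exact isAlgebraic_algebraMap _
  have hpos : 0 < P.ord (t - algebraMap K F (ev P t)) := (van_sub_ev hPt).resolve_left hτ0
  have hdvd : P.ord (t - algebraMap K F (ev P t)) ∣ 1 := ⟨k - l, by rw [← hf1]; ring⟩
  exact Int.eq_one_of_dvd_one hpos.le hdvd

end Fermat.Agent.H02F
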