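import Mathlib
import Fermat.Agent.H02F.LocRed
import Fermat.Agent.H02F.FixLift
import Fermat.Agent.H02F.Unram
import Fermat.Agent.H28.ModPlace
import Fermat.Agent.H27.ConstU
import Fermat.Agent.H05.HeckeInputs

set_option autoImplicit false
set_option linter.style.haveILetI false
set_option linter.unusedSectionVars false

/-! Places of the modular curve fixed by inertia. -/

noncomputable section

namespace Fermat.Agent.H02F

open ModularCurve AlgebraicCurve Module IsLocalRing Fermat.Agent.H28 IntermediateField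

instance isAlgClosed_res (A : ValuationSubring Qb) : IsAlgClosed (ResidueField A) :=
  H28.isAlgClosed_residueField A

instance funField_full' (k : Type*) [Field k] (M : ℕ) [NeZero M] :
    FF.FunField k (modularFunctionFieldFullC k M) := H05.funField_full k M

variable {M : ℕ} [NeZero M] {A : ValuationSubring Qb}

/-- Galois action on the modular function field -/
abbrev galM (M : ℕ) : GQ →* SemilinearAut Qb (modularFunctionFieldBar M) :=
  arithmeticGalois (modularFunctionFieldFull M)

theorem transcendental_tK (k : Type*) [Field k] [IsAlgClosed k] :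
    Transcendental k (H27.tK k M) := by
  have h := H05.transcendental_jF k M 1 (one_dvd M)
  have h1 : H05.jF k M 1 (one_dvd M) = H27.tK k M := by
    apply Subtype.ext
    exact qExpand_one_apply _
  rwa [h1] at h

theorem ρ_jZ_eq : (modRed M A).ρ (jZ M A) = H27.tK (ResidueField A) M :=
  Subtype.ext (ρ_jZ M A)

theorem ramified_finite (hM : (M : ResidueField A) ≠ 0) :
    {v : Place (ResidueField A) (modularFunctionFieldFullC (ResidueField A) M) |
      Reg v ((modRed M A).ρ (jZ M A)) ∧
      v.ord ((modRed M A).ρ (jZ M A) - algebraMap (ResidueField A) _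
        (ev v ((modRed M A).ρ (jZ M A)))) ≠ 1}.Finite := by
  rw [ρ_jZ_eq]
  haveI := H27.isSeparable_Fk (ResidueField A) M hM
  haveI := H27.finite_Fk (ResidueField A) M hM
  exact finite_ramified (transcendental_tK (ResidueField A))

variable (C : TwoCharts (modRed M A))

theorem redPl_smul_inertia (h₁ : (modRed M A).IsChart (jZ M A))
    (h₂ : (modRed M A).IsChart (jinvZ M A)) {σ : GQ} (hσ : σ ∈ A.inertiaSubgroupIn ℚ)
    (P : Place Qb (modularFunctionFieldBar M)) :
    (modCharts M A h₁ h₂).redPl (galM M σ • P) = (modCharts M A h₁ h₂).redPl P := by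
  obtain ⟨hd, hres⟩ := (H05.mem_inertiaSubgroupIn_iff A σ).mp hσ
  rw [(modRedAut h₁ h₂ hd).redPl_smul]
  apply place_ext_ord
  intro f
  have h1 := SemilinearAut.ord_smul (modRedAut h₁ h₂ hd).gB ((modCharts M A h₁ h₂).redPl P) f
  rwa [TwoCharts.RedAut.gB_smul, fullAut_eq_self M (decRes hd) hres] at h1

theorem mod_fixed_infinite (h₁ : (modRed M A).IsChart (jZ M A))
    (h₂ : (modRed M A).IsChart (jinvZ M A)) (hM : (M : ResidueField A) ≠ 0) {ℓ : ℕ}
    (hℓ : ℓ.Prime) (hA : A.LiesOverPrime ℓ) :
    ((pRed (modCharts M A h₁ h₂)).r '' {P | ∀ σ ∈ galM M '' (A.inertiaSubgroupIn ℚ : Set GQ),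
      σ • P = P}).Infinite := by
  apply (pRed (modCharts M A h₁ h₂)).fixed_infinite (toLoc (jZ M A))
  · rw [ρ_toLoc, ρ_jZ_eq]
    intro h
    exact jqModC_ne_zero_of_nontrivial (ResidueField A) (congrArg Subtype.val h)
  · intro P hP
    rw [ρ_toLoc] at hP
    exact reg_of_reg_redPl (modCharts M A h₁ h₂) hP
  · infer_instance
  · rw [ρ_toLoc]
    exact ramified_finite hM
  · rintro _ ⟨σ, -, rfl⟩
    exact smul_jBar
  · rintro _ ⟨σ, hσ, rfl⟩ P
    exact redPl_smul_inertia h₁ h₂ hσ P
  · intro x
    obtain ⟨c, hc, hc'⟩ := exists_inertia_lift hℓ hA x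
    refine ⟨c, hc, ?_⟩
    rintro _ ⟨σ, hσ, rfl⟩
    exact hc' σ hσ

end Fermat.Agent.H02F
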