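import Mathlib
import Fermat.Agent.H28.PullPic
import Fermat.Agent.H28.ModRed

set_option autoImplicit false
set_option linter.style.haveILetI false
set_option linter.unusedSectionVars false

/-! The pull-back `q ↦ q^r` on divisor classes is injective. -/

noncomputable section

namespace Fermat.Agent.H02F

open ModularCurve AlgebraicCurve Module

section Laurent

open Fermat.Agent.Igusa (twist uOp)

variable {L : Type*} [Field L] [IsAlgClosed L]

theorem exists_const_of_pow_eq_one {E : Type*} [Field E] [Algebra L E] {u : E} {m : ℕ}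
    (hm : 0 < m) (hu : u ^ m = 1) : ∃ η : L, algebraMap L E η = u := by
  have hint : IsIntegral L u := IsIntegral.of_pow hm (by rw [hu]; exact isIntegral_one)
  exact minpoly.mem_range_of_degree_eq_one L u
    (IsAlgClosed.degree_eq_one_of_irreducible L (minpoly.irreducible hint))

variable {r : ℕ} [NeZero r] {ζ : Lˣ} (hζ : IsPrimitiveRoot ζ r)

include hζ

theorem twist_eq_self_of_pow {x w : LaurentSeries L} (h : x ^ (r + 1) = qExpand L r w) :
    twist ζ x = x := by
  by_cases hx : x = 0
  · rw [hx, map_zero]
  have h1 : (twist ζ x) ^ (r + 1) = x ^ (r + 1) := by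
    rw [← map_pow, h, Igusa.twist_qExpand ζ r hζ.pow_eq_one]
  have h2 : (twist ζ x * x⁻¹) ^ (r + 1) = 1 := by
    rw [mul_pow, h1, inv_pow, mul_inv_cancel₀ (pow_ne_zero _ hx)]
  obtain ⟨η, hη⟩ := exists_const_of_pow_eq_one (L := L) (E := LaurentSeries L) (Nat.succ_pos r) h2
  have h3 : twist ζ x = algebraMap L (LaurentSeries L) η * x := by
    rw [hη, inv_mul_cancel_right₀ hx]
  have hc := HahnSeries.coeff_order_eq_zero.not.mpr hx
  have h4 : x.coeff x.order * ((ζ ^ x.order : Lˣ) : L) = η * x.coeff x.order := by
    have h5 := congrArg (fun y : LaurentSeries L => y.coeff x.order) h3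
    simp only [Igusa.twist_coeff] at h5
    rw [h5, algebraMap_laurentSeries_eq_single]
    have h6 := HahnSeries.coeff_single_mul_add (r := η) (x := x) (a := x.order) (b := 0)
    rwa [add_zero] at h6
  have h7 : ((ζ ^ x.order : Lˣ) : L) = η := by
    rw [mul_comm] at h4
    exact mul_right_cancel₀ hc h4
  have h8 : η ^ (r + 1) = 1 := by
    apply (algebraMap L (LaurentSeries L)).injective
    rw [map_pow, hη, h2, map_one]
  have h9 : (ζ ^ x.order) ^ (r + 1) = 1 := by
    apply Units.ext
    rw [Units.val_pow_eq_pow_val, h7, h8, Units.val_one]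
  have h10 : (ζ ^ x.order) ^ r = 1 := by
    rw [← zpow_natCast, ← zpow_mul, mul_comm, zpow_mul, zpow_natCast, hζ.pow_eq_one, one_zpow]
  have h11 : ζ ^ x.order = 1 := by
    rw [pow_succ, h10, one_mul] at h9
    exact h9
  rw [h3, ← h7, h11, Units.val_one, map_one, one_mul]

theorem exists_qExpand_of_twist {x : LaurentSeries L} (h : twist ζ x = x) :
    ∃ w, x = qExpand L r w := by
  refine ⟨uOp r x, ?_⟩
  ext n
  by_cases hn : (r : ℤ) ∣ n
  · obtain ⟨m, rfl⟩ := hn
    rw [qExpand_coeff_mul]
    rfl
  · rw [qExpand_coeff_of_not_dvd r _ hn]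
    have h1 := congrArg (fun y : LaurentSeries L => y.coeff n) h
    simp only [Igusa.twist_coeff] at h1
    by_contra hc
    apply hn
    have h2 : ((ζ ^ n : Lˣ) : L) = 1 := by
      have h3 : x.coeff n * ((ζ ^ n : Lˣ) : L) = x.coeff n * 1 := by rw [h1, mul_one]
      exact mul_left_cancel₀ hc h3
    have h4 : ζ ^ n = 1 := Units.ext h2
    exact (hζ.zpow_eq_one_iff_dvd n).mp h4

end Laurent

section Degree

variable {L : Type*} [Field L]

/-- a sum of series with pairwise distinct orders does not vanish -/
theorem sum_ne_zero_of_order {ι : Type*} (s : Finset ι) (t : ι → LaurentSeries L) {i₁ : ι}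
    (hi₁ : i₁ ∈ s) (h1 : t i₁ ≠ 0)
    (h : ∀ i ∈ s, ∀ j ∈ s, t i ≠ 0 → t j ≠ 0 → (t i).order = (t j).order → i = j) :
    ∑ i ∈ s, t i ≠ 0 := by
  classical
  obtain ⟨i₀, hi₀, hmin⟩ := Finset.exists_min_image (s.filter fun i => t i ≠ 0)
    (fun i => (t i).order) ⟨i₁, Finset.mem_filter.mpr ⟨hi₁, h1⟩⟩
  rw [Finset.mem_filter] at hi₀
  intro h0
  have h2 := congrArg (fun y : LaurentSeries L => y.coeff (t i₀).order) h0
  simp only [HahnSeries.coeff_sum, HahnSeries.coeff_zero] at h2
  rw [Finset.sum_eq_single i₀] at h2
  · exact HahnSeries.coeff_order_eq_zero.not.mpr hi₀.2 h2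
  · intro j hj hji
    by_cases hj0 : t j = 0
    · rw [hj0, HahnSeries.coeff_zero]
    · apply HahnSeries.coeff_eq_zero_of_lt_order
      refine lt_of_le_of_ne (hmin j (Finset.mem_filter.mpr ⟨hj, hj0⟩)) fun he => ?_
      exact hji (h i₀ hi₀.1 j hj hi₀.2 hj0 he).symm
  · intro h3
    exact absurd hi₀.1 h3

variable {F : Type*} [Field F] {r : ℕ} [NeZero r] {E : Type*} [Field E]

/-- over a subfield of `L((q^r))`, the degree of a field containing a series of order `-1` is
at least `r` -/
theorem le_finrank_of_order [Algebra E F] (e : F →+* LaurentSeries L)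
    [FiniteDimensional E F]
    (hE : ∀ x : E, ∃ w, e (algebraMap E F x) = qExpand L r w) {j : F}
    (hj : (e j).order = -1) : r ≤ finrank E F := by
  have hj0 : e j ≠ 0 := by
    intro h
    rw [h, HahnSeries.order_zero] at hj
    norm_num at hj
  have hli : LinearIndependent E (fun i : Fin r => j ^ (i : ℕ)) := by
    rw [Fintype.linearIndependent_iff]
    intro g hg
    by_contra hne
    push Not at hne
    obtain ⟨i₁, hi₁⟩ := hne
    have hord : ∀ i : Fin r, g i ≠ 0 → ∃ m : ℤ, (e (algebraMap E F (g i) * j ^ (i : ℕ))).order =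
        r * m - i := by
      intro i hi
      obtain ⟨w, hw⟩ := hE (g i)
      have hw0 : w ≠ 0 := by
        rintro rfl
        rw [map_zero] at hw
        apply hi
        exact (algebraMap E F).injective (e.injective (by rw [hw, map_zero, map_zero]))
      refine ⟨w.order, ?_⟩
      rw [map_mul, map_pow, HahnSeries.order_mul (by
        rw [hw]; exact Igusa.qExpand_ne_zero r hw0) (pow_ne_zero _ hj0), HahnSeries.order_pow, hj,
        hw, Igusa.order_qExpand r hw0]
      simp only [nsmul_eq_mul, mul_neg, mul_one]
      ring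
    have hterm : ∀ i : Fin r, e (algebraMap E F (g i) * j ^ (i : ℕ)) ≠ 0 → g i ≠ 0 := by
      intro i hi h0
      apply hi
      rw [h0, map_zero, zero_mul, map_zero]
    apply sum_ne_zero_of_order (L := L) Finset.univ
      (fun i : Fin r => e (algebraMap E F (g i) * j ^ (i : ℕ))) (Finset.mem_univ i₁)
    · intro h
      have h2 := e.injective (h.trans (map_zero e).symm)
      rcases mul_eq_zero.mp h2 with h3 | h3
      · exact hi₁ ((algebraMap E F).injective (by rw [h3, map_zero]))
      · have hj1 : j ≠ 0 := by
          rintro rfl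
          exact hj0 (map_zero e)
        exact pow_ne_zero _ hj1 h3
    · intro i _ k _ hi hk hik
      obtain ⟨m, hm⟩ := hord i (hterm i hi)
      obtain ⟨m', hm'⟩ := hord k (hterm k hk)
      rw [hm, hm'] at hik
      have h1 := i.2
      have h2 := k.2
      apply Fin.ext
      have h3 : (r : ℤ) * (m - m') = (i : ℤ) - k := by linarith
      have h4 : m - m' = 0 := by
        by_contra h5
        rcases lt_or_gt_of_ne h5 with h6 | h6
        · have h7 : (r : ℤ) * (m - m') ≤ r * (-1) := by
            apply mul_le_mul_of_nonneg_left _ (by positivity)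
            omega
          omega
        · have h7 : (r : ℤ) * 1 ≤ r * (m - m') := by
            apply mul_le_mul_of_nonneg_left _ (by positivity)
            omega
          omega
      rw [h4, mul_zero] at h3
      omega
    · rw [← map_sum, ← map_zero e]
      congr 1
      rw [← hg]
      exact Finset.sum_congr rfl fun i _ => (Algebra.smul_def _ _).symm
  have := hli.fintype_card_le_finrank
  rwa [Fintype.card_fin] at this

end Degree

section Bar

local notation "Qb" => AlgebraicClosure ℚ

variable {N r : ℕ} [NeZero N] [NeZero r]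

/-- functions of level `N r` in `q^r` come from level `N` -/
theorem exists_of_eq_qExpand (hr : r.Prime) (hrN : ¬ r ∣ N) {x : modularFunctionFieldBar (N * r)}
    {w : LaurentSeries Qb} (hx : (x : LaurentSeries Qb) = qExpand Qb r w) :
    ∃ y : modularFunctionFieldBar N, heckeBetaBar Qb N r y = x := by
  haveI : Fact r.Prime := ⟨hr⟩
  letI := algebraAlong (heckeBetaBar Qb N r)
  haveI := isScalarTower_along (heckeBetaBar Qb N r)
  let E : IntermediateField (modularFunctionFieldBar N) (modularFunctionFieldBar (N * r)) :=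
    { carrier := {x | ∃ w, (x : LaurentSeries Qb) = qExpand Qb r w}
      mul_mem' := by
        rintro a b ⟨w, hw⟩ ⟨w', hw'⟩
        exact ⟨w * w', by
          change (a : LaurentSeries Qb) * (b : LaurentSeries Qb) = _
          rw [hw, hw', map_mul]⟩
      one_mem' := ⟨1, by rw [map_one]; rfl⟩
      add_mem' := by
        rintro a b ⟨w, hw⟩ ⟨w', hw'⟩
        exact ⟨w + w', by
          change (a : LaurentSeries Qb) + (b : LaurentSeries Qb) = _
          rw [hw, hw', map_add]⟩
      zero_mem' := ⟨0, by rw [map_zero]; rfl⟩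
      algebraMap_mem' := fun a => ⟨(a : LaurentSeries Qb), coe_heckeBetaBar N r a⟩
      inv_mem' := by
        rintro a ⟨w, hw⟩
        exact ⟨w⁻¹, by
          change (a : LaurentSeries Qb)⁻¹ = _
          rw [hw, map_inv₀]⟩ }
  have hfin : finrank (modularFunctionFieldBar N) (modularFunctionFieldBar (N * r)) = r + 1 :=
    Igusa.finrank_beta Qb N r hrN
  haveI : FiniteDimensional (modularFunctionFieldBar N) (modularFunctionFieldBar (N * r)) :=
    H05.finiteAlong_beta Qb N r
  have hmul : finrank (modularFunctionFieldBar N) E * finrank E (modularFunctionFieldBar (N * r)) =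
      r + 1 := by
    rw [Module.finrank_mul_finrank, hfin]
  have hge : r ≤ finrank E (modularFunctionFieldBar (N * r)) := by
    refine le_finrank_of_order (L := Qb) (r := r) (E := E)
      (F := modularFunctionFieldBar (N * r))
      ((modularFunctionFieldBar (N * r)).val.toRingHom)
      (fun x => x.2) (j := H28.jBar (N * r)) ?_
    exact Igusa.order_jqModC
  have hr2 := hr.two_le
  have h1 : finrank (modularFunctionFieldBar N) E = 1 := by
    have h2 : 0 < finrank (modularFunctionFieldBar N) E := by
      rw [Nat.pos_iff_ne_zero]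
      intro h
      rw [h, zero_mul] at hmul
      omega
    by_contra h3
    have h4 : 2 * r ≤ finrank (modularFunctionFieldBar N) E *
        finrank E (modularFunctionFieldBar (N * r)) := Nat.mul_le_mul (by omega) hge
    omega
  have h2 : E = ⊥ := IntermediateField.finrank_eq_one_iff.mp h1
  have h3 : x ∈ E := ⟨w, hx⟩
  rw [h2, IntermediateField.mem_bot] at h3
  exact h3

end Bar

end Fermat.Agent.H02F
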