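import Mathlib
import Fermat.Agent.H02F.PullInj
import Fermat.Agent.H02F.Inst

set_option autoImplicit false
set_option linter.style.haveILetI false
set_option linter.unusedSectionVars false

/-! The pull-back `q ↦ q^r` on divisor classes is injective. -/

noncomputable section

namespace Fermat.Agent.H02F

open ModularCurve AlgebraicCurve Module

theorem pic0_mk_eq_zero_iff {K F : Type*} [Field K] [Field F] [Algebra K F]
    [HasPrincipalDivisors K F] (E : Divisor.degZero (K := K) (F := F)) :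
    Pic0.mk E = 0 ↔ (E : Divisor K F) ∈ Divisor.principal (K := K) (F := F) := by
  refine (QuotientAddGroup.eq_zero_iff _).trans ?_
  rw [AddSubgroup.mem_addSubgroupOf]

theorem exists_const_of_ord {K F : Type*} [Field K] [Field F] [Algebra K F] [Crv K F] {f g : F}
    (hf : f ≠ 0) (hg : g ≠ 0) (h : ∀ v : Place K F, v.ord g = v.ord f) :
    ∃ c : K, c ≠ 0 ∧ g = c • f := by
  obtain ⟨c, hc⟩ := smul_of_dv_le (K := K) hf (g := g) (by
    rw [mem_RR_of_ne hg]
    intro v
    rw [Finsupp.neg_apply, dv_apply, h v, add_neg_cancel])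
  refine ⟨c, ?_, hc⟩
  rintro rfl
  rw [zero_smul] at hc
  exact hg hc

local notation "Qb" => AlgebraicClosure ℚ

variable {N r : ℕ} [NeZero N] [NeZero r]

theorem restrictAlong_surjective_beta (hr : r.Prime) (hrN : ¬ r ∣ N)
    (v : Place Qb (modularFunctionFieldBar N)) :
    ∃ W : Place Qb (modularFunctionFieldBar (N * r)),
      W.restrictAlong (heckeBetaBar Qb N r) (H05.heckeBetaBarIntegral Qb N r) = v := by
  haveI : Fact r.Prime := ⟨hr⟩
  have h1 := H28.sum_ram (heckeBetaBar Qb N r) (H05.heckeBetaBarIntegral Qb N r)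
    (H05.deg_eq_one_bc Qb N) (H05.deg_eq_one_bc Qb (N * r))
    (H05.fundamentalIdentityAlong_of _ _ (H05.finiteAlong_beta Qb N r)) v
  rw [Igusa.finrank_beta Qb N r hrN] at h1
  by_contra hne
  push Not at hne
  have h2 : Place.fiberAlong (heckeBetaBar Qb N r) (H05.heckeBetaBarIntegral Qb N r) v = ∅ := by
    rw [Finset.eq_empty_iff_forall_notMem]
    intro W hW
    exact hne W (Place.mem_fiberAlong.mp hW)
  rw [h2, Finset.sum_empty] at h1
  omega

/-- **the pull-back along `q ↦ q^r` is injective** -/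
theorem pullR_injective (hr : r.Prime) (hrN : ¬ r ∣ N) :
    Function.Injective (H28.pullR N r) := by
  rw [injective_iff_map_eq_zero]
  intro x hx
  obtain ⟨E, rfl⟩ := Pic0.mk_surjective x
  have h1 := H28.nsmul_eq_zero_of_pullR N r hr hrN hx
  have h1' : Pic0.mk ((r + 1) • E) = 0 := h1
  rw [pic0_mk_eq_zero_iff] at h1'
  obtain ⟨f, hf, hfE⟩ := h1'
  rw [H28.pullR_mk, pic0_mk_eq_zero_iff] at hx
  obtain ⟨h, hh, hhE⟩ := hx
  have hβf : heckeBetaBar Qb N r f ≠ 0 := by
    rw [ne_eq, map_eq_zero]; exact hf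
  have hW : ∀ W : Place Qb (modularFunctionFieldBar (N * r)),
      W.ord h = Place.ramificationIndexAlong (heckeBetaBar Qb N r) W *
        (E : Divisor Qb (modularFunctionFieldBar N))
          (W.restrictAlong (heckeBetaBar Qb N r) (H05.heckeBetaBarIntegral Qb N r)) := by
    intro W
    rw [← hhE W]
    exact Divisor.pullbackAlong_apply _ _ _ _
  obtain ⟨c, hc, hcf⟩ := exists_const_of_ord (K := Qb) hβf (pow_ne_zero (r + 1) hh) (by
    intro W
    rw [H18.ord_pow, hW, Place.ord_restrictAlong _ (H05.heckeBetaBarIntegral Qb N r),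
      ← hfE]
    change _ = _ * ((r + 1) • (E : Divisor Qb (modularFunctionFieldBar N))) _
    rw [Finsupp.smul_apply, nsmul_eq_mul]
    push_cast
    ring)
  have h2 : ((h : LaurentSeries Qb)) ^ (r + 1) =
      qExpand Qb r ((algebraMap Qb _ c * f : modularFunctionFieldBar N) : LaurentSeries Qb) := by
    rw [← coe_heckeBetaBar, map_mul, AlgHom.commutes, ← Algebra.smul_def, ← hcf]
    rfl
  obtain ⟨z, hz⟩ := HasEnoughRootsOfUnity.exists_primitiveRoot Qb r
  have h3 := twist_eq_self_of_pow (hz.isUnit_unit (NeZero.ne r)) h2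
  obtain ⟨w, hw⟩ := exists_qExpand_of_twist (hz.isUnit_unit (NeZero.ne r)) h3
  obtain ⟨g, hg⟩ := exists_of_eq_qExpand hr hrN hw
  have hg0 : g ≠ 0 := by
    rintro rfl
    rw [map_zero] at hg
    exact hh hg.symm
  rw [pic0_mk_eq_zero_iff]
  refine ⟨g, hg0, fun v => ?_⟩
  obtain ⟨W, rfl⟩ := restrictAlong_surjective_beta hr hrN v
  have h4 := hW W
  rw [← hg, Place.ord_restrictAlong _ (H05.heckeBetaBarIntegral Qb N r)] at h4
  have h5 := H28.ram_pos (heckeBetaBar Qb N r) (H05.heckeBetaBarIntegral Qb N r) W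
  have h6 : ((Place.ramificationIndexAlong (heckeBetaBar Qb N r) W : ℕ) : ℤ) ≠ 0 := by
    exact_mod_cast h5.ne'
  exact (mul_left_cancel₀ h6 h4).symm

end Fermat.Agent.H02F
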