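import Mathlib
import Fermat.Agent.H02F.ModFix
import Fermat.Agent.H02F.Gal
import Fermat.Agent.H02F.PullInj2
import Fermat.Agent.H29.GR
import Fermat.Agent.H11Q.LevelMod
import Fermat.Agent.H09.DescE
import Fermat.Agent.H19.HopfG
import Fermat.Agent.H12.OpenStab
import Fermat.Agent.FF.L7

set_option autoImplicit false
set_option linter.style.haveILetI false
set_option linter.unusedSectionVars false

/-! Hopf orders in the torsion of the modular Jacobian. -/

noncomputable section

namespace Fermat.Agent.H02F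

open ModularCurve AlgebraicCurve Module IsLocalRing Fermat.Agent.H28

/-- Galois action on the torsion of the Jacobian -/
def torAct (N : ℕ) [NeZero N] (n : ℤ) :
    GQ →* AddMonoid.End (Submodule.torsionBy ℤ (JZero N) n) where
  toFun σ :=
    { toFun := fun x => ⟨σ • (x : JZero N), by
        rw [Submodule.mem_torsionBy_iff, smul_comm,
          (Submodule.mem_torsionBy_iff _ _).mp x.2, smul_zero]⟩
      map_zero' := Subtype.ext (smul_zero σ)
      map_add' := fun x y => Subtype.ext (smul_add σ (x : JZero N) (y : JZero N)) }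
  map_one' := by
    ext x
    exact one_smul GQ (x : JZero N)
  map_mul' σ τ := by
    ext x
    exact mul_smul σ τ (x : JZero N)

@[simp] theorem coe_torAct (N : ℕ) [NeZero N] (n : ℤ) (σ : GQ)
    (x : Submodule.torsionBy ℤ (JZero N) n) :
    ((torAct N n σ x : Submodule.torsionBy ℤ (JZero N) n) : JZero N) = σ • (x : JZero N) := rfl

theorem finite_torsionBy (N : ℕ) [NeZero N] {m : ℕ} (hm : 0 < m) :
    Finite (Submodule.torsionBy ℤ (JZero N) (m : ℤ)) := by
  have h1 := FF.card_torsion Qb (modularFunctionFieldBar N) m hm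
  have h2 : Finite (Pic0.torsion Qb (modularFunctionFieldBar N) m) := by
    apply Nat.finite_of_card_ne_zero
    rw [h1]
    positivity
  exact h2

theorem openKer_torAct (N : ℕ) [NeZero N] (n : ℤ)
    [Finite (Submodule.torsionBy ℤ (JZero N) n)] : H09.OpenKer (torAct N n) := by
  choose U hU hU' using H12.exists_open_pic0 (modularFunctionFieldFull N)
  let V : Subgroup GQ := ⨅ x : Submodule.torsionBy ℤ (JZero N) n, U (x : JZero N)
  have hV : IsOpen (V : Set GQ) := by
    rw [Subgroup.coe_iInf]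
    exact isOpen_iInter_of_finite fun w => hU w
  have h1 : (V : Set GQ) ∈ nhds (1 : GQ) := hV.mem_nhds (one_mem V)
  rw [krullTopology_mem_nhds_one_iff] at h1
  obtain ⟨E, hE, hEV⟩ := h1
  refine ⟨E, hE, fun σ hσ => ?_⟩
  have h2 : σ ∈ V := hEV hσ
  rw [Subgroup.mem_iInf] at h2
  ext x
  exact hU' _ σ (h2 x)

theorem hasHopf_of_subsingleton {ℓ : ℕ} {M : Type*} [AddCommGroup M] [Subsingleton M]
    (act : GQ →* AddMonoid.End M) : H19.HasHopf ℓ act := by
  refine ⟨⊥, ⟨?_, ?_, ?_, ?_⟩⟩
  · rw [Algebra.toSubmodule_bot, Submodule.one_eq_span]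
    exact Submodule.fg_span (Set.finite_singleton _)
  · intro φ hφ σ m
    obtain ⟨r, rfl⟩ := Algebra.mem_bot.mp hφ
    change algebraMap (GaloisRep.ratLocalizedAt ℓ) Qb r =
      σ (algebraMap (GaloisRep.ratLocalizedAt ℓ) Qb r)
    have h1 : algebraMap (GaloisRep.ratLocalizedAt ℓ) Qb r = algebraMap ℚ Qb (r : ℚ) := rfl
    rw [h1, σ.commutes]
  · intro x y hxy
    exact absurd (Subsingleton.elim x y) hxy
  · intro φ hφ
    refine ⟨1, fun _ => φ, fun _ => 1, fun _ => hφ, fun _ => one_mem _, fun x y => ?_⟩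
    simp only [Finset.univ_unique, Finset.sum_const, Finset.card_singleton, one_smul,
      Pi.one_apply, mul_one]
    rw [Subsingleton.elim (x + y) x]

section Zero

variable {K F : Type*} [Field K] [Field F] [Algebra K F] [IsAlgClosed K] [FF.FunField K F]

theorem pic0_subsingleton (h : genusFF K F = 0) : Subsingleton (Pic0 K F) := by
  refine ⟨fun x y => ?_⟩
  have key : ∀ z : Pic0 K F, z = 0 := by
    intro z
    obtain ⟨E, rfl⟩ := Pic0.mk_surjective z
    rw [pic0_mk_eq_zero_iff]
    have hE : Divisor.degree (E : Divisor K F) = 0 := Divisor.mem_degZero.mp E.2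
    have h1 := lb_of_funField (K := K) (F := F) (E : Divisor K F)
    rw [hE, h] at h1
    obtain ⟨f, hf, hf0⟩ := exists_ne_zero_of_h0_pos (show 0 < h0 (E : Divisor K F) by omega)
    have h2 := (mem_RR_iff_dv hf0).mp hf
    have h3 := eq_zero_of_nonneg_of_degree h2 (by rw [map_add, degree_dv, hE, add_zero])
    have h4 : (E : Divisor K F) = dv f⁻¹ := by
      rw [dv_inv]
      exact eq_neg_of_add_eq_zero_right h3
    rw [h4]
    exact dv_mem_principal (inv_ne_zero hf0)
  rw [key x, key y]

end Zero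

variable {M : ℕ} [NeZero M] {A : ValuationSubring Qb} {ℓ : ℕ} (hℓ : ℓ.Prime)
  (hA : A.LiesOverPrime ℓ)
  (hyp : ¬ ℓ ∣ M ∧ ((2 ∣ M ∧ ℓ ≠ 2) ∨ (3 ∣ M ∧ ℓ ≠ 3)))

/-- the two charts at good levels -/
def chM : TwoCharts (modRed M A) :=
  modCharts M A (H29.isChart_j hℓ hA hyp) (H29.isChart_jinv hℓ hA hyp)

include hℓ hA in
theorem natCast_res_ne_zero (h : ¬ ℓ ∣ M) : (M : ResidueField A) ≠ 0 := by
  have hchar : CharP (ResidueField A) ℓ := H05.charP_residueField hℓ hA
  rw [ne_eq, CharP.cast_eq_zero_iff (ResidueField A) ℓ]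
  exact h

/-- representative divisor of a torsion class -/
def repD (n : ℤ) (x : Submodule.torsionBy ℤ (JZero M) n) : Divisor.degZero
    (K := Qb) (F := modularFunctionFieldBar M) := (Pic0.mk_surjective (x : JZero M)).choose

theorem mk_repD (n : ℤ) (x : Submodule.torsionBy ℤ (JZero M) n) :
    Pic0.mk (repD n x) = (x : JZero M) := (Pic0.mk_surjective (x : JZero M)).choose_spec

theorem leq_iff_mk {K F : Type*} [Field K] [Field F] [Algebra K F] [HasPrincipalDivisors K F]
    (D D' : Divisor.degZero (K := K) (F := F)) :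
    Leq (D : Divisor K F) (D' : Divisor K F) ↔ Pic0.mk D = Pic0.mk D' := by
  have h1 : Pic0.mk D = Pic0.mk D' ↔ Pic0.mk (D - D') = 0 := by
    have h2 : (Pic0.mk (D - D') : Pic0 K F) = Pic0.mk D - Pic0.mk D' := rfl
    rw [h2, sub_eq_zero]
  rw [h1, pic0_mk_eq_zero_iff]
  rfl

/-- the context of kernel functions on the torsion of the modular Jacobian -/
def ctxM (n : ℤ) (g : ℕ) (hg : genusFF Qb (modularFunctionFieldBar M) = g + 1) :
    Ctx (loc (modRed M A)) (Submodule.torsionBy ℤ (JZero M) n) where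
  C := pRed (chM hℓ hA hyp)
  n := g
  lb E := by
    have h1 := lb_of_funField (K := Qb) (F := modularFunctionFieldBar M) E
    rw [hg] at h1
    push_cast at h1
    omega
  ub := by
    have h1 := ub_special (H11Q.cuspMod hℓ hA (natCast_res_ne_zero hℓ hA hyp.1)
      (chM hℓ hA hyp) rfl)
    rw [hg] at h1
    exact_mod_cast h1
  d x := (repD n x : Divisor Qb (modularFunctionFieldBar M))
  deg_d x := Divisor.mem_degZero.mp (repD n x).2
  d_add x y := by
    have h1 : ((repD n x : Divisor Qb (modularFunctionFieldBar M)) +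
        (repD n y : Divisor Qb (modularFunctionFieldBar M))) =
        ((repD n x + repD n y : Divisor.degZero (K := Qb) (F := modularFunctionFieldBar M)) :
          Divisor Qb (modularFunctionFieldBar M)) := rfl
    rw [h1, leq_iff_mk, mk_repD]
    have h2 : (Pic0.mk (repD n x + repD n y) : JZero M) = Pic0.mk (repD n x) +
      Pic0.mk (repD n y) := rfl
    rw [h2, mk_repD, mk_repD]
    rfl
  d_inj x y h := by
    rw [leq_iff_mk, mk_repD, mk_repD] at h
    exact Subtype.ext h
  I := galM M '' (A.inertiaSubgroupIn ℚ : Set GQ)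
  inf := mod_fixed_infinite (H29.isChart_j hℓ hA hyp) (H29.isChart_jinv hℓ hA hyp)
    (natCast_res_ne_zero hℓ hA hyp.1) hℓ hA

theorem gB_smul_principal {K E : Type*} [Field K] [Field E] [Algebra K E] [Crv K E]
    (σ : SemilinearAut K E) {D : Divisor K E} (h : h0 D = 0) : h0 (σ • D) = 0 := by
  by_contra hne
  obtain ⟨f, hf, hf0⟩ := exists_ne_zero_of_h0_pos (Nat.pos_of_ne_zero hne)
  have h1 := smul_mem_RR σ⁻¹ hf
  rw [inv_smul_smul] at h1
  have h2 : σ⁻¹ • f ≠ 0 := by rw [smul_ne_zero_iff_ne]; exact hf0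
  exact (h0_pos_of_mem h1 h2).ne' h

theorem rd_smul {σ : GQ} (hσ : σ ∈ A.decompositionSubgroup ℚ)
    (E : Divisor Qb (modularFunctionFieldBar M)) :
    (pRed (chM hℓ hA hyp)).rd (galM M σ • E) =
      (modRedAut (H29.isChart_j hℓ hA hyp) (H29.isChart_jinv hℓ hA hyp) hσ).gB •
        (pRed (chM hℓ hA hyp)).rd E := by
  induction E using Finsupp.induction_linear with
  | zero => rw [smul_zero, map_zero, smul_zero]
  | add a b ha hb => rw [smul_add, map_add, ha, hb, map_add, smul_add]
  | single P n =>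
    rw [SemilinearAut.smul_single, PRed.rd_single, PRed.rd_single, SemilinearAut.smul_single]
    congr 1
    exact (modRedAut (H29.isChart_j hℓ hA hyp) (H29.isChart_jinv hℓ hA hyp) hσ).redPl_smul P

include hℓ hyp in
/-- the torsion of the Jacobian has a Hopf order at good levels -/
theorem hasHopf_good {m : ℕ} (hm : 0 < m) : H19.HasHopf ℓ (torAct M (m : ℤ)) := by
  haveI := finite_torsionBy M hm
  rcases Nat.eq_zero_or_pos (genusFF Qb (modularFunctionFieldBar M)) with h0 | hpos
  · haveI : Subsingleton (JZero M) := pic0_subsingleton h0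
    exact hasHopf_of_subsingleton _
  obtain ⟨g, hg⟩ : ∃ g, genusFF Qb (modularFunctionFieldBar M) = g + 1 :=
    ⟨_, (Nat.succ_pred_eq_of_pos hpos).symm⟩
  obtain ⟨A, hA⟩ : ∃ A : ValuationSubring Qb, A.LiesOverPrime ℓ :=
    H05.exists_liesOverPrime Qb hℓ
  have h := localHopf (ctxM hℓ hA hyp (m : ℤ) g hg) (torAct M (m : ℤ)) (galM M)
    (fun σ a => rfl) rfl (fun σ x => ?_) (fun σ hσ E hE => ?_) (fun σ hσ P Q hPQ => ?_)
  · exact H09.exists_isHopfOrder (openKer_torAct M (m : ℤ)) hℓ hA h
  · change Leq (galM M σ • (repD (m : ℤ) x : Divisor Qb (modularFunctionFieldBar M)))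
      (repD (m : ℤ) (torAct M (m : ℤ) σ x) : Divisor Qb (modularFunctionFieldBar M))
    have h1 : Pic0.mk (SemilinearAut.degZeroSMulHom (galM M σ) (repD (m : ℤ) x)) =
        Pic0.mk (repD (m : ℤ) (torAct M (m : ℤ) σ x)) := by
      rw [mk_repD, coe_torAct, galois_smul_pic0_def, ← mk_repD (m : ℤ) x,
        SemilinearAut.pic0_smul_mk]
    rw [← leq_iff_mk] at h1
    exact h1
  · change H02F.h0 ((pRed (chM hℓ hA hyp)).rd (galM M σ • E)) = 0
    rw [rd_smul hℓ hA hyp hσ]
    exact gB_smul_principal _ hE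
  · have h1 : (chM hℓ hA hyp).redPl (galM M σ • P) = (chM hℓ hA hyp).redPl (galM M σ • Q) := hPQ
    have h2 := (modRedAut (H29.isChart_j hℓ hA hyp) (H29.isChart_jinv hℓ hA hyp) hσ).redPl_smul P
    have h3 := (modRedAut (H29.isChart_j hℓ hA hyp) (H29.isChart_jinv hℓ hA hyp) hσ).redPl_smul Q
    change (chM hℓ hA hyp).redPl P = (chM hℓ hA hyp).redPl Q
    have h4 := h2.symm.trans (h1.trans h3)
    exact smul_left_cancel _ h4

end Fermat.Agent.H02F
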