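import Mathlib
import Fermat.Agent.H02F.ModHopf

set_option autoImplicit false
set_option linter.style.haveILetI false
set_option linter.unusedSectionVars false

/-! Hopf orders in the torsion of the modular Jacobian, at all levels. -/

noncomputable section

namespace Fermat.Agent.H02F

open ModularCurve AlgebraicCurve Module IsLocalRing Fermat.Agent.H28

/-- pull-back on torsion -/
def pullTor (N r : ℕ) [NeZero N] [NeZero r] (n : ℤ) :
    Submodule.torsionBy ℤ (JZero N) n →+ Submodule.torsionBy ℤ (JZero (N * r)) n where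
  toFun x := ⟨pullR N r (x : JZero N), by
    rw [Submodule.mem_torsionBy_iff, ← map_zsmul, (Submodule.mem_torsionBy_iff _ _).mp x.2,
      map_zero]⟩
  map_zero' := Subtype.ext (map_zero (pullR N r))
  map_add' x y := Subtype.ext (map_add (pullR N r) (x : JZero N) (y : JZero N))

theorem hasHopf_transfer {N r : ℕ} [NeZero N] [NeZero r] (hr : r.Prime) (hrN : ¬ r ∣ N) {ℓ : ℕ}
    {n : ℤ} (h : H19.HasHopf ℓ (torAct (N * r) n)) : H19.HasHopf ℓ (torAct N n) := by
  refine H19.HasHopf.of_injective h (pullTor N r n) (fun σ x => ?_) (fun x y hxy => ?_)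
  · exact Subtype.ext (pullR_smul N r σ (x : JZero N))
  · exact Subtype.ext (pullR_injective hr hrN (congrArg Subtype.val hxy))

/-- **the torsion of the modular Jacobian has a Hopf order at every prime not dividing the
level** -/
theorem hasHopf_torsion_nat (N : ℕ) [NeZero N] {ℓ : ℕ} (hℓ : ℓ.Prime) (hN : ¬ ℓ ∣ N) {m : ℕ}
    (hm : 0 < m) : H19.HasHopf ℓ (torAct N (m : ℤ)) := by
  have hnd : ∀ r : ℕ, r.Prime → r ≠ ℓ → ¬ ℓ ∣ N * r := by
    intro r hr hrl h
    rcases (Nat.Prime.dvd_mul hℓ).mp h with h | h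
    · exact hN h
    · exact hrl ((Nat.prime_dvd_prime_iff_eq hℓ hr).mp h).symm
  by_cases hyp : (2 ∣ N ∧ ℓ ≠ 2) ∨ (3 ∣ N ∧ ℓ ≠ 3)
  · exact hasHopf_good hℓ ⟨hN, hyp⟩ hm
  push Not at hyp
  haveI : NeZero 2 := ⟨by norm_num⟩
  haveI : NeZero 3 := ⟨by norm_num⟩
  by_cases h2 : ℓ = 2
  · have h3N : ¬ 3 ∣ N := fun h => by
      have := hyp.2 h
      omega
    have h3l : (3 : ℕ) ≠ ℓ := by omega
    exact hasHopf_transfer Nat.prime_three h3N
      (hasHopf_good hℓ ⟨hnd 3 Nat.prime_three h3l, Or.inr ⟨dvd_mul_left _ _, h3l.symm⟩⟩ hm)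
  · have h2N : ¬ 2 ∣ N := fun h => h2 (hyp.1 h)
    exact hasHopf_transfer Nat.prime_two h2N
      (hasHopf_good hℓ ⟨hnd 2 Nat.prime_two (Ne.symm h2), Or.inl ⟨dvd_mul_left _ _, h2⟩⟩ hm)

theorem hasHopf_torsion (N : ℕ) [NeZero N] {ℓ : ℕ} (hℓ : ℓ.Prime) (hN : ¬ ℓ ∣ N) (k : ℕ) :
    H19.HasHopf ℓ (torAct N ((ℓ : ℤ) ^ k)) := by
  have h := hasHopf_torsion_nat N hℓ hN (m := ℓ ^ k) (pow_pos hℓ.pos k)
  push_cast at h
  exact h

end Fermat.Agent.H02F
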